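import Fermat.Agent.JAC.XH.Gens
import Fermat.Agent.HM.Forms
import Fermat.Agent.MC.Lvl.CuspGenus
import Fermat.Prelude.Thm_UpperHalfPlane_qCoeff_heckeU
import Fermat.Prelude.Thm_UpperHalfPlane_qCoeff_heckeT
import Fermat.Prelude.Thm_ModularForm_periodic_heckeU_comp_ofComplex
import Fermat.Prelude.Thm_ModularForm_isBoundedAtImInfty_heckeU
import Fermat.Prelude.Thm_ModularForm_mdifferentiable_heckeU
import Fermat.Prelude.Thm_ModularForm_periodic_heckeT_comp_ofComplex
import Fermat.Prelude.Thm_ModularForm_isBoundedAtImInfty_heckeT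
import Fermat.Prelude.Thm_ModularForm_mdifferentiable_heckeT

/-!
# The Hecke ring of `X_H(N)` acts on cusp forms through `formHecke` and `formDia`

An eigenform of all Hecke and diamond operators gives a point of the Hecke ring with these
eigenvalues (`exists_point_of_eigenform`), and more generally an eigen system killed by the
relations on `S₂(Γ_H(N))` is a point (`exists_point`): this is how `GR/AttachProof/Main` gets from
an eigen system to the Jacobian.
-/

set_option autoImplicit false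
set_option linter.unusedSectionVars false

-- both lead to searches that are slow to fail on spaces over subfields of Laurent series
attribute [-instance] IsScalarTower.of_algHom RingHom.Finite.instFinite

noncomputable section

open scoped MatrixGroups ModularForm

namespace Fermat.JAC.XH

open Fermat.MC.Lvl
open Fermat.MC (qS BddPer)
open CongruenceSubgroup

variable (N : ℕ) [NeZero N] (H : Subgroup (ZMod N)ˣ) [NegMem H]

local notation "E₂" => Module.End ℂ (DiffDual (FL (GammaH N H) ℂ))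

/-- Diamonds fix `j`. -/
theorem diamond_jL (δ : Gamma0 N) :
    diamond (RingHom.id ℂ) δ (jL (GammaH N H) ℂ) = jL (GammaH N H) ℂ := by
  refine (toKW (GammaH N H) (RingHom.id ℂ)).injective ?_
  rw [toKW_diamond, toKW_jL, RatMap.homK_algebraMap]
  exact congrArg _ (Subtype.ext (funext fun z => Fermat.MC.jA_smul _ z))

/-- The diamond at `u` on differentials is the diamond at `u⁻¹` on cusp forms. -/
theorem diaReg_eS2 (u : (ZMod N)ˣ) (f : CuspForm (GammaH N H) 2) :
    diaReg N H u (eS2 (GammaH N H) f) = eS2 (GammaH N H) (HM.formDia N H u⁻¹ f) := by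
  have hδ : (((unitLift u : Gamma0 N) : SL(2, ℤ)) 0 0 : ZMod N) = ((u⁻¹ : (ZMod N)ˣ) : ZMod N) := by
    have h1 := Gamma0_entries (unitLift u).2
    have h2 : (((unitLift u : Gamma0 N) : SL(2, ℤ)) 1 1 : ZMod N) = (u : ZMod N) := by
      rw [← coe_gamma0Units, gamma0Units_unitLift]
    rw [h2] at h1
    exact (Units.inv_eq_of_mul_eq_one_left h1).symm
  have hg : ⇑(HM.formDia N H u⁻¹ f) = ⇑f ∣[(2 : ℤ)] ((unitLift u : Gamma0 N) : SL(2, ℤ)) := by
    rw [← HM.formPull_gamma0 (unitLift u).2 u⁻¹ hδ f, HM.IsLevelMap.coe_formPull, HM.toReal_gq,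
      ← ModularForm.SL_slash]
  refine Subtype.ext ?_
  change diffPull (diaC N H u).toAlgHom (formDiff (GammaH N H) f : Ω[FL (GammaH N H) ℂ⁄ℂ]) =
    (formDiff (GammaH N H) (HM.formDia N H u⁻¹ f) : Ω[FL (GammaH N H) ℂ⁄ℂ])
  rw [coe_formDiff, coe_formDiff, LinearMap.map_smul, diffPull_smul_D, phiS2_diamond _ f _ hg]
  change _ • (diamond (RingHom.id ℂ) (unitLift u) _ •
    KaehlerDifferential.D ℂ _ (diamond (RingHom.id ℂ) (unitLift u) (jL (GammaH N H) ℂ))) = _
  rw [diamond_jL]

/-- `U ℓ` preserves periodicity and boundedness at `∞`. -/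
theorem bddPer_heckeU {f : UpperHalfPlane → ℂ} (hf : BddPer f) (ℓ : ℕ) :
    BddPer (ModularForm.heckeU 2 ℓ f) :=
  ⟨ModularForm.mdifferentiable_heckeU hf.1 _ _,
    ModularForm.periodic_heckeU_comp_ofComplex hf.2.1 _ _,
    ModularForm.isBoundedAtImInfty_heckeU hf.2.2 _ _⟩

/-- `T ℓ` preserves periodicity and boundedness at `∞`. -/
theorem bddPer_heckeT {f : UpperHalfPlane → ℂ} (hf : BddPer f) (ℓ : ℕ) :
    BddPer (ModularForm.heckeT 2 ℓ f) :=
  ⟨ModularForm.mdifferentiable_heckeT hf.1 _ _,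
    ModularForm.periodic_heckeT_comp_ofComplex hf.2.1 _ _,
    ModularForm.isBoundedAtImInfty_heckeT hf.2.2 _ _⟩

/-- The finite representatives are the standard Hecke matrices. -/
theorem toReal_stdGL_some {ℓ : ℕ} [hℓ : Fact ℓ.Prime] (j : Fin ℓ)
    (h : (Option.some j : Option (Fin ℓ)) = none → ¬ ℓ ∣ N) :
    HM.toReal (HM.stdGL ℓ N ⟨Option.some j, h⟩) = ModularForm.heckeMatrix ℓ j := by
  refine Units.ext (Matrix.ext fun a b => ?_)
  rw [HM.toReal_apply, ModularForm.val_heckeMatrix hℓ.out.ne_zero, HM.coe_stdGL]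
  fin_cases a <;> fin_cases b <;> simp [HM.heckeMat]

/-- `U ℓ` as a sum over `Fin ℓ`. -/
theorem heckeU_eq (ℓ : ℕ) (f : UpperHalfPlane → ℂ) :
    ModularForm.heckeU 2 ℓ f = ∑ j : Fin ℓ, f ∣[(2 : ℤ)] ModularForm.heckeMatrix ℓ j := by
  rw [ModularForm.heckeU, Finset.sum_range]

/-- At `ℓ ∣ N` the Hecke operator on forms is `U ℓ`. -/
theorem coe_formHecke_of_dvd {ℓ : ℕ} [hℓ : Fact ℓ.Prime] (h : ℓ ∣ N)
    (f : CuspForm (GammaH N H) 2) :
    ⇑(HM.formHecke N H ℓ f) = ModularForm.heckeU 2 ℓ ⇑f := by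
  rw [HM.formHecke, HM.coe_formMap, heckeU_eq]
  refine (Fintype.sum_bijective
    (fun j : Fin ℓ => (⟨Option.some j, fun e => (Option.some_ne_none _ e).elim⟩ : HM.HeckeIdx ℓ N))
    ⟨fun a b e => Option.some_inj.mp (congrArg Subtype.val e), fun ⟨i, hi⟩ => ?_⟩ _ _
      fun j => ?_).symm
  · cases i with
    | none => exact absurd h (hi rfl)
    | some j => exact ⟨j, rfl⟩
  · change _ = ⇑f ∣[(2 : ℤ)] HM.toReal (HM.stdGL ℓ N _)
    rw [toReal_stdGL_some]

/-- At `ℓ ∤ N` the Hecke operator on forms is `U_ℓ` plus the diagonal part of `T_ℓ` applied to a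
diamond translate. -/
theorem coe_formHecke_of_not_dvd {ℓ : ℕ} [hℓ : Fact ℓ.Prime] (h : ¬ ℓ ∣ N)
    (f : CuspForm (GammaH N H) 2) :
    ⇑(HM.formHecke N H ℓ f) + ModularForm.heckeU 2 ℓ
        ⇑(HM.formDia N H (unitOf N hℓ.out h)⁻¹ f) =
      ModularForm.heckeU 2 ℓ ⇑f +
        ModularForm.heckeT 2 ℓ ⇑(HM.formDia N H (unitOf N hℓ.out h)⁻¹ f) := by
  set u := unitOf N hℓ.out h
  set g := HM.formDia N H u⁻¹ f
  suffices key : ⇑(HM.formHecke N H ℓ f) =
      ModularForm.heckeU 2 ℓ ⇑f + ⇑g ∣[(2 : ℤ)] ModularForm.heckeDiagMatrix ℓ by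
    rw [key, ModularForm.heckeT, add_assoc, add_comm (⇑g ∣[(2 : ℤ)] _)]
  rw [HM.formHecke, HM.coe_formMap, heckeU_eq,
    ← (Equiv.subtypeUnivEquiv (p := fun i : Option (Fin ℓ) => i = none → ¬ ℓ ∣ N)
      fun _ _ => h).symm.sum_comp, Fintype.sum_option, add_comm]
  congr 1
  · exact Finset.sum_congr rfl fun j _ => by
      change ⇑f ∣[(2 : ℤ)] HM.toReal (HM.stdGL ℓ N _) = _
      rw [Equiv.subtypeUnivEquiv_symm_apply, toReal_stdGL_some]
  · -- the last representative is a matrix of `Γ₀(N)` times `diag (ℓ, 1)`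
    have hb := HM.bezout (ℓ := ℓ) (N := N) h
    set δ : SL(2, ℤ) := ⟨!![Int.gcdA ℓ N, -Int.gcdB ℓ N; (N : ℤ), (ℓ : ℤ)], by
      rw [Matrix.det_fin_two_of]; linear_combination hb⟩ with hδdef
    have hmem : δ ∈ Gamma0 N := Gamma0_mem.mpr (by simp [δ])
    have hδu : ((δ 0 0 : ℤ) : ZMod N) = ((u⁻¹ : (ZMod N)ˣ) : ZMod N) := by
      have h1 := Gamma0_entries hmem
      have h2 : ((δ 1 1 : ℤ) : ZMod N) = (u : ZMod N) := by
        simp [δ, u, unitOf, ZMod.coe_unitOfCoprime]
      rw [h2] at h1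
      exact (Units.inv_eq_of_mul_eq_one_left h1).symm
    rw [show g = HM.formDia N H u⁻¹ f from rfl, ← HM.formPull_gamma0 hmem u⁻¹ hδu f,
      HM.IsLevelMap.coe_formPull, ← SlashAction.slash_mul]
    change ⇑f ∣[(2 : ℤ)] HM.toReal (HM.stdGL ℓ N _) = _
    refine congrArg (fun M => ⇑f ∣[(2 : ℤ)] M) (Units.ext (Matrix.ext fun a b => ?_))
    rw [HM.toReal_apply, HM.coe_stdGL, Units.val_mul, Matrix.mul_apply, Fin.sum_univ_two,
      HM.toReal_apply, HM.toReal_apply, ModularForm.val_heckeDiagMatrix hℓ.out.ne_zero, HM.coe_gq]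
    fin_cases a <;> fin_cases b <;> simp [HM.heckeMat, δ]

/-- The Hecke correspondence on differentials is the Hecke operator on cusp forms. -/
theorem corrH_eS2 (ℓ : ℕ) [hℓ : Fact ℓ.Prime] (f : CuspForm (GammaH N H) 2) :
    haveI : NeZero ℓ := ⟨hℓ.out.ne_zero⟩
    corrH N H ℓ (eS2 (GammaH N H) f) = eS2 (GammaH N H) (HM.formHecke N H ℓ f) := by
  have : NeZero ℓ := ⟨hℓ.out.ne_zero⟩
  have h0 := hℓ.out.ne_zero
  -- compare the coefficients of the expansions
  refine sub_eq_zero.mp (eq_zero_of_aCoeff _ _ fun n => ?_)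
  rw [map_sub, sub_eq_zero, aCoeff_eS2 (GammaH N H) n (HM.formHecke N H ℓ f)]
  rw [aCoeff_apply]
  obtain ⟨hd, hper, hb⟩ := bddPer_cuspForm f
  have hU := UpperHalfPlane.qCoeff_heckeU (f := ⇑f) (by exact_mod_cast hper) hd hb 2 h0 n
  by_cases h : ℓ ∣ N
  · rw [qdiff_corrH_of_dvd N H hℓ.out h, ← Nat.cast_mul, ← aCoeff_apply,
      coe_formHecke_of_dvd N H h f, hU, ModularForm.coeffHeckeU_apply, aCoeff_eS2, mul_comm]
  · rw [qdiff_corrH_of_not_dvd N H hℓ.out h, ← Nat.cast_mul, ← aCoeff_apply, diaReg_eS2,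
      ← Int.natCast_div, ← aCoeff_apply, aCoeff_eS2, aCoeff_eS2]
    simp only [Int.natCast_dvd_natCast]
    obtain ⟨hd', hper', hb'⟩ := bddPer_cuspForm (HM.formDia N H (unitOf N hℓ.out h)⁻¹ f)
    have hU' := UpperHalfPlane.qCoeff_heckeU
      (f := ⇑(HM.formDia N H (unitOf N hℓ.out h)⁻¹ f)) (by exact_mod_cast hper') hd' hb' 2 h0 n
    have hT' := UpperHalfPlane.qCoeff_heckeT
      (f := ⇑(HM.formDia N H (unitOf N hℓ.out h)⁻¹ f)) (by exact_mod_cast hper') hd' hb' 2 h0 n
    have e := congrArg (fun s => (qS s).coeff (n : ℤ)) (coe_formHecke_of_not_dvd N H h f)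
    simp only [Fermat.MC.qS_add (bddPer_cuspForm _) (bddPer_heckeU (bddPer_cuspForm _) ℓ),
      Fermat.MC.qS_add (bddPer_heckeU (bddPer_cuspForm f) ℓ)
        (bddPer_heckeT (bddPer_cuspForm (HM.formDia N H (unitOf N hℓ.out h)⁻¹ f)) ℓ),
      HahnSeries.coeff_add, X0.coeff_qS, hU, hU', hT', ModularForm.coeffHeckeU_apply,
      ModularForm.coeffHeckeT_apply] at e
    rw [mul_comm ℓ n]
    split_ifs with hdn
    · rw [if_pos hdn] at e
      norm_num at e
      linear_combination -e
    · rw [if_neg hdn] at e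
      linear_combination -e

/-- The generators of the Hecke ring as images of the labels. -/
def ringEval : MvPolynomial (Nat.Primes ⊕ (ZMod N)ˣ) ℤ →+* (heckeGens N H).R :=
  -- given explicitly, as the instance search takes seconds
  letI : CommSemiring (heckeGens N H).R := (heckeGens N H).commRing.toCommSemiring
  (MvPolynomial.aeval (Sum.elim (tOp N H) (dOp N H))).toRingHom

section

/-- A shortcut, as the instance search is slow on this ring. -/
private local instance (priority := high) heckeRingCommSemiring : CommSemiring (heckeGens N H).R :=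
  (heckeGens N H).commRing.toCommSemiring

/-- A shortcut, as the instance search is slow on this ring. -/
private local instance (priority := high) heckeRingSemiring : Semiring (heckeGens N H).R :=
  (Algebra.adjoin ℤ (heckeGens N H).gens).toSemiring

/-- The label of a prime goes to its Hecke operator. -/
theorem ringEval_inl (ℓ : Nat.Primes) : ringEval N H (MvPolynomial.X (Sum.inl ℓ)) = tOp N H ℓ :=
  MvPolynomial.aeval_X _ _

/-- The label of a unit goes to its diamond. -/
theorem ringEval_inr (u : (ZMod N)ˣ) : ringEval N H (MvPolynomial.X (Sum.inr u)) = dOp N H u :=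
  MvPolynomial.aeval_X _ _

set_option maxRecDepth 1024 in -- headroom for the instance searches on regular differentials
/-- The Hecke ring is the transpose of the Hecke algebra of cusp forms. -/
theorem ringEval_apply (P : MvPolynomial (Nat.Primes ⊕ (ZMod N)ˣ) ℤ)
    (w : DiffDual (FL (GammaH N H) ℂ)) (g : CuspForm (GammaH N H) 2) :
    (ringEval N H P : E₂) w (eS2 (GammaH N H) g) =
      w (eS2 (GammaH N H) (HM.formAct N H P g)) := by
  induction P using MvPolynomial.induction_on generalizing w g with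
  | C n => simp [ringEval, ← Int.cast_smul_eq_zsmul ℂ]
  | add P Q hP hQ => simp [map_add, hP, hQ]
  | mul_X P i hP =>
    rw [map_mul, Subalgebra.coe_mul, Module.End.mul_apply, hP, mul_comm P, map_mul,
      Module.End.mul_apply, HM.formAct_X]
    rcases i with ℓ | u
    · have : Fact (ℓ : ℕ).Prime := ⟨ℓ.2⟩
      rw [ringEval_inl]
      exact congrArg w (corrH_eS2 N H (ℓ : ℕ) _)
    · rw [ringEval_inr]
      change diaOp N H u w _ = _
      rw [diaOp_eq]
      change w (diaReg N H u⁻¹ _) = _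
      rw [diaReg_eS2, inv_inv]
      rfl

/-- A relation in the ring is a relation on cusp forms, and conversely. -/
theorem ringEval_eq_zero_iff (P : MvPolynomial (Nat.Primes ⊕ (ZMod N)ˣ) ℤ) :
    ringEval N H P = 0 ↔ HM.formAct N H P = 0 := by
  refine ⟨fun h => LinearMap.ext fun g => ?_, fun h => Subtype.ext (LinearMap.ext fun w =>
    LinearMap.ext fun ω => ?_)⟩
  · refine (eS2 (GammaH N H)).map_eq_zero_iff.mp
      ((Module.forall_dual_apply_eq_zero_iff ℂ _).mp fun w => ?_)
    have e := ringEval_apply N H P w g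
    rw [h] at e
    exact e.symm
  · obtain ⟨g, rfl⟩ := (eS2 (GammaH N H)).surjective ω
    rw [ringEval_apply, h, LinearMap.zero_apply, map_zero, map_zero]
    rfl

/-- The labels generate the ring. -/
theorem ringEval_surjective : Function.Surjective (ringEval N H) := by
  intro t
  have h : Algebra.adjoin ℤ (gensSet N H) ≤
      ((MvPolynomial.aeval (R := ℤ) (Sum.elim (tOp N H) (dOp N H))).range.map
        (Algebra.adjoin ℤ (heckeGens N H).gens).val) := Algebra.adjoin_le (by
    rintro f (⟨ℓ, rfl⟩ | ⟨u, rfl⟩)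
    · exact ⟨tOp N H ℓ, ⟨_, ringEval_inl N H ℓ⟩, rfl⟩
    · exact ⟨dOp N H u, ⟨_, ringEval_inr N H u⟩, rfl⟩)
  obtain ⟨t', ⟨P, hP⟩, e⟩ := h t.2
  exact ⟨P, hP.trans (Subtype.ext e)⟩

end

/-- **Eigen systems of cusp forms give points of the Hecke ring of `X_H(N)`**: a system of
values killed by every relation between the operators on `S₂(Γ_H(N))` gives a point. -/
theorem exists_point {A : Type*} [CommRing A]
    (x : MvPolynomial (Nat.Primes ⊕ (ZMod N)ˣ) ℤ →+* A)
    (hx : ∀ P, HM.formAct N H P = 0 → x P = 0) :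
    ∃ f : (heckeGens N H).R →+* A, (∀ ℓ, f (tOp N H ℓ) = x (MvPolynomial.X (Sum.inl ℓ))) ∧
      ∀ u, f (dOp N H u) = x (MvPolynomial.X (Sum.inr u)) := by
  let : Ring (heckeGens N H).R := (heckeGens N H).commRing.toRing
  let f := (ringEval N H).liftOfSurjective (ringEval_surjective N H)
    ⟨x, fun P hP => (RingHom.mem_ker).mpr (hx P ((ringEval_eq_zero_iff N H P).mp
      (RingHom.mem_ker.mp hP)))⟩
  have hf : ∀ P, f (ringEval N H P) = x P := fun P =>
    RingHom.liftOfRightInverse_comp_apply _ _ _ _ P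
  exact ⟨f, fun ℓ => by rw [← ringEval_inl, hf], fun u => by rw [← ringEval_inr, hf]⟩

/-- An eigenform of all operators gives a complex point with the values of the eigen system. -/
theorem exists_point_of_eigenform {f : CuspForm (GammaH N H) 2} (hf : f ≠ 0)
    (c : Nat.Primes ⊕ (ZMod N)ˣ → ℂ) (hc : ∀ i, HM.formOp N H i f = c i • f) :
    ∃ χ : (heckeGens N H).R →+* ℂ,
      (∀ ℓ, χ (tOp N H ℓ) = c (Sum.inl ℓ)) ∧ ∀ u, χ (dOp N H u) = c (Sum.inr u) := by
  have key : ∀ P, HM.formAct N H P f = MvPolynomial.aeval c P • f := fun P => by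
    induction P using MvPolynomial.induction_on with
    | C n => simp [Int.cast_smul_eq_zsmul]
    | add P Q hP hQ => simp [hP, hQ, add_smul]
    | mul_X P i hP =>
      rw [map_mul, Module.End.mul_apply, HM.formAct_X, hc, map_smul, hP, map_mul,
        MvPolynomial.aeval_X, smul_smul, mul_comm]
  obtain ⟨χ, h1, h2⟩ := exists_point N H (MvPolynomial.aeval (R := ℤ) c).toRingHom fun P hP => by
    have h := key P
    rw [hP, LinearMap.zero_apply] at h
    exact (smul_eq_zero.mp h.symm).resolve_right hf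
  exact ⟨χ, fun ℓ => (h1 ℓ).trans (MvPolynomial.aeval_X _ _),
    fun u => (h2 u).trans (MvPolynomial.aeval_X _ _)⟩

end Fermat.JAC.XH

end
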