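import Fermat.Agent.JAC.XH.Degree
import Fermat.Agent.MC.Lvl.Diamond
import Fermat.Agent.JAC.CorrTools
import Fermat.Agent.JAC.PicLift

/-!
# Diamond operators, the degeneracy maps and extension of constants

Among them are `diamond_lbc`, `diamond_betaH` and `exists_diamond_up`.
-/

set_option autoImplicit false

noncomputable section

open ModularCurve CongruenceSubgroup
open scoped MatrixGroups

namespace Fermat.JAC.XH

open Fermat.MC.Lvl
open Fermat.JAC.X0 (Qbar embC)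

section Generic

variable {G G' : Subgroup SL(2, ℤ)} [LevelGen G] [LevelGen G'] (Φ : RatMap G G') (Ψ : RatMap G G)
  (Ψ' : RatMap G' G')

/-- Squares of maps of levels commute on function fields. -/
theorem mapL_square (h : ∀ f : W G, Ψ'.hom (Φ.hom f) = Φ.hom (Ψ.hom f)) {L : Type*} [Field L]
    [Algebra ℚ L] (ι : L →+* ℂ) (x : FL G L) :
    Ψ'.mapL ι (Φ.mapL ι x) = Φ.mapL ι (Ψ.mapL ι x) := by
  refine (toKW G' ι).injective ?_
  rw [RatMap.toKW_mapL, RatMap.toKW_mapL, RatMap.toKW_mapL, RatMap.toKW_mapL]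
  obtain ⟨a, b, -, hab⟩ := IsFractionRing.div_surjective (A := W G) (toKW G ι x)
  rw [← hab]
  simp only [map_div₀, RatMap.homK_algebraMap, h]

attribute [local instance 10000] SubalgebraClass.toAlgebra HahnSeries.powerSeriesAlgebra

/-- A function over `ℚ̄` and its image over `ℂ` are the same meromorphic function. -/
theorem toKW_lbc (f : FL G Qbar) :
    toKW G (RingHom.id ℂ) (algebraMap (FL G Qbar) (FL G ℂ) f) = toKW G embC f :=
  (qK G).injective (by rw [qK_toKW, qK_toKW, ModularCurve.coeffMap_id]; rfl)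

/-- Maps of levels commute with the extension of constants. -/
theorem mapL_lbc (f : FL G Qbar) :
    Φ.mapL (RingHom.id ℂ) (algebraMap (FL G Qbar) (FL G ℂ) f) =
      algebraMap (FL G' Qbar) (FL G' ℂ) (Φ.mapL embC f) :=
  (toKW G' (RingHom.id ℂ)).injective (by
    rw [RatMap.toKW_mapL, toKW_lbc, toKW_lbc, RatMap.toKW_mapL])

end Generic

variable {N : ℕ} [NeZero N] {H : Subgroup (ZMod N)ˣ} [NegMem H]

/-- Diamonds commute with the extension of constants. -/
theorem diamond_lbc (δ : Gamma0 N) (f : FL (GammaH N H) Qbar) :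
    diamond (RingHom.id ℂ) δ (algebraMap (FL (GammaH N H) Qbar) (FL (GammaH N H) ℂ) f) =
      algebraMap (FL (GammaH N H) Qbar) (FL (GammaH N H) ℂ) (diamond embC δ f) :=
  mapL_lbc _ f

/-- Diamonds commute with the action on the coefficients of expansions. -/
theorem diamond_smul {L : Type*} [Field L] [Algebra ℚ L] (ι : L →+* ℂ) (δ : Gamma0 N)
    (σ : L ≃ₐ[ℚ] L) (f : FL (GammaH N H) L) :
    diamond ι δ (arithmeticGalois (FQ (GammaH N H)) σ • f) =
      arithmeticGalois (FQ (GammaH N H)) σ • diamond ι δ f :=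
  Subtype.ext (diamond_coeffMap ι δ σ.toAlgHom f _)

variable (ℓ : ℕ) [NeZero ℓ] {L : Type*} [Field L] [Algebra ℚ L] (ι : L →+* ℂ)

/-- `α` is induced by the inclusion of levels. -/
theorem alphaH_eq (x : FL (GammaH N H) L) :
    alphaH N H ℓ L x = (inclMap (up_le N H ℓ)).mapL ι x :=
  Subtype.ext (by rw [coe_inclFL, coe_mapL_inclMap])

/-- `β` is induced by multiplication by `ℓ`. -/
theorem betaH_eq (x : FL (GammaH N H) L) :
    betaH N H ℓ L x = (scaleMap (scaleLe_up N H ℓ)).mapL ι x :=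
  Subtype.ext (by rw [coe_scaleFL, coe_mapL_scaleMap])

omit [NeZero N] [NeZero ℓ] in
/-- `Γ₀(N ℓ)` lies in `Γ₀(N)`. -/
theorem mem_of_up (δ : Gamma0 (N * ℓ)) : (δ : SL(2, ℤ)) ∈ Gamma0 N :=
  Fermat.MC.Gamma0_le_of_dvd (N * ℓ) (dvd_mul_right N ℓ) δ.2

/-- Diamonds commute with `α`. -/
theorem diamond_alphaH (δ : Gamma0 (N * ℓ)) (x : FL (GammaH N H) L) :
    diamond ι δ (alphaH N H ℓ L x) = alphaH N H ℓ L (diamond ι ⟨δ, mem_of_up ℓ δ⟩ x) := by
  rw [alphaH_eq ℓ ι, alphaH_eq ℓ ι]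
  exact mapL_square (inclMap (up_le N H ℓ)) (transMap (ratNormal_Gamma0 (mem_of_up ℓ δ)))
    (transMap (ratNormal_Gamma0 δ.2)) (fun f => rfl) ι x

omit [NeZero N] in
/-- A diamond matrix commutes with multiplication by `ℓ` up to one with the same character. -/
theorem exists_conj_scale (δ : Gamma0 (N * ℓ)) :
    ∃ δ' : Gamma0 N, gamma0Units N δ' = gamma0Units N ⟨δ, mem_of_up ℓ δ⟩ ∧
      ∀ z : UpperHalfPlane, Fermat.MC.affH (Fermat.MC.posN ℓ) 0 ((δ : SL(2, ℤ)) • z) =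
        (δ' : SL(2, ℤ)) • Fermat.MC.affH (Fermat.MC.posN ℓ) 0 z := by
  obtain ⟨γ, hγ⟩ := δ
  have h0 := Gamma0_mem.mp hγ
  rw [ZMod.intCast_zmod_eq_zero_iff_dvd] at h0
  obtain ⟨m, hm⟩ := h0
  have hdet : γ 0 0 * γ 1 1 - γ 0 1 * γ 1 0 = 1 :=
    (Matrix.det_fin_two (γ : Matrix (Fin 2) (Fin 2) ℤ)).symm.trans γ.2
  push_cast at hm
  let δ' : SL(2, ℤ) := ⟨!![γ 0 0, (ℓ : ℤ) * γ 0 1; (N : ℤ) * m, γ 1 1], by
    rw [Matrix.det_fin_two_of]
    rw [hm] at hdet
    linear_combination hdet⟩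
  have hδ : δ' ∈ Gamma0 N := by
    rw [Gamma0_mem, ZMod.intCast_zmod_eq_zero_iff_dvd]
    exact ⟨m, by simp [δ']⟩
  refine ⟨⟨δ', hδ⟩, Units.ext (by simp [δ']), fun z => ?_⟩
  rw [Fermat.MC.affH_posN_smul ℓ γ δ' (g := ℓ) (b := 0) (d := 1)
    (by exact_mod_cast NeZero.pos ℓ) one_pos (by simp [δ']; ring) (by simp [δ'])
    (by simp [δ', hm]; ring) (by simp [δ'])]
  simp [Fermat.MC.posN]

/-- Diamonds commute with `β`. -/
theorem diamond_betaH (δ : Gamma0 (N * ℓ)) (x : FL (GammaH N H) L) :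
    diamond ι δ (betaH N H ℓ L x) = betaH N H ℓ L (diamond ι ⟨δ, mem_of_up ℓ δ⟩ x) := by
  obtain ⟨δ', hu, hz⟩ := exists_conj_scale ℓ δ
  rw [diamond_eq_of_units ι (δ := ⟨δ, mem_of_up ℓ δ⟩) (δ' := δ') (by
    rw [hu, mul_inv_cancel]; exact one_mem H), betaH_eq ℓ ι, betaH_eq ℓ ι]
  refine mapL_square _ _ _ (fun f => Subtype.ext (funext fun z => ?_)) ι x
  change (f : UpperHalfPlane → ℂ) (Fermat.MC.affH _ 0 ((δ : SL(2, ℤ)) • z)) = _
  rw [hz]
  rfl

/-- Each diamond operator is induced from level `N ℓ` compatibly with both degeneracy maps. -/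
theorem exists_diamond_up (u : (ZMod N)ˣ) :
    ∃ d' : FL (GammaH (N * ℓ) (upH N H ℓ)) L ≃ₐ[L] FL (GammaH (N * ℓ) (upH N H ℓ)) L,
      (∀ x, d' (alphaH N H ℓ L x) = alphaH N H ℓ L (diamondHom H ι u x)) ∧
      ∀ x, d' (betaH N H ℓ L x) = betaH N H ℓ L (diamondHom H ι u x) := by
  obtain ⟨u', rfl⟩ := ZMod.unitsMap_surjective (dvd_mul_right N ℓ) u
  have e : (diamondHom H ι (ZMod.unitsMap (dvd_mul_right N ℓ) u') :
      FL (GammaH N H) L ≃ₐ[L] FL (GammaH N H) L) =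
        diamond ι ⟨_, mem_of_up ℓ (unitLift u')⟩ := by
    rw [← diamondHom_gamma0Units]
    refine congrArg _ (Units.ext ?_)
    have h := congrArg Units.val (gamma0Units_unitLift u')
    simp only [coe_gamma0Units] at h
    simp [ZMod.unitsMap, ← h]
  rw [e]
  exact ⟨diamond ι (unitLift u'), diamond_alphaH ℓ ι _, diamond_betaH ℓ ι _⟩

end Fermat.JAC.XH

end
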