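import Fermat.Agent.JAC.XH.FrickeField

/-!
# The Fricke involution, the degeneracy maps, the constants and the Galois action

The main results are `frL_alphaH` and `frL_betaH`: the involutions exchange the degeneracy maps.
-/

set_option autoImplicit false
set_option linter.unusedSectionVars false

noncomputable section

open CongruenceSubgroup IntermediateField
open ModularCurve (coeffEmb coeffMap qExpand jq arithmeticGalois coe_arithmeticGalois_smul
  coeffEmb_mem_laurentBaseChange)
open UpperHalfPlane hiding I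
open scoped MatrixGroups

namespace Fermat.JAC.XH

open Fermat.MC.Lvl
open Fermat.MC (xiQ jN affH posN coe_affH)

/-- `zetaC N` is a primitive root of unity. -/
theorem isPrimitiveRoot_zetaC (N : ℕ) [NeZero N] : IsPrimitiveRoot (zetaC N) N := by
  have h := Complex.isPrimitiveRoot_exp N (NeZero.ne N)
  rwa [show zetaC N = Complex.exp (2 * Real.pi * Complex.I / N) by
    rw [zetaC, qz, mul_one_div]]

section Galois

variable (N : ℕ) [NeZero N] {L : Type*} [Field L] [Algebra ℚ L] (ι : L →+* ℂ) [HasZeta N ι]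

/-- `zetaL N` is a primitive root of unity. -/
theorem isPrimitiveRoot_zetaL : IsPrimitiveRoot (zetaL N ι) N :=
  IsPrimitiveRoot.of_map_of_injective (f := ι)
    (by rw [map_zetaL]; exact isPrimitiveRoot_zetaC N) ι.injective

/-- The cyclotomic character modulo `N`. -/
def cycN : (L ≃ₐ[ℚ] L) →* (ZMod N)ˣ := (isPrimitiveRoot_zetaL N ι).autToPow ℚ

/-- The character describes the action on the root of unity. -/
theorem cycN_spec (σ : L ≃ₐ[ℚ] L) : σ (zetaL N ι) = zetaL N ι ^ (cycN N ι σ : ZMod N).val :=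
  ((isPrimitiveRoot_zetaL N ι).autToPow_spec ℚ σ).symm

variable (H : Subgroup (ZMod N)ˣ) [NegMem H]

/-- Diamonds fix `j`. -/
theorem diamondHom_jL (u : (ZMod N)ˣ) :
    diamondHom H ι u (jL (GammaH N H) L) = jL (GammaH N H) L := by
  refine (toKW (GammaH N H) ι).injective ?_
  change toKW _ ι (diamond ι (unitLift u) _) = _
  rw [toKW_diamond, toKW_jL, RatMap.homK_algebraMap]
  exact congrArg _ (Subtype.ext (funext fun z => Fermat.MC.jA_smul _ _))

/-- The candidate generator attached to a class. -/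
def gWt (t : ℕ) (d : ZMod N) : W (GammaH N H) :=
  (⟨gW H d, gW_mem_W d⟩ : W (GammaH N H)) + t • ⟨jN N, jN_mem_W_GammaH⟩

/-- The expansion of its Fricke transform. -/
def frSeries (t : ℕ) (d : ZMod N) : LaurentSeries L :=
  colL (zetaL N ι) (hSet H d) * qExpand L N (coeffEmb L (xiQ ^ 2)) + t • coeffEmb L jq

/-- The Fricke image of a candidate has the expansion `frSeries`. -/
theorem qW_frW_gWt (t : ℕ) (d : ZMod N) :
    qW (GammaH N H) (frW H (gWt N H t d)) = coeffMap ι (frSeries N ι H t d) := by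
  have : CharZero L := charZero_of_injective_algebraMap (algebraMap ℚ L).injective
  rw [gWt, map_add, map_nsmul, frW_jN, map_add, map_nsmul, qW_frW_gW H, qW_jW, frSeries,
    map_add, map_nsmul, map_mul, coeffMap_colL, map_zetaL, ModularCurve.coeffMap_qExpand,
    Fermat.MC.coeffMap_ι_coeffEmb, Fermat.MC.coeffMap_ι_coeffEmb]

/-- Diamond translates of a candidate are candidates. -/
theorem normW_gWt (δ : Gamma0 N) (t : ℕ) :
    normW (fun _ hγ => conj_mem_GammaH δ.2 hγ) (genCand H t) =
      gWt N H t ((gamma0Units N δ : (ZMod N)ˣ) : ZMod N) := by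
  rw [normW_genCand δ.2, gWt, coe_gamma0Units]

attribute [local instance 10000] SubalgebraClass.toAlgebra HahnSeries.powerSeriesAlgebra

/-- The diamond translate of the candidate generator. -/
theorem toKW_diamondHom_genCand (t : ℕ) (u : (ZMod N)ˣ) (z : FL (GammaH N H) L)
    (hz : toKW (GammaH N H) ι z =
      algebraMap (W (GammaH N H)) (KW (GammaH N H)) (genCand H t)) :
    toKW (GammaH N H) ι (diamondHom H ι u z) =
      algebraMap (W (GammaH N H)) (KW (GammaH N H)) (gWt N H t (u : ZMod N)) := by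
  have h := normW_gWt N H (unitLift u) t
  rw [gamma0Units_unitLift] at h
  rw [← h]
  change toKW (GammaH N H) ι (diamond ι (unitLift u) z) = _
  rw [toKW_diamond, hz, RatMap.homK_algebraMap]
  rfl

/-- Translating the class of `1` by a unit gives the class of its inverse. -/
theorem hSet_mul (χ : (ZMod N)ˣ) :
    {v : ZMod N | ((χ⁻¹ : (ZMod N)ˣ) : ZMod N) * v ∈ hSet H 1} =
      hSet H ((χ⁻¹ : (ZMod N)ˣ) : ZMod N) := by
  ext v
  simp [hSet, mul_comm]

/-- Galois moves the class of the series by the inverse of the character. -/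
theorem coeffMap_frSeries (t : ℕ) (σ : L ≃ₐ[ℚ] L) :
    coeffMap (σ : L →+* L) (frSeries N ι H t 1) =
      frSeries N ι H t (((cycN N ι σ)⁻¹ : (ZMod N)ˣ) : ZMod N) := by
  have : CharZero L := charZero_of_injective_algebraMap (algebraMap ℚ L).injective
  rw [frSeries, frSeries, map_add, map_nsmul, map_mul, coeffMap_colL,
    ModularCurve.coeffMap_qExpand, ModularCurve.coeffMap_coeffEmb, ModularCurve.coeffMap_coeffEmb,
    show (σ : L →+* L) (zetaL N ι) = zetaL N ι ^ (cycN N ι σ : ZMod N).val from cycN_spec N ι σ]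
  refine congrArg (fun u => u * _ + _) ?_
  ext k
  rcases lt_or_ge k 0 with hk | hk
  · rw [colL, colL, ModularCurve.ofPowerSeries_coeff_of_neg _ hk,
      ModularCurve.ofPowerSeries_coeff_of_neg _ hk]
  · obtain ⟨n, rfl⟩ := Int.eq_ofNat_of_zero_le hk
    rw [coeff_colL, coeff_colL, colC_pow (zetaL_pow N ι), hSet_mul]

/-- **The Galois action on the Fricke involution.** -/
theorem smul_frL (σ : L ≃ₐ[ℚ] L) (x : FL (GammaH N H) L) :
    arithmeticGalois (L := L) (FQ (GammaH N H)) σ • frL N H ι x =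
      frL N H ι (diamondHom H ι (cycN N ι σ)⁻¹
        (arithmeticGalois (L := L) (FQ (GammaH N H)) σ • x)) := by
  have : CharZero L := charZero_of_injective_algebraMap (algebraMap ℚ L).injective
  set G := GammaH N H
  -- giving `L` explicitly avoids a slow comparison of `Algebra` instances at each occurrence
  have hfix : ∀ (y : LaurentSeries ℚ) (hy : coeffEmb L y ∈ FL G L),
      arithmeticGalois (L := L) (FQ G) σ • (⟨coeffEmb L y, hy⟩ : FL G L) =
        ⟨coeffEmb L y, hy⟩ := fun y hy =>
    Subtype.ext (ModularCurve.coeffMap_coeffEmb σ y)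
  have hj : arithmeticGalois (L := L) (FQ G) σ • frL N H ι (jL G L) =
      frL N H ι (diamondHom H ι (cycN N ι σ)⁻¹ (arithmeticGalois (L := L) (FQ G) σ • jL G L)) := by
    have e : (frL N H ι (jL G L) : LaurentSeries L) = coeffEmb L (qExpand ℚ N jq) :=
      coe_frL_of_qW N H ι (toKW_jL G ι)
        ((qW_frW_jW H).trans (Fermat.MC.coeffMap_ι_coeffEmb ι _).symm)
    have e' : arithmeticGalois (L := L) (FQ G) σ • jL G L = jL G L :=
      Subtype.ext (ModularCurve.coeffMap_coeffEmb σ jq)
    rw [e', diamondHom_jL]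
    exact Subtype.ext (by rw [coe_arithmeticGalois_smul, e, ModularCurve.coeffMap_coeffEmb])
  -- both sides are ring homomorphisms in `x`, so it is enough to check `j` and a second generator
  suffices key : ∃ (f : W G) (z : FL G L),
      toKW G ι z = algebraMap (W G) (KW G) f ∧
      (Function.Injective fun q => conjHom G q f) ∧
      arithmeticGalois (L := L) (FQ G) σ • frL N H ι z =
        frL N H ι (diamondHom H ι (cycN N ι σ)⁻¹ (arithmeticGalois (L := L) (FQ G) σ • z)) by
    obtain ⟨f, z, hz, hinj, hzeq⟩ := key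
    have htop := adjoin_pair_eq_top_of_injective ι hz hinj
    refine IntermediateField.adjoin_induction L
      (p := fun y _ => arithmeticGalois (L := L) (FQ G) σ • frL N H ι y =
        frL N H ι (diamondHom H ι (cycN N ι σ)⁻¹ (arithmeticGalois (L := L) (FQ G) σ • y)))
      (fun y hy => ?_) (fun c => ?_) (fun a b _ _ ha hb => ?_) (fun a _ ha => ?_)
      (fun a b _ _ ha hb => ?_) (htop.ge (mem_top (x := x)))
    · rcases hy with rfl | rfl
      · exact hj
      · exact hzeq
    · rw [AlgEquiv.commutes, AlgebraicCurve.SemilinearAut.smul_algebraMap, AlgEquiv.commutes,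
        AlgEquiv.commutes]
    · simp only [map_add, smul_add, ha, hb]
    · simp only [map_inv₀, smul_inv'', ha]
    · simp only [map_mul, smul_mul', ha, hb]
  by_cases h1 : 1 < N
  · obtain ⟨t, ht⟩ := exists_separating N H
    set r := gQ (hSet H 1) * xiQ ^ 2 + t • qExpand ℚ N jq
    refine ⟨genCand H t, ⟨coeffEmb L r, coeffEmb_mem_laurentBaseChange L
      (mem_FQ_of_qW G _ (qW_genCand h1 t))⟩, (qK G).injective (by
        rw [qK_toKW, qK_algebraMap, qW_genCand h1 t]
        exact Fermat.MC.coeffMap_ι_coeffEmb ι _), ht h1, ?_⟩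
    rw [hfix]
    set z : FL G L := ⟨coeffEmb L r, _⟩
    set χ := cycN N ι σ with hχ
    have hz : toKW G ι z = algebraMap (W G) (KW G) (genCand H t) := (qK G).injective (by
      rw [qK_toKW, qK_algebraMap, qW_genCand h1 t]
      exact Fermat.MC.coeffMap_ι_coeffEmb ι _)
    have e1 : (frL N H ι z : LaurentSeries L) = frSeries N ι H t 1 :=
      coe_frL_of_qW N H ι hz (qW_frW_gWt N ι H t 1)
    have e2 : (frL N H ι (diamondHom H ι χ⁻¹ z) : LaurentSeries L) =
        frSeries N ι H t ((χ⁻¹ : (ZMod N)ˣ) : ZMod N) :=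
      coe_frL_of_qW N H ι (toKW_diamondHom_genCand N ι H t χ⁻¹ z hz) (qW_frW_gWt N ι H t _)
    refine Subtype.ext ?_
    rw [coe_arithmeticGalois_smul, e1, e2, coeffMap_frSeries]
  · exact ⟨jW G, jL G L, toKW_jL G ι, conjHom_jW_injective_of_not N H h1, hj⟩

end Galois

section Compat

variable {N : ℕ} [NeZero N] {H : Subgroup (ZMod N)ˣ} [NegMem H]

variable (ℓ : ℕ) [NeZero ℓ] {L : Type*} [Field L] [Algebra ℚ L] (ι : L →+* ℂ) [HasZeta N ι]
  [HasZeta (N * ℓ) ι]

/-- The Fricke substitutions of levels `N` and `N ℓ` differ by multiplication by `ℓ`. -/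
theorem frPt_scale (z : ℍ) :
    affH (posN ℓ) 0 (frPt (N * ℓ) z) = frPt N z ∧
      frPt (N * ℓ) z = frPt N (affH (posN ℓ) 0 z) := by
  have hN : (N : ℂ) ≠ 0 := Nat.cast_ne_zero.mpr (NeZero.ne N)
  have hl : (ℓ : ℂ) ≠ 0 := Nat.cast_ne_zero.mpr (NeZero.ne ℓ)
  constructor <;> apply UpperHalfPlane.ext
  · rw [coe_affH, coe_frPt, coe_frPt]
    simp [posN]
    field_simp [UpperHalfPlane.ne_zero z]
  · rw [coe_frPt, coe_frPt, coe_affH]
    simp [posN]
    ring

/-- The Fricke involutions exchange the degeneracy maps. -/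
theorem frL_alphaH (x : FL (GammaH N H) L) :
    frL (N * ℓ) (upH N H ℓ) ι (alphaH N H ℓ L x) = betaH N H ℓ L (frL N H ι x) := by
  rw [alphaH_eq ℓ ι, betaH_eq ℓ ι]
  refine (toKW _ ι).injective ?_
  rw [toKW_frL, RatMap.toKW_mapL, RatMap.toKW_mapL, toKW_frL]
  obtain ⟨a, b, -, hab⟩ := IsFractionRing.div_surjective (A := W (GammaH N H))
    (toKW (GammaH N H) ι x)
  have hW : ∀ f : W (GammaH N H),
      frW (upH N H ℓ) ((inclMap (up_le N H ℓ)).hom f) =
        (scaleMap (scaleLe_up N H ℓ)).hom (frW H f) := fun f =>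
    Subtype.ext (funext fun z => congrArg (f : ℍ → ℂ) (frPt_scale (N := N) ℓ z).2)
  rw [← hab]
  simp only [map_div₀, RatMap.homK_algebraMap, frK_algebraMap, hW]

/-- The Fricke involutions turn `β` into `α`. -/
theorem frL_betaH (x : FL (GammaH N H) L) :
    frL (N * ℓ) (upH N H ℓ) ι (betaH N H ℓ L x) = alphaH N H ℓ L (frL N H ι x) := by
  have h := frL_alphaH ℓ ι (frL N H ι x)
  rw [frL_frL] at h
  rw [← h, frL_frL]

end Compat

end Fermat.JAC.XH

end
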