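import Fermat.Agent.JAC.XH.Degree
import Fermat.Agent.MC.Lvl.Diamond

/-!
# The embedding of level `N ℓ` at the cusp moved by the Atkin-Lehner matrix at `ℓ`

The matrix is `swapMat`, and `swapTau_alpha`, `swapTau_beta` compute the restrictions along the
two maps.
-/

set_option autoImplicit false
set_option linter.unusedSectionVars false

noncomputable section

open ModularCurve CongruenceSubgroup
open UpperHalfPlane hiding I
open scoped MatrixGroups

namespace Fermat.JAC.XH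

open Fermat.MC.Lvl
open Fermat.MC (compSL compSL_mul affH coe_affH posN compHom qL perAlg mem_perAlg_of_periodic)

variable (N : ℕ) [NeZero N] (H : Subgroup (ZMod N)ˣ) (ℓ : ℕ) [NeZero ℓ] (x y : ℤ)
  (hdet : (ℓ : ℤ) * x - N * y = 1)

/-- The matrix `(x, y; N, ℓ)`. -/
def swapMat : SL(2, ℤ) :=
  ⟨!![x, y; (N : ℤ), (ℓ : ℤ)], by rw [Matrix.det_fin_two_of]; linear_combination hdet⟩

/-- The matrix `(ℓ x, y; N, 1)`. -/
def swapUnit : SL(2, ℤ) :=
  ⟨!![(ℓ : ℤ) * x, y; (N : ℤ), 1], by rw [Matrix.det_fin_two_of]; linear_combination hdet⟩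

/-- `swapMat` is in `Γ₀(N)`. -/
theorem swapMat_mem : swapMat N ℓ x y hdet ∈ Gamma0 N :=
  Gamma0_mem.mpr (show (((N : ℤ)) : ZMod N) = 0 by simp)

/-- `swapUnit` is in `Γ_H(N)`. -/
theorem swapUnit_mem : swapUnit N ℓ x y hdet ∈ GammaH N H := by
  refine mem_GammaH_iff.mpr ⟨Gamma0_mem.mpr (show (((N : ℤ)) : ZMod N) = 0 by simp), 1,
    one_mem H, ?_⟩
  simp [swapUnit]

/-- The conjugate of `T ^ ℓ` by `swapMat` is in the level `N ℓ`. -/
theorem swap_T_mem : swapMat N ℓ x y hdet * ModularGroup.T ^ (ℓ : ℤ) * (swapMat N ℓ x y hdet)⁻¹ ∈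
    GammaH (N * ℓ) (upH N H ℓ) := by
  refine Gamma1_le_GammaH ((Gamma1_mem _ _).mpr ?_)
  simp only [Matrix.SpecialLinearGroup.coe_mul, ModularGroup.coe_T_zpow,
    Matrix.SpecialLinearGroup.coe_inv, Matrix.adjugate_fin_two]
  simp [swapMat, Matrix.mul_apply, Fin.sum_univ_two]
  have h0 : ((N : ZMod (N * ℓ))) * (ℓ : ZMod (N * ℓ)) = 0 := by
    rw [← Nat.cast_mul, ZMod.natCast_self]
  have h1 : (ℓ : ZMod (N * ℓ)) * (x : ZMod (N * ℓ)) - (N : ZMod (N * ℓ)) * y = 1 := by
    exact_mod_cast congrArg (fun n : ℤ => (n : ZMod (N * ℓ))) hdet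
  refine ⟨?_, ?_, ?_⟩
  · linear_combination h1 - (x : ZMod (N * ℓ)) * h0
  · linear_combination h1 + (x : ZMod (N * ℓ)) * h0
  · linear_combination -(N : ZMod (N * ℓ)) * h0

/-- Composing `swapMat` on both sides with multiplication by `ℓ` gives `swapUnit`. -/
theorem swap_smul (z : ℍ) :
    affH (posN ℓ) 0 (swapMat N ℓ x y hdet • affH (posN ℓ) 0 z) = swapUnit N ℓ x y hdet • z := by
  apply UpperHalfPlane.ext
  rw [coe_affH, coe_specialLinearGroup_apply, coe_specialLinearGroup_apply, coe_affH]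
  simp [posN, swapMat, swapUnit]
  have hl : (ℓ : ℂ) ≠ 0 := Nat.cast_ne_zero.mpr (NeZero.ne ℓ)
  rw [show (N : ℂ) * ((ℓ : ℂ) * z) + ℓ = (ℓ : ℂ) * ((N : ℂ) * z + 1) by ring]
  field_simp

variable [NegMem H]

/-- The translate of a function of level `N ℓ`. -/
def swapPer : W (GammaH (N * ℓ) (upH N H ℓ)) →+* perAlg where
  toFun f := ⟨compSL (swapMat N ℓ x y hdet) (f : ℍ → ℂ) ∘ affH (posN ℓ) 0,
    mem_perAlg_of_periodic ℓ (compHom (swapMat N ℓ x y hdet) (toFull _ f)).2 (by
      show compSL _ (compSL _ (f : ℍ → ℂ)) = compSL _ (f : ℍ → ℂ)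
      conv_rhs => rw [← f.2.2.1 _ (swap_T_mem N H ℓ x y hdet)]
      simp only [← compSL_mul]
      rw [inv_mul_cancel_right])⟩
  map_one' := rfl
  map_mul' _ _ := rfl
  map_zero' := rfl
  map_add' _ _ := rfl

/-- The expansion of `swapPer`. -/
def swapEv : W (GammaH (N * ℓ) (upH N H ℓ)) →+* LaurentSeries ℂ :=
  qL.toRingHom.comp (swapPer N H ℓ x y hdet)

/-- The translated expansion is injective. -/
theorem swapEv_injective : Function.Injective (swapEv N H ℓ x y hdet) :=
  (injective_iff_map_eq_zero _).mpr fun f h =>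
    toFull_injective _ (Fermat.MC.compHom_injective (swapMat N ℓ x y hdet)
      ((Fermat.MC.eq_zero_of_qL_comp_posN ℓ (g := compHom (swapMat N ℓ x y hdet) (toFull _ f))
        h).trans ((map_zero _).symm.trans (congrArg _ (map_zero _).symm))))

/-- The translated expansion fixes constants. -/
theorem swapEv_algebraMap (c : ℂ) :
    swapEv N H ℓ x y hdet (algebraMap ℂ _ c) = algebraMap ℂ (LaurentSeries ℂ) c :=
  (congrArg qL (Subtype.ext rfl)).trans (qL.commutes c)

/-- Pulled back along `β` it is the expansion at `∞`. -/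
theorem swapEv_scale (f : W (GammaH N H)) :
    swapEv N H ℓ x y hdet (scaleW (scaleLe_up N H ℓ) f) = qW (GammaH N H) f := by
  rw [qW_apply]
  refine congrArg qL (Subtype.ext (funext fun z => ?_))
  change (f : ℍ → ℂ) (affH (posN ℓ) 0 (swapMat N ℓ x y hdet • affH (posN ℓ) 0 z)) = _
  rw [swap_smul]
  exact congrFun (f.2.2.1 _ (swapUnit_mem N H ℓ x y hdet)) z

/-- Pulled back along `α` it is the expansion of a diamond translate at `q ^ ℓ`. -/
theorem swapEv_incl (f : W (GammaH N H)) :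
    swapEv N H ℓ x y hdet (Subalgebra.inclusion (W_anti (up_le N H ℓ)) f) =
      qExpand ℂ ℓ (qW (GammaH N H) (transW (ratNormal_Gamma0 (swapMat_mem N ℓ x y hdet)) f)) := by
  rw [qW_apply, ← Fermat.MC.qL_comp_posN ℓ]
  rfl

/-- The embedding of the field of level `N ℓ` into Laurent series by the expansion of
the translate. -/
def swapTau : FL (GammaH (N * ℓ) (upH N H ℓ)) ℂ →ₐ[ℂ] LaurentSeries ℂ :=
  { (qExpand ℂ ℓ).comp
      (tau _ (RingHom.id ℂ) (swapEv N H ℓ x y hdet) (swapEv_injective N H ℓ x y hdet)) with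
    commutes' := fun c => by
      change qExpand ℂ ℓ (tau _ (RingHom.id ℂ) _ _ (algebraMap ℂ _ c)) = _
      rw [tau_algebraMap, swapEv_algebraMap, RingHom.id_apply, algebraMap_laurentSeries_eq_single,
        qExpand_single, mul_zero] }

/-- The value of the embedding. -/
theorem swapTau_apply (f : FL (GammaH (N * ℓ) (upH N H ℓ)) ℂ) :
    swapTau N H ℓ x y hdet f = qExpand ℂ ℓ
      (tau _ (RingHom.id ℂ) (swapEv N H ℓ x y hdet) (swapEv_injective N H ℓ x y hdet) f) := rfl

/-- Restricted along `β` the embedding is the expansion at `∞` in `q ^ ℓ`. -/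
theorem swapTau_beta :
    (swapTau N H ℓ x y hdet).comp (betaH N H ℓ ℂ) =
      (qExpandC ℓ).comp (inftyEmb (GammaH N H)) := AlgHom.ext fun u => by
  rw [AlgHom.comp_apply, AlgHom.comp_apply, swapTau_apply, qExpandC_apply, inftyEmb_apply]
  refine congrArg _ ?_
  have e : betaH N H ℓ ℂ u = (scaleMap (scaleLe_up N H ℓ)).mapL (RingHom.id ℂ) u :=
    Subtype.ext (by rw [coe_scaleFL, coe_mapL_scaleMap])
  obtain ⟨a, b, -, hab⟩ := IsFractionRing.div_surjective (A := W (GammaH N H))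
    (toKW (GammaH N H) (RingHom.id ℂ) u)
  rw [e, tau_div (a := scaleW (scaleLe_up N H ℓ) a) (b := scaleW (scaleLe_up N H ℓ) b)]
  · rw [swapEv_scale, swapEv_scale, ← qK_algebraMap, ← qK_algebraMap, ← map_div₀, hab, qK_toKW,
      ModularCurve.coeffMap_id]
  · rw [RatMap.toKW_mapL, ← hab, map_div₀, RatMap.homK_algebraMap, RatMap.homK_algebraMap]
    rfl

/-- The swapped expansion restricted along `α` is the expansion at `∞` after a diamond, at `q ^
(ℓ²)`. -/
theorem swapTau_alpha :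
    (swapTau N H ℓ x y hdet).comp (alphaH N H ℓ ℂ) = (qExpandC (ℓ * ℓ)).comp
      ((inftyEmb (GammaH N H)).comp
        (diamond (RingHom.id ℂ) ⟨_, swapMat_mem N ℓ x y hdet⟩).toAlgHom) :=
  AlgHom.ext fun u => by
  rw [AlgHom.comp_apply, AlgHom.comp_apply, AlgHom.comp_apply, swapTau_apply, qExpandC_apply,
    inftyEmb_apply, ← qExpand_qExpand]
  refine congrArg _ ?_
  have e : alphaH N H ℓ ℂ u = (inclMap (up_le N H ℓ)).mapL (RingHom.id ℂ) u :=
    Subtype.ext (by rw [coe_inclFL, coe_mapL_inclMap])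
  obtain ⟨a, b, -, hab⟩ := IsFractionRing.div_surjective (A := W (GammaH N H))
    (toKW (GammaH N H) (RingHom.id ℂ) u)
  rw [e, tau_div (a := Subalgebra.inclusion (W_anti (up_le N H ℓ)) a)
    (b := Subalgebra.inclusion (W_anti (up_le N H ℓ)) b)]
  · rw [swapEv_incl, swapEv_incl, ← map_div₀, ← qK_algebraMap, ← qK_algebraMap, ← map_div₀]
    refine congrArg _ (Eq.trans ?_ ((qK_toKW _ (RingHom.id ℂ) _).trans (coeffMap_id _)))
    refine congrArg _ ?_
    change _ = toKW _ _ (diamond (RingHom.id ℂ) ⟨_, swapMat_mem N ℓ x y hdet⟩ u)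
    rw [toKW_diamond, ← hab, map_div₀, RatMap.homK_algebraMap, RatMap.homK_algebraMap]
    rfl
  · rw [RatMap.toKW_mapL, ← hab, map_div₀, RatMap.homK_algebraMap, RatMap.homK_algebraMap]
    rfl

end Fermat.JAC.XH

end
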