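import Fermat.Agent.JAC.XH.Corr
import Fermat.Agent.JAC.HeckeCurve
import Mathlib.Analysis.Complex.Basic

/-!
# The Hecke ring of `X_H(N)` acting on its Jacobian

`heckeGens`: the generators `HeckeGens` (`JAC/HeckeCurve`) given by the operators of `Corr`, with
their adjoints for the Weil pairing and its Galois equivariance. `Input` completes them to
Eichler–Shimura data; `HeckeS2` identifies the points of the ring with eigen systems.
-/

set_option autoImplicit false

attribute [local instance 10000] SubalgebraClass.toAlgebra HahnSeries.powerSeriesAlgebra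

noncomputable section

open AlgebraicCurve ModularCurve
open scoped MatrixGroups

namespace Fermat.JAC.XH

open Fermat.MC.Lvl
open Fermat.JAC.X0 (Qbar embC)

/-- A semilinear automorphism commuting with `d` on functions commutes with it as an
automorphism. -/
theorem semilinear_mul_ofAlgAut {K F : Type*} [Field K] [Field F] [Algebra K F]
    (s : SemilinearAut K F) (d : F ≃ₐ[K] F) (h : ∀ f, s • d f = d (s • f)) :
    s * SemilinearAut.ofAlgAut d = SemilinearAut.ofAlgAut d * s := by
  refine Subtype.ext (Prod.ext (RingEquiv.ext fun f => ?_) ?_)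
  · change s • d f = d (s • f)
    exact h f
  · change SemilinearAut.baseAut s * SemilinearAut.baseAut (SemilinearAut.ofAlgAut d) =
      SemilinearAut.baseAut (SemilinearAut.ofAlgAut d) * SemilinearAut.baseAut s
    rw [SemilinearAut.baseAut_ofAlgAut, mul_one, one_mul]

variable (N : ℕ) [NeZero N] (H : Subgroup (ZMod N)ˣ) [NegMem H]

local notation "S₂" => regDiff (FL (GammaH N H) ℂ)
local notation "E₂" => Module.End ℂ (DiffDual (FL (GammaH N H) ℂ))
local notation "J" => Pic0 Qbar (FL (GammaH N H) Qbar)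

/-- Complex conjugation as an automorphism over `ℚ`. -/
abbrev conjQ : ℂ ≃ₐ[ℚ] ℂ := Complex.conjAe.restrictScalars ℚ

/-- Complex conjugation of the coefficients is a real structure on the function field. -/
theorem realStr : RealStr (arithmeticGalois (FQ (GammaH N H)) conjQ) (jL (GammaH N H) ℂ) where
  base _ := rfl
  invol f := by
    rw [← mul_smul, ← map_mul, show conjQ * conjQ = 1 from AlgEquiv.ext fun z =>
      Complex.conj_conj z, map_one, one_smul]
  transcendental := transcendental_jLC _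
  fixed := Subtype.ext (coeffMap_coeffEmb conjQ _)

/-- The expansion of a conjugated differential is conjugated. -/
theorem qdiff_conjΩ' (ω : Ω[FL (GammaH N H) ℂ⁄ℂ]) :
    qdiff (inftyEmb _) ((realStr N H).conjΩ ω) =
      coeffMap (starRingEnd ℂ) (qdiff (inftyEmb _) ω) :=
  (realStr N H).qdiff_conjΩ _ (fun _ => rfl) ω

/-- The coefficients of a conjugated regular differential are conjugated. -/
theorem aCoeff_regConj (n : ℕ) (ω : S₂) :
    aCoeff _ n ((realStr N H).regConj ω) = (starRingEnd ℂ) (aCoeff _ n ω) := by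
  rw [aCoeff_apply, RealStr.coe_regConj, qdiff_conjΩ', coeffMap_coeff, aCoeff_apply]

/-- Conjugation commutes with the diamonds on regular differentials. -/
theorem regConj_diaReg (u : (ZMod N)ˣ) (ω : S₂) :
    (realStr N H).regConj (diaReg N H u ω) = diaReg N H u ((realStr N H).regConj ω) := by
  refine Subtype.ext (qdiff_injective (inftyEmb _) ?_)
  have he : ∀ f, ((inftyEmb _).comp (diaC N H u).toAlgHom)
      (arithmeticGalois (FQ (GammaH N H)) conjQ • f) =
        coeffMap (starRingEnd ℂ) (((inftyEmb _).comp (diaC N H u).toAlgHom) f) := fun f =>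
    congrArg Subtype.val (diamond_smul (RingHom.id ℂ) (unitLift u) conjQ f)
  rw [RealStr.coe_regConj, qdiff_conjΩ', diaReg, coe_regPull, coe_regPull, qdiff_diffPull,
    qdiff_diffPull, RealStr.coe_regConj, (realStr N H).qdiff_conjΩ _ he]

/-- Conjugation commutes with the Hecke operators on regular differentials. -/
theorem regConj_corrH (ℓ : Nat.Primes) (ω : S₂) :
    (realStr N H).regConj ((heckeFormula N H).A ℓ ω) =
      (heckeFormula N H).A ℓ ((realStr N H).regConj ω) :=
  (heckeFormula N H).conj_A (aCoeff_regConj N H) (fun m η => by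
    change (realStr N H).regConj (diaOr N H m η) = diaOr N H m ((realStr N H).regConj η)
    unfold diaOr
    split_ifs
    · simp
    · exact regConj_diaReg N H _ η) ℓ ω

/-- The Hecke operator on the uniformising space. -/
def corrOp (ℓ : Nat.Primes) : E₂ := LinearMap.lcomp ℂ ℂ ((heckeFormula N H).A ℓ)

/-- The diamond operator on the uniformising space. -/
def diaOp (u : (ZMod N)ˣ) : E₂ := autDual (diaC N H u)

/-- `⟨u⟩` on the uniformising space is dual to `⟨u⁻¹⟩` on differentials. -/
theorem diaOp_eq (u : (ZMod N)ˣ) : diaOp N H u = LinearMap.lcomp ℂ ℂ (diaReg N H u⁻¹) :=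
  autDual_diaC N H u

/-- The Hecke operators commute. -/
theorem corrOp_comm (ℓ ℓ' : Nat.Primes) :
    corrOp N H ℓ * corrOp N H ℓ' = corrOp N H ℓ' * corrOp N H ℓ := by
  refine LinearMap.ext fun v => LinearMap.ext fun ω => ?_
  exact congrArg v (LinearMap.congr_fun (commute_A N H ℓ' ℓ) ω)

set_option maxRecDepth 1024 in -- headroom for the instance searches on regular differentials
/-- The Hecke operators commute with the diamonds. -/
theorem corrOp_diaOp (ℓ : Nat.Primes) (u : (ZMod N)ˣ) :
    corrOp N H ℓ * diaOp N H u = diaOp N H u * corrOp N H ℓ := by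
  have : NeZero (ℓ : ℕ) := ⟨ℓ.2.ne_zero⟩
  exact corrDual_comm_diaC N H ℓ u

/-- A Hecke operator is induced by its correspondence `α_* β^*` on the Jacobian. -/
theorem isInducedBy_corrOp (ℓ : Nat.Primes) :
    haveI : NeZero (ℓ : ℕ) := ⟨ℓ.2.ne_zero⟩
    IsInducedBy Qbar (FL (GammaH N H) Qbar) (FL (GammaH N H) ℂ) (corrOp N H ℓ)
      ((pushPic (alphaH N H ℓ Qbar)).comp (pullPic (betaH N H ℓ Qbar))) := by
  have : NeZero (ℓ : ℕ) := ⟨ℓ.2.ne_zero⟩
  exact isInducedBy_correspondence (scaleFL_lbc (scaleLe_up N H ℓ)) (inclFL_lbc (up_le N H ℓ))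

/-- A diamond operator is induced by the diamond automorphism. -/
theorem isInducedBy_diaOp (u : (ZMod N)ˣ) :
    IsInducedBy Qbar (FL (GammaH N H) Qbar) (FL (GammaH N H) ℂ) (diaOp N H u)
      (DistribSMul.toAddMonoidHom J (SemilinearAut.ofAlgAut (diamondHom H embC u))) :=
  isInducedBy_autDual fun f => diamond_lbc (unitLift u) f

/-- The generators: the Hecke and diamond operators. -/
def gensSet : Set E₂ := Set.range (corrOp N H) ∪ Set.range (diaOp N H)

/-- The diamond at `ℓ`, or zero, lies in the algebra spanned by the generators. -/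
theorem lcomp_diaOr_mem (ℓ : Nat.Primes) :
    (LinearMap.lcomp ℂ ℂ (diaOr N H ℓ) : E₂) ∈ Algebra.adjoin ℤ (gensSet N H) := by
  unfold diaOr
  split_ifs with h
  · rw [show (LinearMap.lcomp ℂ ℂ (0 : Module.End ℂ S₂) : E₂) = 0 from
      LinearMap.ext fun v => LinearMap.ext fun ω => map_zero v]
    exact zero_mem _
  · rw [lcomp_diaReg]
    exact Algebra.subset_adjoin (Or.inr ⟨_, rfl⟩)

/-- **The Hecke ring of `X_H(N)`.** The Hecke correspondences and diamond automorphisms, with their
adjoints, as `HeckeGens`. -/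
def heckeGens : HeckeGens (FL (GammaH N H) Qbar) (FL (GammaH N H) ℂ) where
  gens := gensSet N H
  induced := by
    rintro f (⟨ℓ, rfl⟩ | ⟨u, rfl⟩)
    · exact ⟨_, isInducedBy_corrOp N H ℓ⟩
    · exact ⟨_, isInducedBy_diaOp N H u⟩
  comm := by
    rintro f (⟨ℓ, rfl⟩ | ⟨u, rfl⟩) g (⟨ℓ', rfl⟩ | ⟨u', rfl⟩)
    · exact corrOp_comm N H ℓ ℓ'
    · exact corrOp_diaOp N H ℓ u'
    · exact (corrOp_diaOp N H ℓ' u).symm
    · exact autDual_diaC_comm N H u u'
  conj := (realStr N H).dualConj
  conj_conj := (realStr N H).dualConj_dualConj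
  conj_gens := by
    rintro f (⟨ℓ, rfl⟩ | ⟨u, rfl⟩) v
    · exact (realStr N H).dualConj_lcomp (regConj_corrH N H ℓ) v
    · rw [diaOp_eq]
      exact (realStr N H).dualConj_lcomp (regConj_diaReg N H u⁻¹) v
  cyclic := aCoeff (GammaH N H) 1
  span_cyclic := (heckeFormula N H).span_cyclic (gensSet N H)
    (fun ℓ => Algebra.subset_adjoin (Or.inl ⟨ℓ, rfl⟩)) (lcomp_diaOr_mem N H)

/-- The Hecke operator in the ring. -/
def tOp (ℓ : Nat.Primes) : (heckeGens N H).R :=
  ⟨corrOp N H ℓ, Algebra.subset_adjoin (Or.inl ⟨ℓ, rfl⟩)⟩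

/-- The diamond operator in the ring. -/
def dOp (u : (ZMod N)ˣ) : (heckeGens N H).R :=
  ⟨diaOp N H u, Algebra.subset_adjoin (Or.inr ⟨u, rfl⟩)⟩

/-- `T_ℓ` acts on classes as `α_* β^*`. -/
theorem act_tOp (ℓ : Nat.Primes) (x : J) :
    haveI : NeZero (ℓ : ℕ) := ⟨ℓ.2.ne_zero⟩
    (heckeGens N H).act (tOp N H ℓ) x =
      pushPic (alphaH N H ℓ Qbar) (pullPic (betaH N H ℓ Qbar) x) :=
  DFunLike.congr_fun ((heckeGens N H).act_eq (t := tOp N H ℓ) (isInducedBy_corrOp N H ℓ)) x

/-- `⟨u⟩` acts on classes as the diamond automorphism. -/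
theorem act_dOp (u : (ZMod N)ˣ) (x : J) :
    (heckeGens N H).act (dOp N H u) x =
      SemilinearAut.ofAlgAut (diamondHom H embC u) • x :=
  DFunLike.congr_fun ((heckeGens N H).act_eq (t := dOp N H u) (isInducedBy_diaOp N H u)) x

/-- The diamonds are multiplicative. -/
theorem dOp_mul (u v : (ZMod N)ˣ) : dOp N H (u * v) = dOp N H u * dOp N H v :=
  Subtype.ext (by
    change autDual (diaC N H (u * v)) = autDual (diaC N H u) * autDual (diaC N H v)
    rw [diaC, map_mul, autDual_mul])

/-- The trivial diamond is `1`. -/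
theorem dOp_one : dOp N H 1 = 1 :=
  Subtype.ext (by
    change autDual (diaC N H 1) = 1
    rw [diaC, map_one, autDual_one])

/-- The generators of the Hecke ring commute with Galois on the Jacobian. -/
theorem galois_gens (σ : Qbar ≃ₐ[ℚ] Qbar) (t : (heckeGens N H).R)
    (ht : (t : E₂) ∈ (heckeGens N H).gens) (x : J) :
    σ • (heckeGens N H).act t x = (heckeGens N H).act t (σ • x) := by
  rcases ht with ⟨ℓ, hℓ⟩ | ⟨u, hu⟩
  · obtain rfl : t = tOp N H ℓ := Subtype.ext hℓ.symm
    have : NeZero (ℓ : ℕ) := ⟨ℓ.2.ne_zero⟩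
    rw [act_tOp, act_tOp, galois_smul_pic0_def, galois_smul_pic0_def,
      pullPic_smul (s' := arithmeticGalois (L := Qbar) (FQ (GammaH (N * ℓ) (upH N H ℓ))) σ)
        (scaleFL_smul Qbar (scaleLe_up N H ℓ) σ),
      pushPic_smul (s := arithmeticGalois (L := Qbar) (FQ (GammaH N H)) σ)
        (inclFL_smul Qbar (up_le N H ℓ) σ)]
  · obtain rfl : t = dOp N H u := Subtype.ext hu.symm
    rw [act_dOp, act_dOp, galois_smul_pic0_def, galois_smul_pic0_def, ← mul_smul, ← mul_smul]
    congr 1
    refine semilinear_mul_ofAlgAut _ _ fun f => ?_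
    exact (diamond_smul embC (unitLift u) σ f).symm

/-- A number field over which the `n`-torsion classes are rational. -/
theorem exists_field (n : ℕ) (hn : n ≠ 0) :
    ∃ E : IntermediateField ℚ Qbar, FiniteDimensional ℚ E ∧
      ∀ σ : Qbar ≃ₐ[ℚ] Qbar, (∀ a ∈ E, σ a = a) → ∀ x : J, n • x = 0 → σ • x = x := by
  have := finite_torsion (K := Qbar) (F := FL (GammaH N H) Qbar) n hn
  obtain ⟨E, hE, h⟩ := exists_field_of_finite (L := Qbar) (FQ (GammaH N H))
    (Set.toFinite (Pic0.torsion Qbar (FL (GammaH N H) Qbar) n : Set J))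
  exact ⟨E, hE, fun σ hσ x hx => h σ hσ x (Pic0.mem_torsion.2 (by rw [natCast_zsmul]; exact hx))⟩

/-- The Weil pairing commutes with the Galois action. -/
theorem weil_galois (n : ℕ) (σ : Qbar ≃ₐ[ℚ] Qbar) (x y : J) (hx : n • x = 0) (hy : n • y = 0) :
    σ (weilPairing n x y) = weilPairing n (σ • x) (σ • y) :=
  (weilPairing_smul hx hy (arithmeticGalois (L := Qbar) (FQ (GammaH N H)) σ)).symm

end Fermat.JAC.XH

end
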