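import Fermat.Agent.JAC.XH.FrickeMaps
import Fermat.Agent.JAC.XH.Gens
import Fermat.Agent.GR.ES.Frobenius

/-!
# Eichler–Shimura data for `X_H(N)`, given the two local clauses

`heckeInput` and `esData`. The two clauses are triviality of inertia and the quadratic relation of
Frobenius away from `N p`; they are proved by reduction in `RED/Full/Eichler`, whose `esData` feeds
`GR/AttachProof/Main`.
-/

set_option autoImplicit false

attribute [local instance 10000] SubalgebraClass.toAlgebra HahnSeries.powerSeriesAlgebra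

noncomputable section

open AlgebraicCurve ModularCurve
open scoped MatrixGroups

namespace Fermat.JAC.XH

open Fermat.FF Fermat.MC.Lvl
open Fermat.JAC.X0 (Qbar embC)

local notation "Γℚ" => (AlgebraicClosure ℚ ≃ₐ[ℚ] AlgebraicClosure ℚ)

variable (N : ℕ) [NeZero N] (H : Subgroup (ZMod N)ˣ) [NegMem H]

local notation "J" => Pic0 Qbar (FL (GammaH N H) Qbar)

/-- The Fricke involution over `ℚ̄`. -/
def frBar : SemilinearAut Qbar (FL (GammaH N H) Qbar) :=
  SemilinearAut.ofAlgAut (frL N H embC)

/-- The Fricke involution is an involution. -/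
theorem frBar_mul_self : frBar N H * frBar N H = 1 := by
  rw [frBar, ← map_mul, ← map_one (SemilinearAut.ofAlgAut (K := Qbar) (F := FL (GammaH N H) Qbar))]
  exact congrArg _ (AlgEquiv.ext (frL_frL N H embC))

/-- The diamond operator over `ℚ̄`. -/
def diaBar (u : (ZMod N)ˣ) : SemilinearAut Qbar (FL (GammaH N H) Qbar) :=
  SemilinearAut.ofAlgAut (diamondHom H embC u)

/-- The diamond automorphisms are multiplicative. -/
theorem diaBar_mul (u v : (ZMod N)ˣ) : diaBar N H (u * v) = diaBar N H u * diaBar N H v :=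
  (congrArg SemilinearAut.ofAlgAut (map_mul (diamondHom H embC) u v)).trans
    (map_mul SemilinearAut.ofAlgAut _ _)

/-- The trivial diamond is the identity. -/
theorem diaBar_one : diaBar N H 1 = 1 := by rw [diaBar, map_one, map_one]

/-- The Fricke involution inverts the diamonds. -/
theorem frBar_diaBar (u : (ZMod N)ˣ) : frBar N H * diaBar N H u = diaBar N H u⁻¹ * frBar N H :=
  ((map_mul SemilinearAut.ofAlgAut _ _).symm.trans
    (congrArg _ (AlgEquiv.ext (frL_diamond N H embC u)))).trans (map_mul _ _ _)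

/-- Galois moves the Fricke involution by the diamond of the cyclotomic character. -/
theorem galois_frBar (σ : Γℚ) :
    arithmeticGalois (L := Qbar) (FQ (GammaH N H)) σ * frBar N H * diaBar N H (cycN N embC σ) =
      frBar N H * arithmeticGalois (L := Qbar) (FQ (GammaH N H)) σ := by
  refine semilinearAut_ext (fun f => ?_) ?_
  · rw [mul_smul, mul_smul, mul_smul]
    refine (smul_frL N embC H σ _).trans ?_
    refine congrArg _ ?_
    rw [diaBar, SemilinearAut.ofAlgAut_smul]
    have h : arithmeticGalois (L := Qbar) (FQ (GammaH N H)) σ •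
          diamondHom H embC (cycN N embC σ) f =
        diamondHom H embC (cycN N embC σ) (arithmeticGalois (L := Qbar) (FQ (GammaH N H)) σ • f) :=
      (diamond_smul embC (unitLift _) σ f).symm
    rw [h, ← AlgEquiv.mul_apply, ← map_mul, inv_mul_cancel, map_one, AlgEquiv.one_apply]
  · rw [SemilinearAut.baseAut_mul, SemilinearAut.baseAut_mul, SemilinearAut.baseAut_mul,
      show SemilinearAut.baseAut (frBar N H) = 1 from SemilinearAut.baseAut_ofAlgAut _,
      show SemilinearAut.baseAut (diaBar N H (cycN N embC σ)) = 1 from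
        SemilinearAut.baseAut_ofAlgAut _, mul_one, mul_one, one_mul]

/-- The diamond in the ring acts as the diamond automorphism. -/
theorem act_dOp_eq (u : (ZMod N)ˣ) (x : J) :
    (heckeGens N H).act (dOp N H u) x = diaBar N H u • x := act_dOp N H u x

/-- Automorphisms over the constants preserve the Weil pairing. -/
theorem weilPairing_smul_of_baseAut {n : ℕ} {x y : J} (hx : n • x = 0) (hy : n • y = 0)
    (s : SemilinearAut Qbar (FL (GammaH N H) Qbar)) (hs : SemilinearAut.baseAut s = 1) :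
    weilPairing n (s • x) (s • y) = weilPairing n x y := by
  rw [weilPairing_smul hx hy s, hs]
  rfl

/-- Automorphisms preserve the `n`-torsion. -/
theorem nsmul_smul_eq_zero {n : ℕ} {x : J} (hx : n • x = 0)
    (s : SemilinearAut Qbar (FL (GammaH N H) Qbar)) : n • (s • x) = 0 := by
  have h := (DistribSMul.toAddMonoidHom J s).map_nsmul n x
  rw [hx, map_zero] at h
  exact h.symm

/-- The generators are self-adjoint for the twisted Weil pairing. -/
theorem weil_gens (n : ℕ) (t : (heckeGens N H).R)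
    (ht : (t : Module.End ℂ (DiffDual (FL (GammaH N H) ℂ))) ∈ (heckeGens N H).gens) (x y : J)
    (hx : n • x = 0) (hy : n • y = 0) :
    weilPairing n ((heckeGens N H).act t x) (frBar N H • y) =
      weilPairing n x (frBar N H • (heckeGens N H).act t y) := by
  rcases ht with ⟨ℓ, hℓ⟩ | ⟨u, hu⟩
  · obtain rfl : t = tOp N H ℓ := Subtype.ext hℓ.symm
    have : NeZero (ℓ : ℕ) := ⟨ℓ.2.ne_zero⟩
    rw [act_tOp, act_tOp]
    exact weilPairing_corr_smul
      (s' := SemilinearAut.ofAlgAut (frL (N * ℓ) (upH N H ℓ) embC))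
      (frL_alphaH (ℓ : ℕ) embC) (frL_betaH (ℓ : ℕ) embC) hx hy
  · obtain rfl : t = dOp N H u := Subtype.ext hu.symm
    rw [act_dOp_eq, act_dOp_eq]
    have e : frBar N H • y = diaBar N H u • (frBar N H • (diaBar N H u • y)) := by
      rw [← mul_smul, ← mul_smul, mul_assoc, frBar_diaBar, ← mul_assoc, ← diaBar_mul,
        mul_inv_cancel, diaBar_one, one_mul]
    conv_lhs => rw [e]
    exact weilPairing_smul_of_baseAut N H hx
      (nsmul_smul_eq_zero N H (nsmul_smul_eq_zero N H hy _) _) _
      (SemilinearAut.baseAut_ofAlgAut _)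

/-- The diamond operator at `ℓ`, or `0`. -/
def epsES (ℓ : ℕ) : (heckeGens N H).R :=
  if h : ℓ.Coprime N then dOp N H (ZMod.unitOfCoprime ℓ h) else 0

/-- The transposed Hecke operator at `ℓ`, as it enters the Eichler–Shimura relation in the model
with rational cusp `∞`. -/
def tES (ℓ : ℕ) : (heckeGens N H).R :=
  if h : ℓ.Prime then tOp N H ⟨ℓ, h⟩ * epsES N H ℓ else 0

/-- At a Frobenius for `ℓ` prime to `N` the cyclotomic character is `ℓ`. -/
theorem cycN_frobenius {ℓ : ℕ} (hℓ : ℓ.Prime) (hN : ℓ.Coprime N)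
    {A : ValuationSubring (AlgebraicClosure ℚ)} (hA : A.LiesOverPrime ℓ) {σ : Γℚ}
    (hσ : A.IsFrobeniusAt σ ℓ) : cycN N embC σ = ZMod.unitOfCoprime ℓ hN := by
  have h1 := Fermat.GR.frobenius_rootOfUnity hℓ hA hσ (m := N)
    (fun h => hℓ.coprime_iff_not_dvd.mp hN h) (zetaL_pow N embC)
  rw [cycN_spec] at h1
  rw [pow_eq_pow_mod ℓ (zetaL_pow N embC)] at h1
  have h2 := (isPrimitiveRoot_zetaL N embC).pow_inj (ZMod.val_lt _)
    (Nat.mod_lt _ (NeZero.pos N)) h1
  refine Units.ext ?_
  rw [ZMod.coe_unitOfCoprime, ← ZMod.natCast_zmod_val (cycN N embC σ : ZMod N)]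
  rw [h2, ZMod.natCast_mod]

variable (p : ℕ)

/-- **`X_H(N)` satisfies everything in `GR.ESData` but the two local clauses.** -/
def heckeInput
    (inertia : ∀ ℓ : ℕ, ℓ.Prime → ¬ ℓ ∣ N * p →
      ∀ A : ValuationSubring (AlgebraicClosure ℚ), A.LiesOverPrime ℓ →
        ∀ σ ∈ A.inertiaSubgroupIn ℚ, ∀ x : J, (∃ n : ℕ, p ^ n • x = 0) → σ • x = x)
    (frob : ∀ ℓ : ℕ, ℓ.Prime → ¬ ℓ ∣ N * p →
      ∀ A : ValuationSubring (AlgebraicClosure ℚ), A.LiesOverPrime ℓ →
        ∀ σ : Γℚ, A.IsFrobeniusAt σ ℓ → ∀ x : J, (∃ n : ℕ, p ^ n • x = 0) →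
          σ • σ • x - (heckeGens N H).act (tES N H ℓ) (σ • x) +
            ℓ • (heckeGens N H).act (epsES N H ℓ) x = 0) :
    HeckeInput (heckeGens N H) N p (tES N H) (epsES N H) where
  galois_gens := galois_gens N H
  exists_field := exists_field N H
  weil_galois := weil_galois N H
  w := DistribSMul.toAddMonoidHom J (frBar N H)
  w_w x := by
    change frBar N H • frBar N H • x = x
    rw [← mul_smul, frBar_mul_self, one_smul]
  weil_w n x y hx hy := weilPairing_smul_of_baseAut N H hx hy _ (SemilinearAut.baseAut_ofAlgAut _)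
  weil_gens := weil_gens N H
  δ σ := dOp N H (cycN N embC σ)
  galois_w σ y := by
    change σ • (frBar N H • (heckeGens N H).act (dOp N H (cycN N embC σ)) y) = frBar N H • σ • y
    rw [act_dOp_eq, galois_smul_pic0_def, galois_smul_pic0_def, ← mul_smul, ← mul_smul, ← mul_smul,
      galois_frBar]
  δ_frobenius ℓ hℓ hℓN A hA σ hσ := by
    have hN : ℓ.Coprime N := hℓ.coprime_iff_not_dvd.mpr fun h => hℓN (h.mul_right p)
    rw [epsES, dif_pos hN, cycN_frobenius N hℓ hN hA hσ]
  inertia_smul := inertia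
  frobenius_quadratic := frob

/-- **The Eichler–Shimura data of `X_H(N)`.** -/
def esData [Fact p.Prime]
    (inertia : ∀ ℓ : ℕ, ℓ.Prime → ¬ ℓ ∣ N * p →
      ∀ A : ValuationSubring (AlgebraicClosure ℚ), A.LiesOverPrime ℓ →
        ∀ σ ∈ A.inertiaSubgroupIn ℚ, ∀ x : J, (∃ n : ℕ, p ^ n • x = 0) → σ • x = x)
    (frob : ∀ ℓ : ℕ, ℓ.Prime → ¬ ℓ ∣ N * p →
      ∀ A : ValuationSubring (AlgebraicClosure ℚ), A.LiesOverPrime ℓ →
        ∀ σ : Γℚ, A.IsFrobeniusAt σ ℓ → ∀ x : J, (∃ n : ℕ, p ^ n • x = 0) →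
          σ • σ • x - (heckeGens N H).act (tES N H ℓ) (σ • x) +
            ℓ • (heckeGens N H).act (epsES N H ℓ) x = 0) :
    Fermat.GR.ESData (heckeGens N H).R J N p (tES N H) (epsES N H) :=
  (heckeInput N H p inertia frob).esData

end Fermat.JAC.XH

end
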