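import Fermat.Agent.JAC.XH.Maps
import Fermat.Agent.MC.Lvl.DimS2
import Fermat.Agent.JAC.X0.DiffS2

/-!
# Regular differentials of a general level as cusp forms of weight two

The coefficient is `aCoeff`, and `eq_zero_of_aCoeff` shows that the coefficients determine a
differential.
-/

set_option autoImplicit false

noncomputable section

open AlgebraicCurve ModularCurve Function
open scoped MatrixGroups

namespace Fermat.JAC.XH

open Fermat.FF Fermat.MC.Lvl
open UpperHalfPlane hiding I
open Fermat.MC (qS qS_eq_zero_iff)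

/-- Shortcut: the generic search unfolds the algebra structure of Laurent series. It is not private
as `exists_phiS2_theta` mentions it. -/
local instance (priority := high) algebraLaurent : Algebra ℂ (LaurentSeries ℂ) :=
  inferInstance

/-- The algebra structure of `FL G ℂ`, a shortcut for the instance search. -/
@[reducible] def algebraFLC (G : Subgroup SL(2, ℤ)) [LevelGen G] : Algebra ℂ (FL G ℂ) :=
  inferInstance

attribute [local instance 10000] algebraFLC

variable (G : Subgroup SL(2, ℤ)) [LevelGen G]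

/-- The differential of a form is, up to a nonzero constant, `f / θ j` on expansions. -/
theorem exists_phiS2_theta : ∃ c : ℂ, c ≠ 0 ∧ ∀ f : CuspForm G 2,
    (phiS2 G f : LaurentSeries ℂ) * JAC.thetaSeries (coeffEmb ℂ jq) =
      algebraMap ℂ (LaurentSeries ℂ) c * qS ⇑f :=
  X0.exists_qW_weightTwo_theta G

/-- The constant relating cusp forms and differentials. -/
def thetaConst : ℂ := (exists_phiS2_theta G).choose

/-- The constant `thetaConst G` is nonzero. -/
theorem thetaConst_ne_zero : thetaConst G ≠ 0 := (exists_phiS2_theta G).choose_spec.1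

/-- The differential of a cusp form is regular. -/
theorem isRegularDiff_phiS2 (f : CuspForm G 2) :
    IsRegularDiff (phiS2 G f • KaehlerDifferential.D ℂ (FL G ℂ) (jL G ℂ)) := by
  intro v
  rcases eq_or_ne (phiS2 G f) 0 with h0 | h0
  · have := (regDiff (FL G ℂ)).zero_mem v
    simpa [h0] using this
  · rw [ordDifferential_smul v h0 (D_jL_ne_zero G)]
    have := ((mem_riemannRochSpace.1 (phiS2_mem G f)) v).le_ord h0
    rw [← canonicalDivisorOf_apply (D_jL_ne_zero G) v,
      show (canonicalDivisorOf (D_jL_ne_zero G)) = divDj G from rfl]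
    omega

/-- `f ↦ f(q) dq/q`. -/
def formDiff : CuspForm G 2 →ₗ[ℂ] regDiff (FL G ℂ) :=
  (thetaConst G)⁻¹ •
    { toFun := fun f => ⟨_, isRegularDiff_phiS2 G f⟩
      map_add' := fun f g => Subtype.ext (by
        change phiS2 G (f + g) • _ = phiS2 G f • _ + phiS2 G g • _
        rw [map_add, add_smul])
      map_smul' := fun c f => Subtype.ext (by
        change phiS2 G (c • f) • _ = c • (phiS2 G f • _)
        rw [map_smul, smul_assoc]) }

/-- The differential of a form is `thetaConst⁻¹ phiS2 f dj`. -/
theorem coe_formDiff (f : CuspForm G 2) :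
    (formDiff G f : Ω[FL G ℂ⁄ℂ]) = (thetaConst G)⁻¹ •
      (phiS2 G f • KaehlerDifferential.D ℂ (FL G ℂ) (jL G ℂ)) := rfl

/-- The expansion of the differential of a form. -/
theorem qdiff_formDiff (f : CuspForm G 2) :
    qdiff (inftyEmb G) (formDiff G f : Ω[FL G ℂ⁄ℂ]) = qS ⇑f := by
  rw [coe_formDiff, map_smul, qdiff_smul_D, inftyEmb_apply, inftyEmb_apply,
    show ((jL G ℂ : FL G ℂ) : LaurentSeries ℂ) = coeffEmb ℂ jq from rfl,
    (exists_phiS2_theta G).choose_spec.2 f, RED.laurent_smul_def, ← mul_assoc, ← map_mul,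
    show (exists_phiS2_theta G).choose = thetaConst G from rfl,
    inv_mul_cancel₀ (thetaConst_ne_zero G), map_one, one_mul]

/-- Different forms give different differentials. -/
theorem formDiff_injective : Injective (formDiff G) := by
  refine (injective_iff_map_eq_zero _).mpr fun f hf => DFunLike.coe_injective ?_
  have h := qdiff_formDiff G f
  rw [hf, Submodule.coe_zero, map_zero] at h
  exact (qS_eq_zero_iff (bddPer_cuspForm f)).mp h.symm

/-- Every regular differential comes from a cusp form of weight two. -/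
theorem formDiff_surjective : Surjective (formDiff G) := by
  rintro ⟨ω, hω⟩
  obtain ⟨h, hh⟩ := exists_smul_eq_of_finrank_eq_one IsCurveOver.finrank_kaehler
    (D_jL_ne_zero G) ω
  have hmem : h ∈ riemannRochSpace (divDj G) := mem_riemannRochSpace.2 fun v => by
    rcases eq_or_ne h 0 with h0 | h0
    · rw [h0]; exact ordGE_zero _ _
    · have h1 : 0 ≤ v.ordDifferential ω := hω v
      rw [← hh, ordDifferential_smul v h0 (D_jL_ne_zero G)] at h1
      refine ordGE_iff.2 (Or.inr ?_)
      rw [show divDj G = canonicalDivisorOf (D_jL_ne_zero G) from rfl,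
        canonicalDivisorOf_apply (D_jL_ne_zero G) v]
      omega
  obtain ⟨f, hf⟩ := exists_phiS2_eq G h hmem
  refine ⟨thetaConst G • f, Subtype.ext ?_⟩
  rw [map_smul, Submodule.coe_smul, coe_formDiff, smul_smul,
    mul_inv_cancel₀ (thetaConst_ne_zero G), one_smul, hf]
  exact hh

/-- Weight two cusp forms are the regular differentials. -/
def eS2 : CuspForm G 2 ≃ₗ[ℂ] regDiff (FL G ℂ) :=
  LinearEquiv.ofBijective (formDiff G) ⟨formDiff_injective G, formDiff_surjective G⟩

/-- The expansion of the differential of a form. -/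
theorem qdiff_eS2 (f : CuspForm G 2) :
    qdiff (inftyEmb G) (eS2 G f : Ω[FL G ℂ⁄ℂ]) = qS ⇑f :=
  qdiff_formDiff G f

/-- The coefficient of `q ^ n dq/q`. -/
def aCoeff (n : ℕ) : regDiff (FL G ℂ) →ₗ[ℂ] ℂ where
  toFun ω := (qdiff (inftyEmb G) (ω : Ω[FL G ℂ⁄ℂ])).coeff (n : ℤ)
  map_add' ω η := by rw [Submodule.coe_add, map_add, HahnSeries.coeff_add]
  map_smul' c ω := by rw [Submodule.coe_smul, map_smul, HahnSeries.coeff_smul]; rfl

/-- The coefficient as a coefficient of the expansion. -/
theorem aCoeff_apply (n : ℕ) (ω : regDiff (FL G ℂ)) :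
    aCoeff G n ω = (qdiff (inftyEmb G) (ω : Ω[FL G ℂ⁄ℂ])).coeff (n : ℤ) := rfl

/-- The coefficients of differentials are those of forms. -/
theorem aCoeff_eS2 (n : ℕ) (f : CuspForm G 2) :
    aCoeff G n (eS2 G f) = ModularFormClass.qCoeff ⇑f n := by
  rw [aCoeff_apply, qdiff_eS2, X0.coeff_qS]

/-- The constant coefficient vanishes. -/
theorem aCoeff_zero : aCoeff G 0 = 0 := LinearMap.ext fun ω => by
  rw [← (eS2 G).apply_symm_apply ω, aCoeff_eS2, LinearMap.zero_apply]
  exact CuspFormClass.qExpansion_coeff_zero _ one_pos one_mem_strictPeriods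

/-- Regular differentials have no negative coefficients. -/
theorem coeff_qdiff_neg (ω : regDiff (FL G ℂ)) {n : ℤ} (hn : n < 0) :
    (qdiff (inftyEmb G) (ω : Ω[FL G ℂ⁄ℂ])).coeff n = 0 := by
  rw [← (eS2 G).apply_symm_apply ω, qdiff_eS2, X0.coeff_qS_neg _ hn]

/-- The coefficients determine a regular differential. -/
theorem eq_zero_of_aCoeff (ω : regDiff (FL G ℂ)) (h : ∀ n, aCoeff G n ω = 0) : ω = 0 := by
  refine Subtype.ext (qdiff_injective (inftyEmb G) ?_)
  rw [Submodule.coe_zero, map_zero]
  ext n
  rcases lt_or_ge n 0 with hn | hn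
  · rw [coeff_qdiff_neg G ω hn, HahnSeries.coeff_zero]
  · obtain ⟨m, rfl⟩ := Int.eq_ofNat_of_zero_le hn
    rw [HahnSeries.coeff_zero]
    exact h m

end Fermat.JAC.XH

end
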