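import Fermat.Agent.JAC.XH.SwapEmb
import Fermat.Agent.JAC.XH.DiffS2
import Fermat.Agent.JAC.XH.DiaCompat
import Fermat.Agent.JAC.HeckeFormal
import Fermat.Agent.JAC.QCorr
import Fermat.Agent.JAC.DiffReal

/-!
# Hecke and diamond operators on the differentials of `X_H(N)`

`heckeFormula`: the correspondences and diamond automorphisms have the Hecke effect on expansions
(`JAC/HeckeFormal`), so they commute and have a cyclic vector. `Gens` makes the Hecke ring from
them.
-/

set_option autoImplicit false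

attribute [local instance 10000] SubalgebraClass.toAlgebra HahnSeries.powerSeriesAlgebra

noncomputable section

open AlgebraicCurve
open scoped MatrixGroups

namespace Fermat.JAC

open Fermat.FF

section Generic

variable {F : Type*} [Field F] [Algebra ℂ F] [IsFunctionField ℂ F]

/-- An isomorphism has degree one. -/
theorem finrankAlong_algEquiv {K A B : Type*} [Field K] [Field A] [Field B] [Algebra K A]
    [Algebra K B] (d : A ≃ₐ[K] B) : finrankAlong K d.toAlgHom = 1 := by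
  let := algebraAlong d.toAlgHom
  have e : A ≃ₗ[A] B := LinearEquiv.ofBijective (Algebra.linearMap A B) d.bijective
  change Module.finrank A B = 1
  rw [← e.finrank_eq, Module.finrank_self]

/-- Trace along an automorphism is pullback along its inverse. -/
theorem regTrace_algEquiv (e : F →ₐ[ℂ] LaurentSeries ℂ) (d : F ≃ₐ[ℂ] F) (ω : regDiff F) :
    regTrace d.toAlgHom (regPull (AlgHom.id ℂ F) ω) = regPull d.symm.toAlgHom ω := by
  refine Subtype.ext (qdiff_injective e ?_)
  rw [coe_regTrace, coe_regPull, coe_regPull, qdiff_diffPull,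
    qdiff_diffTr d.toAlgHom e (fun _ : Fin 1 => e.comp d.symm.toAlgHom)
      (fun _ x => congrArg e (d.symm_apply_apply x)) (fun _ _ _ => Subsingleton.elim _ _)
      (by rw [Fintype.card_fin, finrankAlong_algEquiv]),
    Fin.sum_univ_one, qdiff_diffPull, AlgHom.comp_id]

/-- The dual of an automorphism is composition with pullback along its inverse. -/
theorem autDual_eq_lcomp (e : F →ₐ[ℂ] LaurentSeries ℂ) (d : F ≃ₐ[ℂ] F) :
    autDual d = LinearMap.lcomp ℂ ℂ (regPull d.symm.toAlgHom) := by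
  rw [autDual, corrDual]
  exact congrArg _ (LinearMap.ext fun ω => regTrace_algEquiv e d ω)

end Generic

end Fermat.JAC

namespace Fermat.JAC.XH

open Fermat.FF Fermat.MC.Lvl

-- shortcut: the generic search unfolds the algebra structure of Laurent series
attribute [local instance 10000] algebraFLC

variable (N : ℕ) [NeZero N] (H : Subgroup (ZMod N)ˣ) [NegMem H]

local notation "S₂" => regDiff (FL (GammaH N H) ℂ)

/-- The diamond automorphism over `ℂ`. -/
abbrev diaC (u : (ZMod N)ˣ) : FL (GammaH N H) ℂ ≃ₐ[ℂ] FL (GammaH N H) ℂ :=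
  diamondHom H (RingHom.id ℂ) u

/-- The diamond operator on differentials. -/
def diaReg (u : (ZMod N)ˣ) : Module.End ℂ S₂ := regPull (diaC N H u).toAlgHom

/-- The Hecke correspondence on differentials. -/
def corrH (ℓ : ℕ) [NeZero ℓ] : Module.End ℂ S₂ :=
  (regTrace (betaH N H ℓ ℂ)).comp (regPull (alphaH N H ℓ ℂ))

/-- The dual of the correspondence is composition with `corrH`. -/
theorem corrDual_eq (ℓ : ℕ) [NeZero ℓ] :
    corrDual (betaH N H ℓ ℂ) (alphaH N H ℓ ℂ) = LinearMap.lcomp ℂ ℂ (corrH N H ℓ) := rfl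

/-- The dual diamond at `u` is composition with the diamond at `u⁻¹`. -/
theorem autDual_diaC (u : (ZMod N)ˣ) :
    autDual (diaC N H u) = LinearMap.lcomp ℂ ℂ (diaReg N H u⁻¹) := by
  rw [autDual_eq_lcomp (inftyEmb _), diaReg, diaC, diaC, map_inv]
  rfl

/-- Composition with the diamond at `u` is the dual diamond at `u⁻¹`. -/
theorem lcomp_diaReg (u : (ZMod N)ˣ) :
    (LinearMap.lcomp ℂ ℂ (diaReg N H u) : Module.End ℂ (DiffDual (FL (GammaH N H) ℂ))) =
      autDual (diaC N H u⁻¹) := by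
  rw [autDual_diaC, inv_inv]

/-- The dual diamonds commute. -/
theorem autDual_diaC_comm (u v : (ZMod N)ˣ) :
    autDual (diaC N H u) * autDual (diaC N H v) = autDual (diaC N H v) * autDual (diaC N H u) := by
  rw [← autDual_mul, ← autDual_mul, diaC, diaC, ← map_mul, mul_comm u v, map_mul]

/-- The dual correspondence commutes with the dual diamonds. -/
theorem corrDual_comm_diaC (ℓ : ℕ) [NeZero ℓ] (u : (ZMod N)ˣ) :
    corrDual (betaH N H ℓ ℂ) (alphaH N H ℓ ℂ) * autDual (diaC N H u) =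
      autDual (diaC N H u) * corrDual (betaH N H ℓ ℂ) (alphaH N H ℓ ℂ) := by
  obtain ⟨d', hα, hβ⟩ := exists_diamond_up (H := H) ℓ (RingHom.id ℂ) u
  exact corrDual_mul_autDual hβ hα

/-- The diamonds commute. -/
theorem diaReg_comm (u v : (ZMod N)ˣ) (ω : S₂) :
    diaReg N H u (diaReg N H v ω) = diaReg N H v (diaReg N H u ω) := by
  refine LinearMap.congr_fun (regDiff_eq_of_lcomp_eq
    (A := (diaReg N H u).comp (diaReg N H v)) (B := (diaReg N H v).comp (diaReg N H u)) ?_) ω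
  have h := autDual_diaC_comm N H v⁻¹ u⁻¹
  rw [← lcomp_diaReg, ← lcomp_diaReg] at h
  exact h

/-- The correspondence commutes with the diamonds. -/
theorem corrH_diaReg (ℓ : ℕ) [NeZero ℓ] (u : (ZMod N)ˣ) (ω : S₂) :
    corrH N H ℓ (diaReg N H u ω) = diaReg N H u (corrH N H ℓ ω) := by
  refine LinearMap.congr_fun (regDiff_eq_of_lcomp_eq
    (A := (corrH N H ℓ).comp (diaReg N H u)) (B := (diaReg N H u).comp (corrH N H ℓ)) ?_) ω
  have h := corrDual_comm_diaC N H ℓ u⁻¹
  rw [corrDual_eq, ← lcomp_diaReg] at h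
  exact h.symm

/-- The class of a prime not dividing the level. -/
def unitOf {ℓ : ℕ} (hℓ : ℓ.Prime) (h : ¬ ℓ ∣ N) : (ZMod N)ˣ :=
  ZMod.unitOfCoprime ℓ (hℓ.coprime_iff_not_dvd.mpr h)

/-- At a prime dividing the level the correspondence is `U_ℓ` on expansions. -/
theorem qdiff_corrH_of_dvd {ℓ : ℕ} [NeZero ℓ] (hℓ : ℓ.Prime) (h : ℓ ∣ N) (ω : S₂) (n : ℤ) :
    (qdiff (inftyEmb _) (corrH N H ℓ ω : Ω[FL (GammaH N H) ℂ⁄ℂ])).coeff n =
      (qdiff (inftyEmb _) (ω : Ω[FL (GammaH N H) ℂ⁄ℂ])).coeff ((ℓ : ℤ) * n) := by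
  obtain ⟨u, hu⟩ := X0.exists_zetaUnit ℓ
  rw [corrH, LinearMap.comp_apply, coe_regTrace, coe_regPull,
    qdiff_corr_of_card_eq (inftyEmb_incl (up_le N H ℓ)) (inftyEmb_scale (scaleLe_up N H ℓ)) hu
      (coeff_jL_ne_zero _) (by rw [finrankAlong_betaH N H ℓ hℓ, if_pos h])]

/-- Away from the level the correspondence at `ℓ` acts on expansions as `T_ℓ`. -/
theorem qdiff_corrH_of_not_dvd {ℓ : ℕ} [NeZero ℓ] (hℓ : ℓ.Prime) (h : ¬ ℓ ∣ N) (ω : S₂) (n : ℤ) :
    (qdiff (inftyEmb _) (corrH N H ℓ ω : Ω[FL (GammaH N H) ℂ⁄ℂ])).coeff n =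
      (qdiff (inftyEmb _) (ω : Ω[FL (GammaH N H) ℂ⁄ℂ])).coeff ((ℓ : ℤ) * n) +
        if (ℓ : ℤ) ∣ n then (ℓ : ℂ) * (qdiff (inftyEmb _)
          (diaReg N H (unitOf N hℓ h) ω : Ω[FL (GammaH N H) ℂ⁄ℂ])).coeff (n / ℓ) else 0 := by
  obtain ⟨u, hu⟩ := X0.exists_zetaUnit ℓ
  have hcop : IsCoprime (ℓ : ℤ) (N : ℤ) :=
    Int.isCoprime_iff_nat_coprime.mpr (by simpa using hℓ.coprime_iff_not_dvd.mpr h)
  obtain ⟨x, z, hxz⟩ := hcop
  have hdet : (ℓ : ℤ) * x - N * (-z) = 1 := by linear_combination hxz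
  have hd : diamond (RingHom.id ℂ) ⟨_, swapMat_mem N ℓ x (-z) hdet⟩ =
      diaC N H (unitOf N hℓ h) := by
    rw [diaC, ← diamondHom_gamma0Units]
    refine congrArg _ (Units.ext ?_)
    rw [coe_gamma0Units, unitOf, ZMod.coe_unitOfCoprime]
    simp [swapMat]
  rw [corrH, LinearMap.comp_apply, coe_regTrace, coe_regPull, diaReg, coe_regPull, qdiff_diffPull,
    qdiff_corr_of_card_succ hℓ.ne_one (inftyEmb_incl (up_le N H ℓ))
      (inftyEmb_scale (scaleLe_up N H ℓ)) hu (coeff_jL_ne_zero _) (swapTau_beta N H ℓ x (-z) hdet)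
      (swapTau_alpha N H ℓ x (-z) hdet) (by rw [finrankAlong_betaH N H ℓ hℓ, if_neg h]), hd]

/-- The operator `D ℓ` of the Hecke formula. -/
def diaOr (ℓ : Nat.Primes) : Module.End ℂ S₂ :=
  if h : (ℓ : ℕ) ∣ N then 0 else diaReg N H (unitOf N ℓ.2 h)

/-- The Hecke formula on `X_H(N)`. -/
def heckeFormula : HeckeFormula S₂ where
  a := aCoeff (GammaH N H)
  a_zero := aCoeff_zero _
  ext_a := eq_zero_of_aCoeff _
  A ℓ := haveI : NeZero (ℓ : ℕ) := ⟨ℓ.2.ne_zero⟩; corrH N H ℓ
  D := diaOr N H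
  formula ℓ n ω := by
    have : NeZero (ℓ : ℕ) := ⟨ℓ.2.ne_zero⟩
    by_cases h2 : (ℓ : ℕ) ∣ N
    · rw [diaOr, dif_pos h2, LinearMap.zero_apply, map_zero, mul_zero, ite_self, add_zero,
        aCoeff_apply, qdiff_corrH_of_dvd N H ℓ.2 h2, aCoeff_apply, Nat.cast_mul]
    · rw [diaOr, dif_neg h2, aCoeff_apply, qdiff_corrH_of_not_dvd N H ℓ.2 h2]
      by_cases h1 : (ℓ : ℕ) ∣ n
      · rw [if_pos (Int.natCast_dvd_natCast.mpr h1), if_pos h1, aCoeff_apply, aCoeff_apply,
          Nat.cast_mul, Int.natCast_div]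
      · rw [if_neg (fun hd => h1 (Int.natCast_dvd_natCast.mp hd)), if_neg h1, add_zero,
          add_zero, aCoeff_apply, Nat.cast_mul]

set_option maxRecDepth 1024 in -- headroom for the instance searches on regular differentials
/-- The operators of the Hecke formula commute. -/
theorem commute_A (ℓ ℓ' : Nat.Primes) :
    (heckeFormula N H).A ℓ * (heckeFormula N H).A ℓ' =
      (heckeFormula N H).A ℓ' * (heckeFormula N H).A ℓ := by
  refine HeckeFormula.commute_A _ (fun m m' ω => ?_) (fun m m' ω => ?_) ℓ ℓ'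
  · have : NeZero (m : ℕ) := ⟨m.2.ne_zero⟩
    change corrH N H m (diaOr N H m' ω) = diaOr N H m' (corrH N H m ω)
    unfold diaOr
    split_ifs
    · simp
    · exact corrH_diaReg N H m _ ω
  · change diaOr N H m (diaOr N H m' ω) = diaOr N H m' (diaOr N H m ω)
    unfold diaOr
    split_ifs
    · simp
    · simp
    · simp
    · exact diaReg_comm N H _ _ ω

end Fermat.JAC.XH

end
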