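import Fermat.Agent.JAC.XH.Maps
import Fermat.Agent.MC.Lvl.Generator
import Fermat.Agent.JAC.X0.HeckeTrace

/-!
# The two maps from level `Γ_H(N)` with `Γ₀(N ℓ)` and their degree

The maps are `alphaH` and `betaH`, of degree `ℓ` or `ℓ + 1` by `finrankAlong_alphaH` and
`finrankAlong_betaH`.
-/

set_option autoImplicit false
set_option linter.unusedSectionVars false

noncomputable section

open AlgebraicCurve ModularCurve CongruenceSubgroup
open scoped MatrixGroups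

namespace Fermat.JAC.XH

open Fermat.MC.Lvl

variable (N : ℕ) [NeZero N] (H : Subgroup (ZMod N)ˣ) (ℓ : ℕ)

/-- `H` at level `N ℓ`. -/
abbrev upH : Subgroup (ZMod (N * ℓ))ˣ := H.comap (ZMod.unitsMap (dvd_mul_right N ℓ))

/-- Level `N ℓ` is contained in level `N`. -/
theorem up_le : GammaH (N * ℓ) (upH N H ℓ) ≤ GammaH N H :=
  (GammaH_inf_Gamma0 (H := H) (dvd_mul_right N ℓ)).ge.trans inf_le_left

/-- Level `N ℓ` is contained in `Γ₀(ℓ)`. -/
theorem up_le_Gamma0 : GammaH (N * ℓ) (upH N H ℓ) ≤ Gamma0 ℓ :=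
  GammaH_le_Gamma0.trans (Fermat.MC.Gamma0_le_of_dvd (N * ℓ) (dvd_mul_left ℓ N))

/-- Multiplication by `ℓ` maps level `N ℓ` to level `N`. -/
theorem scaleLe_up : ScaleLe ℓ (GammaH N H) (GammaH (N * ℓ) (upH N H ℓ)) := by
  intro γ hγ
  obtain ⟨h0, hmem⟩ := mem_GammaH.mp hγ
  rw [Gamma0_mem, ZMod.intCast_zmod_eq_zero_iff_dvd] at h0
  obtain ⟨m, hm⟩ := h0
  have hdet : γ 0 0 * γ 1 1 - γ 0 1 * γ 1 0 = 1 :=
    (Matrix.det_fin_two (γ : Matrix (Fin 2) (Fin 2) ℤ)).symm.trans γ.2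
  let δ : SL(2, ℤ) := ⟨!![γ 0 0, (ℓ : ℤ) * γ 0 1; (N : ℤ) * m, γ 1 1], by
    rw [Matrix.det_fin_two_of]
    rw [hm] at hdet
    push_cast at hdet
    linear_combination hdet⟩
  have hδ : δ ∈ Gamma0 N := by
    rw [Gamma0_mem, ZMod.intCast_zmod_eq_zero_iff_dvd]
    exact ⟨m, by simp [δ]⟩
  refine ⟨δ, mem_GammaH.mpr ⟨hδ, ?_⟩, by simp [δ], by simp [δ], ?_, by simp [δ]⟩
  · have e : gamma0Units N ⟨δ, hδ⟩ = ZMod.unitsMap (dvd_mul_right N ℓ)
        (gamma0Units (N * ℓ) ⟨γ, GammaH_le_Gamma0 hγ⟩) :=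
      Units.ext (by simp [ZMod.unitsMap, δ])
    rw [e]
    exact hmem
  · simp [δ, hm]
    ring

/-- The index of `Γ_H(N)`. -/
theorem index_GammaH : (GammaH N H).index = (Gamma0 N).index * H.index := by
  rw [GammaH, Subgroup.index_map, (Gamma0 N).subtype.ker_eq_bot (Gamma0 N).subtype_injective,
    sup_bot_eq, Subgroup.range_subtype,
    Subgroup.index_comap_of_surjective _ (show Function.Surjective (Gamma0Map N).toHomUnits from
      gamma0Units_surjective (N := N)), mul_comm]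

/-- The projective index at level `N`. -/
theorem psiG_GammaH : psiG (GammaH N H) = dedekindPsi N * H.index := by
  rw [show psiG (GammaH N H) = (GammaH N H).index from rfl, index_GammaH,
    ← Fermat.MC.psiN_eq_dedekindPsi]
  rfl

/-- The projective index at level `N ℓ`. -/
theorem psiG_up [NegMem H] [NeZero ℓ] :
    psiG (GammaH (N * ℓ) (upH N H ℓ)) = dedekindPsi (N * ℓ) * H.index := by
  rw [psiG_GammaH, upH, Subgroup.index_comap_of_surjective _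
    (ZMod.unitsMap_surjective (dvd_mul_right N ℓ))]

variable [NegMem H] [NeZero ℓ]

/-- The forgetful map to level `N ℓ`. -/
abbrev alphaH (L : Type*) [Field L] [Algebra ℚ L] :
    FL (GammaH N H) L →ₐ[L] FL (GammaH (N * ℓ) (upH N H ℓ)) L :=
  inclFL L (up_le N H ℓ)

/-- The map `f ↦ f (ℓ τ)` to level `N ℓ`. -/
abbrev betaH (L : Type*) [Field L] [Algebra ℚ L] :
    FL (GammaH N H) L →ₐ[L] FL (GammaH (N * ℓ) (upH N H ℓ)) L :=
  scaleFL L (scaleLe_up N H ℓ)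

/-- The forgetful map has degree `ℓ` or `ℓ + 1`. -/
theorem finrankAlong_alphaH (hℓ : ℓ.Prime) :
    finrankAlong ℂ (alphaH N H ℓ ℂ) = if ℓ ∣ N then ℓ else ℓ + 1 := by
  have h := psiG_eq_finrankAlong (up_le N H ℓ)
  rw [psiG_up, psiG_GammaH, X0.dedekindPsi_mul_prime N ℓ hℓ] at h
  have hpos : 0 < dedekindPsi N * H.index := by
    have := psiG_pos (GammaH N H)
    rwa [psiG_GammaH] at this
  refine (Nat.eq_of_mul_eq_mul_right hpos ?_).symm
  rw [← h]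
  ring

/-- The second degeneracy map has degree `ℓ` or `ℓ + 1` as `ℓ` divides the level or not. -/
theorem finrankAlong_betaH (hℓ : ℓ.Prime) :
    finrankAlong ℂ (betaH N H ℓ ℂ) = if ℓ ∣ N then ℓ else ℓ + 1 := by
  rw [← finrankAlong_alphaH N H ℓ hℓ]
  have hmem : ℓ ∈ ℓ.divisors := Nat.mem_divisors_self ℓ (NeZero.ne ℓ)
  set x : Fermat.MC.FN ℓ ℂ := Fermat.MC.jL ℓ ℂ
  set y : Fermat.MC.FN ℓ ℂ := Fermat.MC.jNL ℓ ℂ
  have hone : (1 : ℕ) ∈ ℓ.divisors := Nat.one_mem_divisors.mpr (NeZero.ne ℓ)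
  have e1 : X0.jdL ℂ (⟨1, hone⟩ : X0.DivIdx ℓ) = x := Subtype.ext (by
    change coeffEmb ℂ (qExpand ℚ 1 jq) = coeffEmb ℂ jq
    rw [qExpand_one_apply])
  have e2 : X0.jdL ℂ (⟨ℓ, hmem⟩ : X0.DivIdx ℓ) = y := rfl
  have hxy : X0.fricke ℓ ℂ x = y := by
    rw [← e1, X0.fricke_jdL, ← e2]
    exact congrArg (X0.jdL ℂ) (Subtype.ext (Nat.div_one ℓ))
  have hyx : X0.fricke ℓ ℂ y = x := by rw [← hxy, X0.fricke_fricke]
  refine finrankAlong_eq_of_common (betaH N H ℓ ℂ) (alphaH N H ℓ ℂ)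
    (transcendental_jLC (GammaH N H)) (fromFN _ ℂ (up_le_Gamma0 N H ℓ)) (x := y) (y := x) ?_ ?_
    (degree_zeroDiv_of_invol (X0.fricke ℓ ℂ) (Fermat.MC.transcendental_jL ℓ) hxy hyx)
  · refine Subtype.ext ?_
    rw [coe_fromFN, coe_scaleFL]
    exact (qExpand_coeffEmb (ℓ := ℓ) (L := ℂ) jq).symm
  · exact Subtype.ext (by rw [coe_fromFN, coe_inclFL]; rfl)

end Fermat.JAC.XH

end
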