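import Mathlib
import Fermat.Agent.MC.Gamma0

/-!
# Eisenstein series of weight four for congruence classes, with their expansions

`G4 N a z = ∑ (c z + d)⁻⁴` over all integer vectors `(c, d) ≡ a (mod N)`.  After division by
`eisK N = (2πi)⁴ / (6 N⁴)` the expansion of `G4 N (0, d)` at `∞` has coefficients in `ℚ(ζ_N)`.
-/

set_option autoImplicit false
set_option linter.unusedSectionVars false

noncomputable section

open Complex EisensteinSeries Filter Function
open UpperHalfPlane hiding I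
open scoped Real MatrixGroups Manifold Topology ModularForm Matrix

namespace Fermat.JAC.XH

variable (N : ℕ) [NeZero N]

/-- The integer vectors in a class modulo `N`. -/
def vecSet (a : Fin 2 → ZMod N) : Set (Fin 2 → ℤ) := {v | (fun i => (v i : ZMod N)) = a}

/-- The weight four Eisenstein series of a class modulo `N`. -/
def G4 (a : Fin 2 → ZMod N) (z : ℍ) : ℂ := ∑' v : vecSet N a, eisSummand 4 v z

/-- The normalising constant. -/
def eisK : ℂ := (2 * π * I) ^ 4 / (6 * (N : ℂ) ^ 4)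

/-- The normalising constant is nonzero. -/
theorem eisK_ne_zero : eisK N ≠ 0 := by
  simp [eisK, Real.pi_ne_zero, NeZero.ne N]

/-- The series converges absolutely. -/
theorem summable_G4 (a : Fin 2 → ZMod N) (z : ℍ) :
    Summable fun v : vecSet N a => eisSummand 4 v z :=
  (summable_norm_eisSummand (k := (4 : ℤ)) (by norm_num) z).of_norm.subtype _

variable {N}

/-- Right multiplication moves the classes. -/
theorem vecMul_mem_vecSet {a : Fin 2 → ZMod N} {v : Fin 2 → ℤ} (hv : v ∈ vecSet N a)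
    (γ : SL(2, ℤ)) : v ᵥ* γ.1 ∈ vecSet N (a ᵥ* γ) := by
  have h := RingHom.map_vecMul (m := Fin 2) (n := Fin 2) (Int.castRingHom (ZMod N)) γ v
  simp only [eq_intCast, Int.coe_castRingHom] at h
  change (fun i => ((v ᵥ* γ.1) i : ZMod N)) = _
  rw [← (hv : (fun i => (v i : ZMod N)) = a)]
  funext i
  rw [h]
  simp [Function.comp_def]

/-- Right multiplication by `γ`. -/
def vecSetEquiv (a : Fin 2 → ZMod N) (γ : SL(2, ℤ)) : vecSet N a ≃ vecSet N (a ᵥ* γ) where
  toFun v := ⟨v.1 ᵥ* γ.1, vecMul_mem_vecSet v.2 γ⟩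
  invFun v := ⟨v.1 ᵥ* (γ⁻¹).1, by
    have := vecMul_mem_vecSet v.2 γ⁻¹
    have e : ((Matrix.SpecialLinearGroup.map (Int.castRingHom (ZMod N)) γ :
          Matrix.SpecialLinearGroup (Fin 2) (ZMod N)) : Matrix (Fin 2) (Fin 2) (ZMod N)) *
        ((Matrix.SpecialLinearGroup.map (Int.castRingHom (ZMod N)) γ⁻¹ :
          Matrix.SpecialLinearGroup (Fin 2) (ZMod N)) : Matrix (Fin 2) (Fin 2) (ZMod N)) = 1 := by
      rw [← Matrix.SpecialLinearGroup.coe_mul, ← map_mul, mul_inv_cancel, map_one,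
        Matrix.SpecialLinearGroup.coe_one]
    rwa [Matrix.vecMul_vecMul, e, Matrix.vecMul_one] at this⟩
  left_inv v := by
    simp_rw [Matrix.vecMul_vecMul, ← Matrix.SpecialLinearGroup.coe_mul,
      mul_inv_cancel, Matrix.SpecialLinearGroup.coe_one, Matrix.vecMul_one]
  right_inv v := by
    simp_rw [Matrix.vecMul_vecMul, ← Matrix.SpecialLinearGroup.coe_mul,
      inv_mul_cancel, Matrix.SpecialLinearGroup.coe_one, Matrix.vecMul_one]

/-- The modular group permutes the series. -/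
theorem G4_slash (a : Fin 2 → ZMod N) (γ : SL(2, ℤ)) :
    G4 N a ∣[(4 : ℤ)] γ = G4 N (a ᵥ* γ) := by
  ext1 z
  simp_rw [ModularForm.SL_slash_apply, zpow_neg,
    mul_inv_eq_iff_eq_mul₀ (zpow_ne_zero _ <| denom_ne_zero _ z),
    G4, eisSummand_SL2_apply, tsum_mul_left, mul_comm (_ ^ (4 : ℤ))]
  congr 1
  exact (vecSetEquiv a γ).tsum_eq (eisSummand 4 · z)

/-- `G4 N a` as a slash invariant form of level `Γ(N)`. -/
def G4SIF (a : Fin 2 → ZMod N) : SlashInvariantForm (CongruenceSubgroup.Gamma N) 4 where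
  toFun := G4 N a
  slash_action_eq' A hA := by
    obtain ⟨A, (hA : A ∈ CongruenceSubgroup.Gamma N), rfl⟩ := hA
    simp [Matrix.SpecialLinearGroup.mapGL, ← ModularForm.SL_slash, G4_slash,
      CongruenceSubgroup.Gamma_mem'.mp hA]

/-- An Eisenstein series of a class modulo `N` of weight at least three is holomorphic. -/
theorem mdiff_tsum_eisSummand {k : ℤ} (hk : 3 ≤ k) (a : Fin 2 → ZMod N) :
    MDiff fun z : ℍ => ∑' v : vecSet N a, eisSummand k v z := by
  let f : ℍ → ℂ := fun z => ∑' v : vecSet N a, eisSummand k v z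
  change MDiff f
  have hk' : (2 : ℝ) < (k : ℝ) := by exact_mod_cast (by omega : (2 : ℤ) < k)
  -- the series is dominated on vertical strips, so converges locally uniformly
  have p_sum : Summable fun x : vecSet N a ↦ ‖x.val‖ ^ (-(k : ℝ)) :=
    (summable_one_div_norm_rpow hk').subtype (· ∈ vecSet N a)
  have hloc : TendstoLocallyUniformly
      (fun (s : Finset (vecSet N a)) ↦ (∑ x ∈ s, eisSummand k x ·)) (f ·) atTop := by
    simp only [tendstoLocallyUniformly_iff_forall_isCompact, f]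
    intro K hK
    obtain ⟨A, B, hB, hABK⟩ := subset_verticalStrip_of_isCompact hK
    refine (tendstoUniformlyOn_tsum (hu := p_sum.mul_left <| r ⟨⟨A, B⟩, hB⟩ ^ (-(k : ℝ)))
      (fun v z hz ↦ ?_)).mono hABK
    have h := summand_bound_of_mem_verticalStrip (k := (k : ℝ)) (lt_trans two_pos hk').le v hB hz
    simp only [eisSummand, norm_zpow]
    rw [← Real.rpow_intCast]
    push_cast
    exact h
  intro τ
  suffices DifferentiableAt ℂ (↑ₕf) τ.1 by
    convert!
      MDifferentiableAt.comp τ (DifferentiableAt.mdifferentiableAt this) τ.mdifferentiable_coe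
    exact funext fun z ↦ (comp_ofComplex f z).symm
  -- a locally uniform limit of holomorphic functions is holomorphic
  refine DifferentiableOn.differentiableAt ?_ (isOpen_upperHalfPlaneSet.mem_nhds τ.2)
  have hon : TendstoLocallyUniformlyOn (fun (s : Finset (vecSet N a)) ↦
      ↑ₕ(fun (z : ℍ) ↦ ∑ x ∈ s, eisSummand k x z)) (↑ₕf) atTop {z : ℂ | 0 < z.im} := by
    rw [← upperHalfPlaneSet, ← range_coe, ← Set.image_univ]
    apply TendstoLocallyUniformlyOn.comp (s := ⊤) _ _ _ (OpenPartialHomeomorph.continuousOn_symm _)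
    · simp only [Set.top_eq_univ, tendstoLocallyUniformlyOn_univ]
      exact hloc
    · simp only [Topology.IsOpenEmbedding.toOpenPartialHomeomorph_target, Set.top_eq_univ,
        Set.mapsTo_range_iff, Set.mem_univ, forall_const]
  exact hon.differentiableOn (Eventually.of_forall fun s ↦ DifferentiableOn.fun_sum
    fun _ _ ↦ eisSummand_extension_differentiableOn _ _) isOpen_upperHalfPlaneSet

/-- The series is holomorphic. -/
theorem mdiff_G4 (a : Fin 2 → ZMod N) : MDiff (G4 N a) := mdiff_tsum_eisSummand (by norm_num) a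

/-- `G4` is bounded at `∞`. -/
theorem isBoundedAtImInfty_G4 (a : Fin 2 → ZMod N) : IsBoundedAtImInfty (G4 N a) := by
  rw [isBoundedAtImInfty_iff]
  refine ⟨∑' x : Fin 2 → ℤ, r ⟨⟨N, 2⟩, Nat.ofNat_pos⟩ ^ (-(4 : ℤ)) * ‖x‖ ^ (-(4 : ℤ)), 2, ?_⟩
  intro z hz
  obtain ⟨n, hn⟩ := ModularGroup_T_zpow_mem_verticalStrip z (NeZero.pos N)
  have hk' : (2 : ℝ) < ((4 : ℤ) : ℝ) := by norm_num
  rw [show G4 N a z = G4 N a ((ModularGroup.T ^ ((N : ℤ) * n)) • z) from
    (SlashInvariantForm.T_zpow_width_invariant N 4 n (G4SIF a) z).symm, G4]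
  refine (norm_tsum_le_tsum_norm ((summable_norm_eisSummand (by norm_num) _).subtype _)).trans ?_
  refine (Summable.tsum_subtype_le _ _ (fun _ => norm_nonneg _)
    (summable_norm_eisSummand (by norm_num) _)).trans ?_
  apply (summable_norm_eisSummand (by norm_num) _).tsum_le_tsum _
  · exact_mod_cast (summable_one_div_norm_rpow hk').mul_left <|
      r ⟨⟨N, 2⟩, Nat.ofNat_pos⟩ ^ (-(4 : ℤ))
  · intro x
    simp_rw [eisSummand, norm_zpow]
    exact_mod_cast
      summand_bound_of_mem_verticalStrip (lt_trans two_pos hk').le x two_pos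
      (verticalStrip_anti_right N hz hn)

section Expansion

/-- `q`. -/
abbrev qz (z : ℂ) : ℂ := cexp (2 * π * I * z)

/-- `q` has norm less than one on `ℍ`. -/
theorem norm_qz_lt_one (z : ℍ) : ‖qz (z : ℂ)‖ < 1 := norm_exp_two_pi_I_lt_one z

/-- A double series in `q ^ (c k)` with bounded coefficients is regrouped over the divisors of
the exponent. -/
theorem hasSum_divisors (j : ℕ) (u : ℕ → ℕ → ℂ) {C : ℝ} (hu : ∀ c k, ‖u c k‖ ≤ C) (z : ℍ) :
    HasSum (fun n : ℕ => (∑ x ∈ n.divisorsAntidiagonal, (x.2 : ℂ) ^ j * u x.1 x.2) * qz z ^ n)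
      (∑' x : ℕ+ × ℕ+, ((x.2 : ℕ) : ℂ) ^ j * u x.1 x.2 * qz z ^ ((x.1 : ℕ) * x.2)) := by
  have hs : Summable fun x : ℕ+ × ℕ+ =>
      ((x.2 : ℕ) : ℂ) ^ j * u x.1 x.2 * qz z ^ ((x.1 : ℕ) * x.2) := by
    refine Summable.of_norm_bounded
      ((summable_prod_mul_pow (𝕜 := ℂ) j (norm_qz_lt_one z)).norm.mul_left C) fun x => ?_
    simp only [norm_mul, norm_pow, Complex.norm_natCast]
    rw [mul_assoc, mul_left_comm]
    exact mul_le_mul_of_nonneg_right (hu _ _) (by positivity)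
  have h1 := (sigmaAntidiagonalEquivProd.hasSum_iff).mpr hs.hasSum
  have h2 : HasSum (fun n : ℕ+ =>
      (∑ x ∈ (n : ℕ).divisorsAntidiagonal, (x.2 : ℂ) ^ j * u x.1 x.2) * qz z ^ (n : ℕ))
      (∑' x : ℕ+ × ℕ+, ((x.2 : ℕ) : ℂ) ^ j * u x.1 x.2 * qz z ^ ((x.1 : ℕ) * x.2)) := by
    refine h1.sigma fun n => ?_
    rw [show (∑ x ∈ (n : ℕ).divisorsAntidiagonal, (x.2 : ℂ) ^ j * u x.1 x.2) * qz z ^ (n : ℕ) =
      ∑ c, ((fun x : ℕ+ × ℕ+ => ((x.2 : ℕ) : ℂ) ^ j * u x.1 x.2 * qz z ^ ((x.1 : ℕ) * x.2)) ∘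
        ⇑sigmaAntidiagonalEquivProd) ⟨n, c⟩ from ?_]
    · exact hasSum_fintype _
    rw [Finset.univ_eq_attach, Finset.sum_mul,
      ← Finset.sum_attach (f := fun x : ℕ × ℕ => (x.2 : ℂ) ^ j * u x.1 x.2 * qz z ^ (n : ℕ))]
    refine Finset.sum_congr rfl fun x _ => ?_
    simp [sigmaAntidiagonalEquivProd, divisorsAntidiagonalFactors,
      (Nat.mem_divisorsAntidiagonal.mp x.2).1]
  refine (Function.Injective.hasSum_iff PNat.coe_injective fun n hn => ?_).mp h2
  rcases n.eq_zero_or_pos with rfl | hpos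
  · simp
  · exact absurd ⟨⟨n, hpos⟩, rfl⟩ hn

variable (N)

/-- The sum over the second coordinate. -/
def rowSum (c r : ℤ) (z : ℍ) : ℂ := ∑' m : ℤ, eisSummand 4 ![c, r + N * m] z

/-- Negative rows are positive rows of the opposite class. -/
theorem rowSum_neg (c r : ℤ) (z : ℍ) : rowSum N (-c) r z = rowSum N c (-r) z := by
  rw [rowSum, rowSum, ← (Equiv.neg ℤ).tsum_eq]
  refine tsum_congr fun m => ?_
  simp only [eisSummand, Matrix.cons_val_zero, Matrix.cons_val_one, Equiv.neg_apply]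
  push_cast
  rw [← (show Even (-(4 : ℤ)) from ⟨-2, rfl⟩).neg_zpow]
  congr 1
  ring

/-- A row `c > 0` of an Eisenstein series, by the Lipschitz formula. -/
theorem tsum_eisSummand_row {k : ℕ} (hk : 1 ≤ k) (c : ℕ+) (r : ℤ) (z : ℍ) :
    ∑' m : ℤ, eisSummand ((k + 1 : ℕ) : ℤ) ![((c : ℕ) : ℤ), r + N * m] z =
      ((N : ℂ) ^ (k + 1))⁻¹ * ((-2 * π * I) ^ (k + 1) / (k.factorial : ℂ) *
        ∑' j : ℕ+, ((j : ℕ) : ℂ) ^ k * qz (((c : ℕ) * (z : ℂ) + r) / N) ^ (j : ℕ)) := by
  have hN : (N : ℂ) ≠ 0 := Nat.cast_ne_zero.mpr (NeZero.ne N)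
  have him : 0 < (((c : ℕ) * (z : ℂ) + r) / (N : ℂ)).im := by
    rw [Complex.div_natCast_im]
    simp only [Complex.add_im, Complex.mul_im, Complex.natCast_re, Complex.natCast_im, zero_mul,
      add_zero, Complex.intCast_im, UpperHalfPlane.coe_im]
    exact div_pos (mul_pos (by exact_mod_cast c.pos) z.2) (by exact_mod_cast NeZero.pos N)
  rw [← EisensteinSeries.qExpansion_identity_pnat hk
    (⟨((c : ℕ) * (z : ℂ) + r) / N, him⟩ : ℍ), ← tsum_mul_left]
  refine tsum_congr fun m => ?_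
  simp only [eisSummand, Matrix.cons_val_zero, Matrix.cons_val_one]
  push_cast
  rw [zpow_neg, show ((k : ℤ) + 1) = ((k + 1 : ℕ) : ℤ) by push_cast; rfl, zpow_natCast, one_div,
    ← mul_inv, ← mul_pow]
  congr 2
  field_simp
  ring

/-- The expansion of a positive row. -/
theorem rowSum_pos (c : ℕ+) (r : ℤ) (z : ℍ) :
    rowSum N (c : ℕ) r z =
      eisK N * ∑' k : ℕ+, ((k : ℕ) : ℂ) ^ 3 * qz (((c : ℕ) * (z : ℂ) + r) / N) ^ (k : ℕ) := by
  refine (tsum_eisSummand_row N (k := 3) (by norm_num) c r z).trans ?_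
  rw [eisK, ← mul_assoc]
  congr 1
  simp [Nat.factorial]
  ring

/-- The vectors of a class, by rows. -/
def rowsEquiv (a : Fin 2 → ZMod N) (r : ℤ) (hr : (r : ZMod N) = a 1) :
    ({c : ℤ // (c : ZMod N) = a 0} × ℤ) ≃ vecSet N a where
  toFun x := ⟨![x.1.1, r + N * x.2], funext fun i => by fin_cases i <;> simp [x.1.2, hr]⟩
  invFun v := (⟨v.1 0, congrFun v.2 0⟩, (v.1 1 - r) / N)
  left_inv x := Prod.ext (Subtype.ext rfl) (by
    simp [Int.mul_ediv_cancel_left _ (Int.natCast_ne_zero.mpr (NeZero.ne N))])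
  right_inv v := Subtype.ext (funext fun i => by
    fin_cases i
    · rfl
    · have h1 : (N : ℤ) ∣ v.1 1 - r := by
        rw [← ZMod.intCast_zmod_eq_zero_iff_dvd, Int.cast_sub, hr, sub_eq_zero]
        exact congrFun v.2 1
      simp [Int.mul_ediv_cancel' h1])

/-- `q ^ (1 / N)` has norm less than one on `ℍ`. -/
theorem norm_qz_div_lt_one (z : ℍ) : ‖qz ((z : ℂ) / N)‖ < 1 := by
  have him : 0 < ((z : ℂ) / (N : ℂ)).im := by
    rw [Complex.div_natCast_im]
    exact div_pos z.2 (by exact_mod_cast NeZero.pos N)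
  exact norm_exp_two_pi_I_lt_one ⟨_, him⟩

/-- A root of unity has norm one. -/
theorem norm_qz_int_div (r : ℤ) : ‖qz ((r : ℂ) / N)‖ = 1 := by
  rw [qz, Complex.norm_exp]
  simp [Complex.mul_re, Complex.div_natCast_re, Complex.div_natCast_im]

/-- The weight of a pair in the expansion. -/
def rowWeight (a : Fin 2 → ZMod N) (r : ℤ) (c k : ℕ) : ℂ :=
  (if ((c : ℤ) : ZMod N) = a 0 then qz ((r : ℂ) / N) ^ k else 0) +
    if ((-(c : ℤ) : ℤ) : ZMod N) = a 0 then qz (-(r : ℂ) / N) ^ k else 0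

/-- The weights are bounded by two. -/
theorem norm_rowWeight_le (a : Fin 2 → ZMod N) (r : ℤ) (c k : ℕ) : ‖rowWeight N a r c k‖ ≤ 2 := by
  have h : ∀ (P : Prop) [Decidable P] (r' : ℤ), ‖if P then qz ((r' : ℂ) / N) ^ k else 0‖ ≤ 1 :=
    fun P _ r' => by split_ifs <;> simp [norm_qz_int_div]
  refine (norm_add_le _ _).trans ?_
  have h2 := h (((-(c : ℤ) : ℤ) : ZMod N) = a 0) (-r)
  rw [Int.cast_neg r] at h2
  exact (add_le_add (h _ r) h2).trans (by norm_num)

/-- The expansion of an Eisenstein series of a class from that of its rows. -/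
theorem tsum_vecSet_eq {k : ℤ} {w : ℕ} (ε K : ℂ) (hε : ‖ε‖ ≤ 1) (a : Fin 2 → ZMod N) (r : ℤ)
    (hr : (r : ZMod N) = a 1) (z : ℍ)
    (hsum₀ : Summable fun v : vecSet N a => eisSummand k v z)
    (hneg : ∀ c r' : ℤ, ∑' m : ℤ, eisSummand k ![-c, r' + N * m] z =
      ε * ∑' m : ℤ, eisSummand k ![c, -r' + N * m] z)
    (hpos : ∀ (c : ℕ+) (r' : ℤ), ∑' m : ℤ, eisSummand k ![((c : ℕ) : ℤ), r' + N * m] z =
      K * ∑' j : ℕ+, ((j : ℕ) : ℂ) ^ w * qz (((c : ℕ) * (z : ℂ) + r') / N) ^ (j : ℕ)) :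
    ∑' v : vecSet N a, eisSummand k v z =
      (if a 0 = 0 then ∑' m : ℤ, eisSummand k ![0, r + N * m] z else 0) + K *
      ∑' x : ℕ+ × ℕ+, ((x.2 : ℕ) : ℂ) ^ w *
        ((if (((x.1 : ℕ) : ℤ) : ZMod N) = a 0 then qz ((r : ℂ) / N) ^ (x.2 : ℕ) else 0) +
          ε * if ((-((x.1 : ℕ) : ℤ) : ℤ) : ZMod N) = a 0 then qz (-(r : ℂ) / N) ^ (x.2 : ℕ)
            else 0) *
        qz ((z : ℂ) / N) ^ ((x.1 : ℕ) * x.2) := by
  classical
  have hs : Summable fun x : {c : ℤ // (c : ZMod N) = a 0} × ℤ =>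
      eisSummand k ((rowsEquiv N a r hr x : Fin 2 → ℤ)) z :=
    (rowsEquiv N a r hr).summable_iff.mpr hsum₀
  -- Sum by rows `c`, then split into `c = 0`, `c > 0` and `c < 0`.
  let R : ℤ → ℂ := fun c => ∑' m : ℤ, eisSummand k ![c, r + N * m] z
  have e1 : ∑' v : vecSet N a, eisSummand k v z = ∑' c : {c : ℤ // (c : ZMod N) = a 0}, R c := by
    rw [← (rowsEquiv N a r hr).tsum_eq, hs.tsum_prod]
    rfl
  let T : ℤ → ℂ := Set.indicator {c : ℤ | (c : ZMod N) = a 0} R
  have hT : Summable T := (summable_subtype_iff_indicator (f := R)).mp hs.prod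
  have e2 : ∑' v : vecSet N a, eisSummand k v z = ∑' c : ℤ, T c :=
    e1.trans (tsum_subtype {c : ℤ | (c : ZMod N) = a 0} R)
  have hp : Summable fun n : ℕ => T ((n : ℤ) + 1) :=
    hT.comp_injective fun m n h => by simpa using h
  have hm : Summable fun n : ℕ => T (-((n : ℤ) + 1)) :=
    hT.comp_injective fun m n h => by simpa using h
  rw [e2, tsum_of_add_one_of_neg_add_one hp hm, add_right_comm,
    ← Summable.tsum_add hp hm, add_comm]
  congr 1
  · simp [T, R, Set.indicator_apply, eq_comm]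
  -- the rows `c` and `-c` together
  · set u : ℕ+ × ℕ+ → ℂ := fun x => ((x.2 : ℕ) : ℂ) ^ w *
      ((if (((x.1 : ℕ) : ℤ) : ZMod N) = a 0 then qz ((r : ℂ) / N) ^ (x.2 : ℕ) else 0) +
        ε * if ((-((x.1 : ℕ) : ℤ) : ℤ) : ZMod N) = a 0 then qz (-(r : ℂ) / N) ^ (x.2 : ℕ) else 0) *
      qz ((z : ℂ) / N) ^ ((x.1 : ℕ) * x.2) with hu
    have hus : Summable u := by
      refine Summable.of_norm_bounded
        ((summable_prod_mul_pow (𝕜 := ℂ) w (norm_qz_div_lt_one N z)).norm.mul_left 2) fun x => ?_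
      simp only [hu, norm_mul, norm_pow, Complex.norm_natCast]
      rw [mul_assoc, mul_left_comm]
      refine mul_le_mul_of_nonneg_right ?_ (by positivity)
      have h : ∀ (P : Prop) [Decidable P] (r' : ℤ),
          ‖if P then qz ((r' : ℂ) / N) ^ (x.2 : ℕ) else 0‖ ≤ 1 :=
        fun P _ r' => by split_ifs <;> simp [norm_qz_int_div]
      have h2 := h (((-((x.1 : ℕ) : ℤ) : ℤ) : ZMod N) = a 0) (-r)
      rw [Int.cast_neg r] at h2
      refine (norm_add_le _ _).trans ?_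
      rw [norm_mul]
      exact (add_le_add (h _ r) (mul_le_one₀ hε (norm_nonneg _) h2)).trans (by norm_num)
    rw [hus.tsum_prod, ← tsum_mul_left, ← Equiv.pnatEquivNat.symm.tsum_eq]
    refine tsum_congr fun n => ?_
    rw [← tsum_mul_left]
    -- The rows `c` and `-c` expand by `hpos` and `hneg`.
    have key : ∀ (c : ℕ+) (r' : ℤ), K * ∑' j : ℕ+, ((j : ℕ) : ℂ) ^ w *
        (qz ((r' : ℂ) / N) ^ (j : ℕ) * qz ((z : ℂ) / N) ^ ((c : ℕ) * j)) =
          ∑' m : ℤ, eisSummand k ![((c : ℕ) : ℤ), r' + N * m] z := fun c r' => by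
      rw [hpos]
      congr 1
      refine tsum_congr fun j => ?_
      congr 1
      rw [pow_mul, ← mul_pow]
      congr 1
      rw [qz, qz, qz, ← Complex.exp_nat_mul, ← Complex.exp_add]
      ring_nf
    set c : ℕ+ := Equiv.pnatEquivNat.symm n
    have hc : ((c : ℕ) : ℤ) = (n : ℤ) + 1 := by simp [c]
    have hval : ∀ j : ℕ+, u (c, j) =
        (if ((c : ℤ) : ZMod N) = a 0 then ((j : ℕ) : ℂ) ^ w *
          (qz ((r : ℂ) / N) ^ (j : ℕ) * qz ((z : ℂ) / N) ^ ((c : ℕ) * j)) else 0) +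
        ε * if ((-(c : ℤ) : ℤ) : ZMod N) = a 0 then ((j : ℕ) : ℂ) ^ w *
          (qz (((-r : ℤ) : ℂ) / N) ^ (j : ℕ) * qz ((z : ℂ) / N) ^ ((c : ℕ) * j)) else 0 := by
      intro j
      simp only [hu, Int.cast_neg]
      split_ifs <;> ring
    have hsum : ∀ r' : ℤ, Summable fun j : ℕ+ => ((j : ℕ) : ℂ) ^ w *
        (qz ((r' : ℂ) / N) ^ (j : ℕ) * qz ((z : ℂ) / N) ^ ((c : ℕ) * j)) := fun r' => by
      refine Summable.of_norm_bounded ((summable_prod_mul_pow (𝕜 := ℂ) w
        (norm_qz_div_lt_one N z)).norm.comp_injective (i := fun j : ℕ+ => (c, j))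
          fun j l h => (Prod.mk.inj h).2) fun j => ?_
      simp [norm_qz_int_div]
    simp only [hval, mul_add, mul_left_comm K ε, mul_ite, mul_zero]
    rw [Summable.tsum_add]
    · simp only [T, R, Set.indicator_apply, Set.mem_ofPred_eq, ← hc]
      rw [hneg, ← key c r, ← key c (-r), ← tsum_mul_left, ← tsum_mul_left, ← tsum_mul_left]
      congr 1 <;> split_ifs <;> simp [*] at *
    · split_ifs
      · exact (hsum r).mul_left _
      · exact summable_zero
    · split_ifs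
      · exact ((hsum (-r)).mul_left _).mul_left _
      · exact summable_zero

/-- The expansion of `G4`. -/
theorem G4_eq (a : Fin 2 → ZMod N) (r : ℤ) (hr : (r : ZMod N) = a 1) (z : ℍ) :
    G4 N a z = (if a 0 = 0 then rowSum N 0 r z else 0) + eisK N *
      ∑' x : ℕ+ × ℕ+, ((x.2 : ℕ) : ℂ) ^ 3 * rowWeight N a r x.1 x.2 *
        qz ((z : ℂ) / N) ^ ((x.1 : ℕ) * x.2) := by
  have h := tsum_vecSet_eq N 1 (eisK N) (norm_one).le a r hr z (summable_G4 N a z)
    (fun c r' => (rowSum_neg N c r' z).trans (one_mul _).symm) (fun c r' => rowSum_pos N c r' z)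
  simp only [one_mul] at h
  exact h

end Expansion

section Level

open Fermat.MC (BddPer qS)

variable (N : ℕ) [NeZero N]

/-- A function invariant under translation by one gives a periodic function. -/
theorem periodic_ext_of_vadd {f : ℍ → ℂ} (h : ∀ z : ℍ, f ((1 : ℝ) +ᵥ z) = f z) :
    Periodic (f ∘ ofComplex) 1 := fun w => by
  by_cases hw : 0 < w.im
  · have hw' : 0 < (w + 1).im := by simpa using hw
    simp only [comp_apply, ofComplex_apply_of_im_pos hw', ofComplex_apply_of_im_pos hw]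
    rw [← h ⟨w, hw⟩]
    congr 1
    exact UpperHalfPlane.ext (by simp [add_comm])
  · have hw' : (w + 1).im ≤ 0 := by simpa using not_lt.mp hw
    simp [ofComplex_apply_of_im_nonpos (not_lt.mp hw), ofComplex_apply_of_im_nonpos hw']

/-- `G4 (0, d)`, normalised: its expansion at `∞` has coefficients in `ℚ(ζ_N)`. -/
def eisCyc (d : ZMod N) (z : ℍ) : ℂ := (eisK N)⁻¹ * G4 N ![0, d] z

/-- Translation by one changes the class. -/
theorem G4_vadd_one (a : Fin 2 → ZMod N) (z : ℍ) :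
    G4 N a ((1 : ℝ) +ᵥ z) = G4 N ![a 0, a 0 + a 1] z := by
  have h := congrFun (G4_slash a ModularGroup.T) z
  have hd : denom ModularGroup.T (z : ℂ) = 1 := by simp [denom, ModularGroup.coe_T]
  rw [ModularForm.SL_slash_apply, modular_T_smul, hd, one_zpow, mul_one] at h
  rw [h]
  congr 1
  funext i
  fin_cases i <;> simp [Matrix.vecMul, ModularGroup.coe_T, dotProduct, Fin.sum_univ_two]

/-- The series has period `N`. -/
theorem G4_vadd_natCast (a : Fin 2 → ZMod N) (z : ℍ) : G4 N a (((N : ℝ)) +ᵥ z) = G4 N a z := by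
  have h := SlashInvariantForm.vAdd_width_periodic N 4 1 (G4SIF a) z
  exact (by simpa using h : G4SIF a ((N : ℝ) +ᵥ z) = G4SIF a z)

/-- `eisCyc` is periodic and bounded at `∞`. -/
theorem bddPer_eisCyc (d : ZMod N) : BddPer (eisCyc N d) := by
  refine ⟨?_, periodic_ext_of_vadd fun z => ?_, ?_⟩
  · exact mdifferentiable_const.mul (mdiff_G4 _)
  · rw [eisCyc, eisCyc, G4_vadd_one]
    simp
  · exact (Filter.const_boundedAtFilter _ _).mul (isBoundedAtImInfty_G4 _)

/-- The constant term of `eisCyc`: a rational polynomial in a root of unity. -/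
def eisConst (r : ℤ) : ℂ :=
  -((N : ℂ) ^ 3 / 4) * ∑ j ∈ Finset.range N,
    qz (-(r : ℂ) / N) ^ j * (((Polynomial.bernoulli 4).eval ((j : ℚ) / N) : ℚ) : ℂ)

/-- A power of `qz w` multiplies the argument. -/
theorem qz_pow (w : ℂ) (j : ℕ) : qz w ^ j = qz ((j : ℂ) * w) := by
  rw [qz, qz, ← Complex.exp_nat_mul]
  ring_nf

/-- The sum of the `N`-th roots of unity to a given power. -/
theorem sum_qz_div (n : ℤ) :
    ∑ j ∈ Finset.range N, qz ((n : ℂ) / N) ^ j = if (n : ZMod N) = 0 then (N : ℂ) else 0 := by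
  have hN : (N : ℂ) ≠ 0 := Nat.cast_ne_zero.mpr (NeZero.ne N)
  split_ifs with h
  · obtain ⟨m, rfl⟩ := (ZMod.intCast_zmod_eq_zero_iff_dvd n N).mp h
    have h1 : qz ((((N : ℤ) * m : ℤ) : ℂ) / N) = 1 := by
      rw [qz, show (2 * π * I) * ((((N : ℤ) * m : ℤ) : ℂ) / N) = m * (2 * π * I) by
        push_cast; field_simp]
      exact Complex.exp_int_mul_two_pi_mul_I m
    rw [h1]
    simp
  · have hne : qz ((n : ℂ) / N) ≠ 1 := fun h1 => h (by
      obtain ⟨m, hm⟩ := Complex.exp_eq_one_iff.mp h1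
      refine (ZMod.intCast_zmod_eq_zero_iff_dvd n N).mpr ⟨m, ?_⟩
      have h2 : ((n : ℤ) : ℂ) = (((N : ℤ) * m : ℤ) : ℂ) := by
        push_cast
        field_simp [Real.pi_ne_zero, Complex.I_ne_zero] at hm
        linear_combination hm
      exact_mod_cast h2)
    rw [geom_sum_eq hne, qz_pow, div_eq_zero_iff]
    left
    rw [sub_eq_zero, qz, show (2 * π * I) * ((N : ℂ) * ((n : ℂ) / N)) = n * (2 * π * I) by
      field_simp]
    exact Complex.exp_int_mul_two_pi_mul_I n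

/-- The row `c = 0` in terms of values of Bernoulli polynomials. -/
theorem natCast_mul_tsum_eisSummand_zero {k : ℕ} (hk : 2 ≤ k) (r : ℤ) (z : ℍ) :
    (N : ℂ) * ∑' m : ℤ, eisSummand (k : ℤ) ![0, r + N * m] z =
      ∑ j ∈ Finset.range N, qz (-(r : ℂ) / N) ^ j * (-(2 * π * I) ^ k / (Nat.factorial k : ℕ) *
        (((Polynomial.bernoulli k).eval ((j : ℚ) / N) : ℚ) : ℂ)) := by
  classical
  have hN : (N : ℂ) ≠ 0 := Nat.cast_ne_zero.mpr (NeZero.ne N)
  let f : ℤ → ℂ := fun n => 1 / (n : ℂ) ^ k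
  -- The Fourier series of each Bernoulli value.
  have hb : ∀ j ∈ Finset.range N,
    HasSum (fun n : ℤ => qz (-(r : ℂ) / N) ^ j * (f n * qz ((n : ℂ) / N) ^ j))
      (qz (-(r : ℂ) / N) ^ j * (-(2 * π * I) ^ k / (Nat.factorial k : ℕ) *
        (((Polynomial.bernoulli k).eval ((j : ℚ) / N) : ℚ) : ℂ))) := by
    intro j hj
    have hN0 : (0 : ℝ) < N := by exact_mod_cast NeZero.pos N
    have hx : ((j : ℝ) / N) ∈ Set.Icc (0 : ℝ) 1 := by
      refine ⟨by positivity, ?_⟩
      rw [div_le_one hN0]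
      exact_mod_cast (Finset.mem_range.mp hj).le
    have h := (hasSum_one_div_pow_mul_fourier_mul_bernoulliFun hk hx).mul_left
      (qz (-(r : ℂ) / N) ^ j)
    have hB : (bernoulliFun k ((j : ℝ) / N) : ℂ) =
        (((Polynomial.bernoulli k).eval ((j : ℚ) / N) : ℚ) : ℂ) := by
      rw [bernoulliFun, Polynomial.eval_map, ← Complex.ofReal_ratCast]
      congr 1
      rw [show ((j : ℝ) / N) = algebraMap ℚ ℝ ((j : ℚ) / N) by simp, Polynomial.eval₂_at_apply]
      rfl
    rw [hB] at h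
    refine h.congr_fun fun n => ?_
    have e : (fourier n) (((j : ℝ) / N : ℝ) : UnitAddCircle) = qz ((n : ℂ) / N) ^ j := by
      rw [fourier_coe_apply, qz_pow, qz]
      congr 1
      push_cast
      field_simp
    rw [e]
  -- Orthogonality of roots of unity leaves the `n` congruent to `r`.
  have hsum := hasSum_sum hb
  have hfib : (fun n : ℤ => ∑ j ∈ Finset.range N,
      qz (-(r : ℂ) / N) ^ j * (f n * qz ((n : ℂ) / N) ^ j)) =
      Set.indicator {n : ℤ | (n : ZMod N) = (r : ZMod N)} fun n => (N : ℂ) * f n := by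
    funext n
    have : ∀ j : ℕ, qz (-(r : ℂ) / N) ^ j * (f n * qz ((n : ℂ) / N) ^ j) =
        f n * qz (((n - r : ℤ) : ℂ) / N) ^ j := fun j => by
      rw [mul_left_comm, ← mul_pow, qz, qz, qz, ← Complex.exp_add]
      congr 3
      push_cast
      ring
    simp only [this, ← Finset.mul_sum]
    rw [sum_qz_div]
    simp only [Set.indicator_apply, Set.mem_ofPred_eq, Int.cast_sub, sub_eq_zero]
    split_ifs <;> ring
  rw [hfib] at hsum
  -- reindex the class
  let e : ℤ ≃ ({n : ℤ | (n : ZMod N) = (r : ZMod N)} : Set ℤ) :=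
    { toFun := fun m => ⟨r + N * m, by simp⟩
      invFun := fun n => (n.1 - r) / N
      left_inv := fun m => by
        simp [Int.mul_ediv_cancel_left _ (Int.natCast_ne_zero.mpr (NeZero.ne N))]
      right_inv := fun n => Subtype.ext (by
        have h1 : (N : ℤ) ∣ n.1 - r := by
          rw [← ZMod.intCast_zmod_eq_zero_iff_dvd, Int.cast_sub,
            show ((n.1 : ℤ) : ZMod N) = r from n.2, sub_self]
        simp [Int.mul_ediv_cancel' h1]) }
  rw [← hsum.tsum_eq, ← tsum_subtype {n : ℤ | (n : ZMod N) = (r : ZMod N)} fun n => (N : ℂ) * f n,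
    ← e.tsum_eq, ← tsum_mul_left]
  refine tsum_congr fun m => ?_
  simp only [f, e, eisSummand, Matrix.cons_val_zero, Matrix.cons_val_one, Int.cast_zero, zero_mul,
    zero_add, Equiv.coe_fn_mk, one_div]
  rw [_root_.zpow_neg, zpow_natCast]

/-- The row `c = 0` is the constant term. -/
theorem rowSum_zero (r : ℤ) (z : ℍ) :
    rowSum N 0 r z = eisK N * eisConst N r := by
  have hN : (N : ℂ) ≠ 0 := Nat.cast_ne_zero.mpr (NeZero.ne N)
  refine mul_left_cancel₀ hN
    ((natCast_mul_tsum_eisSummand_zero N (k := 4) (by norm_num) r z).trans ?_)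
  rw [eisConst, eisK, Finset.mul_sum, Finset.mul_sum, Finset.mul_sum]
  refine Finset.sum_congr rfl fun j _ => ?_
  simp [Nat.factorial]
  field_simp
  ring

/-- The coefficients of `eisCyc N r`. -/
def eisCycCoeff (r : ℤ) (n : ℕ) : ℂ :=
  (if n = 0 then eisConst N r else 0) + ∑ x ∈ n.divisorsAntidiagonal,
    (x.2 : ℂ) ^ 3 * (qz ((r : ℂ) / N) ^ x.2 + qz (-(r : ℂ) / N) ^ x.2)

/-- The expansion is read off a convergent series in `q`. -/
theorem coeff_qS_eq {f : ℍ → ℂ} (hf : BddPer f) {c : ℕ → ℂ}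
    (h : ∀ z : ℍ, HasSum (fun n => c n * qz (z : ℂ) ^ n) (f z)) (n : ℕ) :
    (qS f).coeff n = c n := by
  rw [qS, HahnSeries.ofPowerSeries_apply_coeff]
  refine (qExpansion_coeff_unique (F := C(ℍ, ℂ)) ⟨f, hf.1.continuous⟩ one_pos hf.analyticAt
    (fun τ => ?_) n).symm
  refine (h τ).congr_fun fun m => ?_
  rw [smul_eq_mul, Periodic.qParam, qz]
  norm_num

/-- The coefficients of the cyclotomic Eisenstein series. -/
theorem coeff_qS_eisCyc {r : ℤ} (n : ℕ) :
    (qS (eisCyc N r)).coeff n = eisCycCoeff N r n := by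
  refine coeff_qS_eq (bddPer_eisCyc N r) (c := eisCycCoeff N r) (fun z => ?_) n
  -- The expansion of the Eisenstein series is a double sum over rows and columns.
  have h0 := G4_eq N ![0, (r : ZMod N)] r (by simp) z
  rw [if_pos (by simp), rowSum_zero N r, ← mul_add] at h0
  rw [eisCyc, h0, ← mul_assoc, inv_mul_cancel₀ (eisK_ne_zero N), one_mul]
  let u : ℕ → ℕ → ℂ := fun _ k => qz ((r : ℂ) / N) ^ k + qz (-(r : ℂ) / N) ^ k
  have hu : ∀ c k, ‖u c k‖ ≤ 2 := fun c k => by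
    refine (norm_add_le _ _).trans ?_
    have h2 := norm_qz_int_div N (-r)
    rw [Int.cast_neg] at h2
    norm_num [norm_pow, norm_qz_int_div, h2]
  let ψ : ℕ+ × ℕ+ → ℕ+ × ℕ+ := fun x => (⟨N, NeZero.pos N⟩ * x.1, x.2)
  have hψ : Injective ψ := fun x y h => by
    obtain ⟨h1, h2⟩ := Prod.mk.inj h
    exact Prod.ext (mul_left_cancel h1) h2
  -- Only rows divisible by `N` contribute; reindexing gives a divisor sum in `q`.
  have hcyc : (∑' x : ℕ+ × ℕ+, ((x.2 : ℕ) : ℂ) ^ 3 * rowWeight N ![0, (r : ZMod N)] r x.1 x.2 *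
      qz ((z : ℂ) / N) ^ ((x.1 : ℕ) * x.2)) =
      ∑' x : ℕ+ × ℕ+, ((x.2 : ℕ) : ℂ) ^ 3 * u x.1 x.2 * qz (z : ℂ) ^ ((x.1 : ℕ) * x.2) := by
    rw [← hψ.tsum_eq]
    · refine tsum_congr fun x => ?_
      have hm : ((⟨N, NeZero.pos N⟩ * x.1 : ℕ+) : ℕ) = N * (x.1 : ℕ) := rfl
      simp only [ψ, hm, u, rowWeight]
      rw [show qz (z : ℂ) = qz ((z : ℂ) / N) ^ N by
        rw [qz_pow]; congr 1; field_simp [(Nat.cast_ne_zero.mpr (NeZero.ne N) : (N : ℂ) ≠ 0)],
        ← pow_mul, Nat.mul_assoc]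
      simp
    · intro x hx
      by_contra hnot
      refine hx ?_
      have hdvd : ¬ (N : ℤ) ∣ ((x.1 : ℕ) : ℤ) := fun hd => hnot (by
        obtain ⟨c, hc⟩ := Int.natCast_dvd_natCast.mp hd
        have hcpos : 0 < c := Nat.pos_of_ne_zero fun h => by simp [h] at hc
        exact ⟨(⟨c, hcpos⟩, x.2), Prod.ext (PNat.coe_injective hc.symm) rfl⟩)
      rw [← ZMod.intCast_zmod_eq_zero_iff_dvd] at hdvd
      simp only [rowWeight]
      rw [if_neg (by simpa using hdvd), if_neg (by simpa using hdvd)]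
      simp
  rw [hcyc]
  have h := (hasSum_ite_eq (0 : ℕ) (eisConst N r)).add (hasSum_divisors 3 u hu z)
  refine h.congr_fun fun m => ?_
  rw [eisCycCoeff, add_mul]
  congr 1
  split_ifs with hm <;> simp [hm]

end Level

end Fermat.JAC.XH

end
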