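import Fermat.Agent.JAC.XH.FrickeSeries
import Fermat.Agent.JAC.XH.DiaCompat
import Fermat.Agent.MC.Lvl.Separating

/-!
# The Fricke involution of `X_H(N)`

The substitution is `frW`, computed on `j` and on the generators.
-/

set_option autoImplicit false
set_option linter.unusedSectionVars false

noncomputable section

open CongruenceSubgroup
open ModularCurve (coeffEmb qExpand jq)
open UpperHalfPlane hiding I
open scoped MatrixGroups Manifold

namespace Fermat.JAC.XH

open Fermat.MC.Lvl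
open Fermat.MC (compSL compSL_apply affH coe_affH posN qL perAlg jN xiQ)

variable {N : ℕ} [NeZero N]

/-- `z ↦ -1/(N z)`. -/
def frPt (N : ℕ) [NeZero N] (z : ℍ) : ℍ := ModularGroup.S • affH (posN N) 0 z

/-- The Fricke substitution as a complex number. -/
theorem coe_frPt (z : ℍ) : (frPt N z : ℂ) = -((N : ℂ) * z)⁻¹ := by
  rw [frPt, UpperHalfPlane.modular_S_smul]
  simp [coe_affH, posN, inv_neg]

/-- The Fricke substitution is an involution. -/
theorem frPt_frPt (z : ℍ) : frPt N (frPt N z) = z := by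
  apply UpperHalfPlane.ext
  rw [coe_frPt, coe_frPt]
  have hN : (N : ℂ) ≠ 0 := Nat.cast_ne_zero.mpr (NeZero.ne N)
  field_simp [UpperHalfPlane.ne_zero z]

/-- Conjugation of `Γ₀(N)` by the Fricke substitution. -/
theorem exists_frConj (δ : Gamma0 N) :
    ∃ δ' : Gamma0 N, gamma0Units N δ' = (gamma0Units N δ)⁻¹ ∧
      ∀ z : ℍ, frPt N ((δ' : SL(2, ℤ)) • z) = (δ : SL(2, ℤ)) • frPt N z := by
  obtain ⟨γ, hγ⟩ := δ
  have h0 := Gamma0_mem.mp hγ
  rw [ZMod.intCast_zmod_eq_zero_iff_dvd] at h0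
  obtain ⟨m, hm⟩ := h0
  have hdet : γ 0 0 * γ 1 1 - γ 0 1 * γ 1 0 = 1 :=
    (Matrix.det_fin_two (γ : Matrix (Fin 2) (Fin 2) ℤ)).symm.trans γ.2
  -- the conjugate matrix
  let γ' : SL(2, ℤ) := ⟨!![γ 1 1, -m; -((N : ℤ) * γ 0 1), γ 0 0], by
    rw [Matrix.det_fin_two_of]
    rw [hm] at hdet
    linear_combination hdet⟩
  have hγ' : γ' ∈ Gamma0 N := by
    rw [Gamma0_mem, ZMod.intCast_zmod_eq_zero_iff_dvd]
    exact ⟨-γ 0 1, by simp [γ']⟩
  -- its character is inverse, as the determinant is one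
  refine ⟨⟨γ', hγ'⟩, eq_inv_of_mul_eq_one_left (Units.ext ?_), fun z => ?_⟩
  · rw [Units.val_mul, coe_gamma0Units, coe_gamma0Units, Units.val_one]
    have := congrArg (fun x : ℤ => (x : ZMod N)) hdet
    simpa [γ', Gamma0_mem.mp hγ] using this
  -- the substitution is `S` after `τ ↦ N τ`
  · let γ₁ : SL(2, ℤ) := ModularGroup.S⁻¹ * γ * ModularGroup.S
    have hγ₁ : (γ₁ : Matrix (Fin 2) (Fin 2) ℤ) = !![γ 1 1, -(γ 1 0); -(γ 0 1), γ 0 0] := by
      rw [show (γ₁ : Matrix (Fin 2) (Fin 2) ℤ) = ((ModularGroup.S⁻¹ : SL(2, ℤ)) :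
        Matrix (Fin 2) (Fin 2) ℤ) * (γ : Matrix (Fin 2) (Fin 2) ℤ) *
          (ModularGroup.S : SL(2, ℤ)) from rfl,
        Matrix.SpecialLinearGroup.coe_inv, ModularGroup.coe_S, Matrix.adjugate_fin_two]
      ext i j
      fin_cases i <;> fin_cases j <;> simp [Matrix.mul_apply, Matrix.vecMul, dotProduct,
        Fin.sum_univ_two]
    change ModularGroup.S • affH (posN N) 0 (γ' • z) = γ • ModularGroup.S • affH (posN N) 0 z
    rw [Fermat.MC.affH_posN_smul N γ' γ₁ (g := N) (b := 0) (d := 1)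
      (by exact_mod_cast NeZero.pos N) one_pos (by simp [γ', hγ₁]; ring)
      (by simp [γ', hγ₁, hm]) (by simp [γ', hγ₁]; ring) (by simp [γ', hγ₁]),
      ← mul_smul, ← mul_smul γ, show ModularGroup.S * γ₁ = γ * ModularGroup.S by
        simp only [γ₁]; group]
    simp [posN]

variable (H : Subgroup (ZMod N)ˣ) [NegMem H]

/-- The Fricke substitution preserves the field of level `Γ_H(N)`. -/
theorem comp_frPt_mem_W (f : W (GammaH N H)) : (f : ℍ → ℂ) ∘ frPt N ∈ W (GammaH N H) := by
  refine ⟨Fermat.MC.mdiff_comp_affH (Fermat.MC.mdiff_compSL ModularGroup.S f.2.1) _ _,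
    fun γ hγ => funext fun z => ?_, fun γ => ?_⟩
  · obtain ⟨h0, hmem⟩ := mem_GammaH.mp hγ
    obtain ⟨γ', hu, hz⟩ := exists_frConj (⟨γ, h0⟩ : Gamma0 N)
    obtain ⟨γ'', hu', hz'⟩ := exists_frConj γ'
    have hz2 : frPt N (γ • z) = (γ' : SL(2, ℤ)) • frPt N z := by
      have h1 := hz (frPt N z)
      rw [frPt_frPt] at h1
      have h2 := congrArg (frPt N) h1
      rw [frPt_frPt] at h2
      exact h2.symm
    simp only [compSL_apply, Function.comp_apply, hz2]
    refine congrFun (f.2.2.1 _ (mem_GammaH.mpr ⟨γ'.2, ?_⟩)) _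
    rw [Subtype.coe_eta, hu]
    exact inv_mem hmem
  · obtain ⟨δ, g, b, d, hg, hd, -, h1, h2, h3, h4⟩ := Fermat.MC.exists_decomp N γ
    have hfun : compSL γ ((f : ℍ → ℂ) ∘ frPt N) =
        compSL (ModularGroup.S * δ) (f : ℍ → ℂ) ∘ affH ⟨(g : ℝ) / d,
          div_pos (by exact_mod_cast hg) (by exact_mod_cast hd)⟩ (b / d) := funext fun z => by
      simp only [compSL_apply, Function.comp_apply, frPt]
      rw [Fermat.MC.affH_posN_smul N γ δ hg hd h1 h2 h3 h4, mul_smul]
    rw [hfun]
    exact (f.2.2.2 _).comp_affH _ _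

/-- `f ↦ f (-1/(N z))`. -/
def frW : W (GammaH N H) →ₐ[ℂ] W (GammaH N H) where
  toFun f := ⟨_, comp_frPt_mem_W H f⟩
  map_one' := rfl
  map_mul' _ _ := rfl
  map_zero' := rfl
  map_add' _ _ := rfl
  commutes' _ := rfl

/-- The value of a transformed function. -/
@[simp] theorem coe_frW (f : W (GammaH N H)) (z : ℍ) :
    (frW H f : ℍ → ℂ) z = (f : ℍ → ℂ) (frPt N z) := rfl

/-- The Fricke map on functions is an involution. -/
theorem frW_frW (f : W (GammaH N H)) : frW H (frW H f) = f :=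
  Subtype.ext (funext fun z => by simp only [coe_frW, frPt_frPt])

/-- The Fricke map on functions is injective. -/
theorem frW_injective : Function.Injective (frW H) := fun f g h => by
  rw [← frW_frW H f, h, frW_frW]

/-- The Fricke substitution on meromorphic functions. -/
def frK : KW (GammaH N H) →+* KW (GammaH N H) :=
  IsFractionRing.lift (A := W (GammaH N H))
    (g := (algebraMap (W (GammaH N H)) (KW (GammaH N H))).comp (frW H).toRingHom)
    ((algebraMap_W_injective _).comp (frW_injective H))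

/-- The map on fractions extends the map on functions. -/
theorem frK_algebraMap (f : W (GammaH N H)) :
    frK H (algebraMap (W (GammaH N H)) (KW (GammaH N H)) f) =
      algebraMap (W (GammaH N H)) (KW (GammaH N H)) (frW H f) :=
  IsFractionRing.lift_algebraMap (K := KW (GammaH N H))
    (g := (algebraMap (W (GammaH N H)) (KW (GammaH N H))).comp (frW H).toRingHom) _ f

/-- The map on fractions is an involution. -/
theorem frK_frK (k : KW (GammaH N H)) : frK H (frK H k) = k := by
  obtain ⟨a, b, -, rfl⟩ := IsFractionRing.div_surjective (A := W (GammaH N H)) k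
  simp only [map_div₀, frK_algebraMap, frW_frW]

/-- The Fricke image of `j` has the expansion of `j (N τ)`. -/
theorem qW_frW_jW : qW (GammaH N H) (frW H (jW _)) = coeffEmb ℂ (qExpand ℚ N jq) := by
  refine Eq.trans (congrArg (qW (GammaH N H)) (?_ : frW H (jW _) = ⟨jN N, jN_mem_W_GammaH⟩))
    (Fermat.MC.qW_jN N)
  exact Subtype.ext (funext fun z => Fermat.MC.jA_smul _ _)

/-- The Fricke map sends `j (N τ)` to `j`. -/
theorem frW_jN : frW H ⟨jN N, jN_mem_W_GammaH⟩ = jW _ := by
  refine Subtype.ext (funext fun z => ?_)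
  change jN N (frPt N z) = Fermat.MC.jA z
  have h : affH (posN N) 0 (frPt N z) = ModularGroup.S • z := by
    apply UpperHalfPlane.ext
    rw [UpperHalfPlane.modular_S_smul]
    simp only [coe_affH, coe_frPt, posN]
    have hN : (N : ℂ) ≠ 0 := Nat.cast_ne_zero.mpr (NeZero.ne N)
    simp [inv_neg]
    field_simp [hN, UpperHalfPlane.ne_zero z]
  change Fermat.MC.jA (affH (posN N) 0 (frPt N z)) = _
  rw [h, Fermat.MC.jA_smul]

/-- The expansion of the Fricke image of a generator. -/
theorem qW_frW_gW (d : ZMod N) :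
    qW (GammaH N H) (frW H ⟨gW H d, gW_mem_W d⟩) =
      colL (zetaC N) (hSet H d) * qExpand ℂ N (coeffEmb ℂ (xiQ ^ 2)) := by
  have hA := bddPer_colSeries (N := N) (hSet H d)
  let A : perAlg := ⟨_, hA.mem_perAlg⟩
  let B : perAlg := ⟨wFour ∘ affH (posN N) 0,
    Fermat.MC.mem_perAlg_comp_posN N wFour_mem_perAlg⟩
  have e : Subalgebra.inclusion (W_le_perAlg (GammaH N H)) (frW H ⟨gW H d, gW_mem_W d⟩) =
      A * B := by
    refine Subtype.ext (funext fun z => ?_)
    change gW H d (frPt N z) = colSeries (hSet H d) z * wFour (affH (posN N) 0 z)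
    simp only [gW, gN, frPt, gSum_smul, wFour_smul, colSeries]
    have hset : actS ModularGroup.S (rowSet (hSet H d)) =
        {w : Fin 2 → ZMod N | w 1 ∈ hSet H d} := by
      ext w
      simp only [actS, rowSet, Set.mem_ofPred_eq]
      simp [Matrix.vecMul, dotProduct, Fin.sum_univ_two, Matrix.SpecialLinearGroup.coe_inv,
        Matrix.adjugate_fin_two, ModularGroup.coe_S]
      exact ⟨fun h => by simpa using neg_mem_hSet h, fun h => neg_mem_hSet h⟩
    rw [hset]
    have hd := UpperHalfPlane.denom_ne_zero ModularGroup.S (affH (posN N) 0 z)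
    have hk := gConst_ne_zero
    field_simp
  rw [show qW (GammaH N H) (frW H ⟨gW H d, gW_mem_W d⟩) = qL (A * B) from congrArg qL e, map_mul,
    Fermat.MC.qL_eq_qS hA, qS_colSeries, ← qL_wFour,
    ← Fermat.MC.qL_comp_posN N]

end Fermat.JAC.XH

end
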