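import Fermat.Agent.JAC.XH.Fricke
import Mathlib.RingTheory.RootsOfUnity.AlgebraicallyClosed

/-!
# The Fricke involution on the function fields of `X_H(N)`

The involution is `frL`, and `frL_diamond` shows that it inverts diamonds.
-/

set_option autoImplicit false
set_option linter.unusedSectionVars false

attribute [local instance 10000] SubalgebraClass.toAlgebra HahnSeries.powerSeriesAlgebra

noncomputable section

open CongruenceSubgroup IntermediateField
open ModularCurve (coeffEmb coeffMap qExpand jq coeffEmb_mem_laurentBaseChange)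
open UpperHalfPlane hiding I
open scoped MatrixGroups

namespace Fermat.JAC.XH

open Fermat.MC.Lvl
open Fermat.MC (xiQ)

/-- Some candidate generator separates the conjugates when `1 < N`. -/
theorem exists_separating (N : ℕ) [NeZero N] (H : Subgroup (ZMod N)ˣ) [NegMem H] :
    ∃ t : ℕ, 1 < N → Function.Injective fun q => conjHom (GammaH N H) q (genCand H t) := by
  by_cases h : 1 < N
  · exact (exists_genCand (H := H) h).imp fun t ht _ => ht
  · exact ⟨0, fun h' => absurd h' h⟩

/-- At level one there is only one conjugate. -/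
theorem conjHom_jW_injective_of_not (N : ℕ) [NeZero N] (H : Subgroup (ZMod N)ˣ) (h : ¬ 1 < N) :
    Function.Injective fun q => conjHom (GammaH N H) q (jW (GammaH N H)) := fun q q' _ => by
  have hN : N = 1 := by have := NeZero.pos N; omega
  subst hN
  induction q using QuotientGroup.induction_on with
  | H γ =>
  induction q' using QuotientGroup.induction_on with
  | H γ' =>
    refine QuotientGroup.eq.mpr (mem_GammaH.mpr ⟨Gamma0_mem.mpr (Subsingleton.elim _ _), ?_⟩)
    rw [Subsingleton.elim (gamma0Units 1 _) 1]
    exact one_mem H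

/-- The field contains the `N`-th roots of unity. -/
class HasZeta (N : ℕ) {L : Type*} [Field L] (ι : L →+* ℂ) : Prop where
  /-- Some element maps to the standard root of unity. -/
  exists_zeta : ∃ ζ : L, ι ζ = zetaC N

/-- Algebraically closed fields contain the roots of unity. -/
instance hasZeta_of_isAlgClosed (N : ℕ) [NeZero N] {L : Type*} [Field L] [IsAlgClosed L]
    [CharZero L] (ι : L →+* ℂ) : HasZeta N ι where
  exists_zeta := by
    have : NeZero (N : L) := ⟨Nat.cast_ne_zero.mpr (NeZero.ne N)⟩
    obtain ⟨ξ, hξ⟩ := HasEnoughRootsOfUnity.exists_primitiveRoot L N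
    obtain ⟨i, -, hi⟩ := (hξ.map_of_injective ι.injective).eq_pow_of_pow_eq_one
      (zetaC_pow_self (N := N))
    exact ⟨ξ ^ i, by rw [map_pow, hi]⟩

/-- A modular function whose expansion has coefficients in `L` lies in the field over `L`. -/
theorem mem_FL_of_qW {G : Subgroup SL(2, ℤ)} [LevelGen G] {L : Type*} [Field L] [Algebra ℚ L]
    (ι : L →+* ℂ) (x : LaurentSeries L) (f : W G) (hf : qW G f = coeffMap ι x) : x ∈ FL G L := by
  let : Algebra L ℂ := ι.toAlgebra
  -- An `L`-linear retraction of `ℂ` to `L`, applied to coefficients.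
  obtain ⟨φ, hφ⟩ := LinearMap.exists_leftInverse_of_injective (Algebra.linearMap L ℂ)
    (LinearMap.ker_eq_bot.mpr (algebraMap L ℂ).injective)
  have hφι : ∀ c : L, φ (ι c) = c := fun c => LinearMap.congr_fun hφ c
  have hφsmul : ∀ (c : L) (w : ℂ), φ (ι c * w) = c * φ w := fun c w => by
    rw [show ι c * w = c • w from rfl, map_smul, smul_eq_mul]
  let ρ : LaurentSeries ℂ →+ LaurentSeries L :=
    { toFun := fun y => y.map φ.toAddMonoidHom
      map_zero' := by ext; simp
      map_add' := fun y z => by ext; simp }
  have hρι : ∀ y : LaurentSeries L, ρ (coeffMap ι y) = y := fun y => by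
    ext n; exact hφι _
  -- It maps polynomials in `j` and the generator into the field over `L`.
  have hρbi : ∀ P, ρ (biQ G P) ∈ FL G L := by
    intro P
    induction P using Polynomial.induction_on' with
    | add p q hp hq => rw [map_add, map_add]; exact add_mem hp hq
    | monomial b p =>
      induction p using Polynomial.induction_on' with
      | add p q hp hq => rw [map_add, map_add, map_add]; exact add_mem hp hq
      | monomial a c =>
        have e : ρ (biQ G (Polynomial.monomial b (Polynomial.monomial a c))) =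
            algebraMap L (LaurentSeries L) (φ c) * coeffEmb L (jq ^ a * genQ G ^ b) := by
          rw [biQ_monomial, ← Fermat.MC.coeffMap_ι_coeffEmb ι]
          ext n
          change φ (HahnSeries.coeff _ n) = _
          rw [ModularCurve.algebraMap_laurentSeries_eq_single,
            ModularCurve.algebraMap_laurentSeries_eq_single, HahnSeries.coeff_single_zero_mul,
            HahnSeries.coeff_single_zero_mul, ModularCurve.coeffMap_coeff, mul_comm, hφsmul,
            mul_comm]
        rw [e]
        exact mul_mem ((FL G L).algebraMap_mem _) (coeffEmb_mem_laurentBaseChange L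
          (mul_mem (pow_mem (jq_mem_FQ G) a) (pow_mem (genQ_mem_FQ G) b)))
  -- Apply it to `f * den = P`.
  obtain ⟨P, -, hP⟩ := exists_interp G f
  have h1 := congrArg (fun z => ρ (qW G z)) hP
  simp only [map_mul, hf, qW_denG, ← Fermat.MC.coeffMap_ι_coeffEmb ι (denQ G)] at h1
  rw [← map_mul, hρι] at h1
  have hden : coeffEmb L (denQ G) ≠ 0 := (map_ne_zero _).mpr (denQ_ne_zero G)
  have hdmem : coeffEmb L (denQ G) ∈ FL G L := by
    refine coeffEmb_mem_laurentBaseChange L ?_
    rw [FQ_eq_adjoin, denQ]
    exact biQQ_mem G _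
  rw [eq_div_of_mul_eq hden h1]
  exact div_mem (hρbi P) hdmem

variable (N : ℕ) [NeZero N] (H : Subgroup (ZMod N)ˣ) [NegMem H]
  {L : Type*} [Field L] [Algebra ℚ L] (ι : L →+* ℂ)

/-- The chosen root of unity. -/
def zetaL [HasZeta N ι] : L := (HasZeta.exists_zeta (N := N) (ι := ι)).choose

/-- The chosen root maps to `exp (2 π i / N)`. -/
theorem map_zetaL [HasZeta N ι] : ι (zetaL N ι) = zetaC N :=
  (HasZeta.exists_zeta (N := N) (ι := ι)).choose_spec

/-- The chosen root is an `N`-th root of unity. -/
theorem zetaL_pow [HasZeta N ι] : zetaL N ι ^ N = 1 :=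
  ι.injective (by rw [map_pow, map_zetaL, zetaC_pow_self, map_one])

variable [HasZeta N ι]

/-- The Fricke involution preserves the field defined over `L`. -/
theorem frK_toKW_mem (x : FL (GammaH N H) L) :
    qK (GammaH N H) (frK H (toKW (GammaH N H) ι x)) ∈
      ((coeffMap ι).comp (FL (GammaH N H) L).val.toRingHom).fieldRange := by
  set G := GammaH N H
  set R := ((coeffMap ι).comp (FL G L).val.toRingHom).fieldRange
  have hrat : ∀ (f : W G) (r : LaurentSeries ℚ), qW G f = coeffEmb ℂ r → qW G f ∈ R :=
    fun f r hr => ⟨⟨coeffEmb L r, coeffEmb_mem_laurentBaseChange L (mem_FQ_of_qW G f hr)⟩, by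
      rw [hr]; exact Fermat.MC.coeffMap_ι_coeffEmb ι r⟩
  -- It is enough to treat `j` and one separating function `f`, which generate the field.
  have hj : qK G (frK H (toKW G ι (jL G L))) ∈ R := by
    rw [toKW_jL, frK_algebraMap, qK_algebraMap]
    exact hrat _ _ (qW_frW_jW H)
  suffices key : ∃ (f : W G) (z : FL G L),
      toKW G ι z = algebraMap (W G) (KW G) f ∧
      (Function.Injective fun q => conjHom G q f) ∧ qW G (frW H f) ∈ R by
    obtain ⟨f, z, hz, hinj, hf⟩ := key
    have htop := adjoin_pair_eq_top_of_injective ι hz hinj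
    refine IntermediateField.adjoin_induction L (fun y hy => ?_) (fun c => ?_)
      (fun _ _ _ _ h h' => ?_) (fun _ _ h => ?_) (fun _ _ _ _ h h' => ?_)
      (htop.ge (mem_top (x := x)))
    · rcases hy with rfl | rfl
      · exact hj
      · rw [hz, frK_algebraMap, qK_algebraMap]; exact hf
    · refine ⟨algebraMap L (FL G L) c, ?_⟩
      rw [toKW_algebraMap, frK_algebraMap, qK_algebraMap, AlgHom.commutes, AlgHom.commutes]
      exact Fermat.MC.coeffMap_ι_algebraMap ι c
    · rw [map_add, map_add, map_add]; exact add_mem h h'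
    · rw [map_inv₀, map_inv₀, map_inv₀]; exact inv_mem h
    · rw [map_mul, map_mul, map_mul]; exact mul_mem h h'
  -- For `N > 1` take a separating candidate, whose Fricke image has coefficients in `L`.
  by_cases h1 : 1 < N
  · obtain ⟨t, ht⟩ := exists_separating N H
    refine ⟨genCand H t, ⟨_, coeffEmb_mem_laurentBaseChange L
      (mem_FQ_of_qW G _ (qW_genCand h1 t))⟩, (qK G).injective (by
        rw [qK_toKW, qK_algebraMap, qW_genCand h1 t]
        exact Fermat.MC.coeffMap_ι_coeffEmb ι _), ht h1, ?_⟩
    have : CharZero L := charZero_of_injective_algebraMap (algebraMap ℚ L).injective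
    have hg : qW G (frW H ⟨gW H 1, gW_mem_W 1⟩) ∈ R := by
      have hmem : coeffMap ι (colL (zetaL N ι) (hSet H 1) * qExpand L N (coeffEmb L (xiQ ^ 2))) =
          qW G (frW H ⟨gW H 1, gW_mem_W 1⟩) := by
        rw [qW_frW_gW H, map_mul, coeffMap_colL, map_zetaL, ModularCurve.coeffMap_qExpand,
          Fermat.MC.coeffMap_ι_coeffEmb]
      exact ⟨⟨_, mem_FL_of_qW ι _ _ hmem.symm⟩, hmem⟩
    rw [genCand, map_add, map_nsmul, map_add, map_nsmul, frW_jN]
    exact add_mem hg (nsmul_mem (hrat _ _ (qW_jW G)) t)
  · refine ⟨jW G, jL G L, toKW_jL G ι, conjHom_jW_injective_of_not N H h1, hrat _ _ (qW_frW_jW H)⟩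

/-- The function over `L` whose expansion is that of the Fricke transform of `x`. -/
def frLFun (x : FL (GammaH N H) L) : FL (GammaH N H) L := (frK_toKW_mem N H ι x).choose

/-- The expansion of the transformed function. -/
theorem coeffMap_frLFun (x : FL (GammaH N H) L) :
    coeffMap ι (frLFun N H ι x : LaurentSeries L) =
      qK (GammaH N H) (frK H (toKW (GammaH N H) ι x)) :=
  (frK_toKW_mem N H ι x).choose_spec

/-- The transformed function is the Fricke transform. -/
theorem toKW_frLFun (x : FL (GammaH N H) L) :
    toKW (GammaH N H) ι (frLFun N H ι x) = frK H (toKW (GammaH N H) ι x) :=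
  (qK (GammaH N H)).injective (by rw [qK_toKW, coeffMap_frLFun])

/-- The transformation is an involution. -/
theorem frLFun_frLFun (x : FL (GammaH N H) L) : frLFun N H ι (frLFun N H ι x) = x :=
  (toKW (GammaH N H) ι).injective (by rw [toKW_frLFun, toKW_frLFun, frK_frK])

/-- The Fricke involution of `X_H(N)`. -/
def frL : FL (GammaH N H) L ≃ₐ[L] FL (GammaH N H) L where
  toFun := frLFun N H ι
  invFun := frLFun N H ι
  left_inv := frLFun_frLFun N H ι
  right_inv := frLFun_frLFun N H ι
  map_mul' x y := (toKW (GammaH N H) ι).injective (by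
    rw [map_mul, toKW_frLFun, toKW_frLFun, toKW_frLFun, map_mul, map_mul])
  map_add' x y := (toKW (GammaH N H) ι).injective (by
    rw [map_add, toKW_frLFun, toKW_frLFun, toKW_frLFun, map_add, map_add])
  commutes' c := (toKW (GammaH N H) ι).injective (by
    rw [toKW_frLFun, toKW_algebraMap, frK_algebraMap, AlgHom.commutes])

/-- The Fricke automorphism is the Fricke transform. -/
theorem toKW_frL (x : FL (GammaH N H) L) :
    toKW (GammaH N H) ι (frL N H ι x) = frK H (toKW (GammaH N H) ι x) :=
  toKW_frLFun N H ι x

/-- The Fricke automorphism is an involution. -/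
theorem frL_frL (x : FL (GammaH N H) L) : frL N H ι (frL N H ι x) = x := frLFun_frLFun N H ι x

/-- The expansion of the Fricke transform of a function holomorphic on `ℍ`. -/
theorem coe_frL_of_qW {x : FL (GammaH N H) L} {f : W (GammaH N H)} {r : LaurentSeries L}
    (hx : toKW (GammaH N H) ι x = algebraMap (W (GammaH N H)) (KW (GammaH N H)) f)
    (hr : qW (GammaH N H) (frW H f) = coeffMap ι r) :
    (frL N H ι x : LaurentSeries L) = r :=
  (coeffMap ι).injective (by
    rw [← hr]
    change coeffMap ι (frLFun N H ι x : LaurentSeries L) = _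
    rw [coeffMap_frLFun, hx, frK_algebraMap, qK_algebraMap])

/-- The Fricke involution inverts diamonds. -/
theorem frL_diamond (u : (ZMod N)ˣ) (x : FL (GammaH N H) L) :
    frL N H ι (diamondHom H ι u x) = diamondHom H ι u⁻¹ (frL N H ι x) := by
  obtain ⟨δ', hu, hz⟩ := exists_frConj (unitLift u)
  have e : diamond ι δ' = (diamondHom H ι u⁻¹ : FL (GammaH N H) L ≃ₐ[L] _) := by
    rw [← diamondHom_gamma0Units, hu, gamma0Units_unitLift]
  rw [← e]
  refine (toKW (GammaH N H) ι).injective ?_
  change toKW _ ι (frL N H ι (diamond ι (unitLift u) x)) = _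
  rw [toKW_frL, toKW_diamond, toKW_diamond, toKW_frL]
  obtain ⟨a, b, -, hab⟩ := IsFractionRing.div_surjective (A := W (GammaH N H))
    (toKW (GammaH N H) ι x)
  have hW : ∀ f : W (GammaH N H), frW H (transW (ratNormal_Gamma0 (unitLift u).2) f) =
      transW (ratNormal_Gamma0 δ'.2) (frW H f) := fun f =>
    Subtype.ext (funext fun z => congrArg (f : ℍ → ℂ) (hz z).symm)
  rw [← hab]
  simp only [map_div₀, RatMap.homK_algebraMap, frK_algebraMap]
  exact congrArg₂ (· / ·) (congrArg _ (hW a)) (congrArg _ (hW b))

end Fermat.JAC.XH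

end
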