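import Fermat.Agent.JAC.XH.Eisen4
import Fermat.Agent.MC.Lvl.Generator

/-!
# Expansions of Eisenstein series after the Fricke substitution

Among them is `qL_wFour`, the expansion of `wFour`.
-/

set_option autoImplicit false
set_option linter.unusedSectionVars false

noncomputable section

open Complex
open UpperHalfPlane hiding I
open EisensteinSeries
open ModularCurve (coeffEmb coeffMap)
open scoped Real MatrixGroups Manifold

local notation "Δ" => ModularForm.discriminant

namespace Fermat.JAC.XH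

open Fermat.MC (BddPer affH posN qS qL perAlg xiQ E46 bddPer_E46)
open Fermat.MC.Lvl (gSum gTerm gConst wFour)

variable {N : ℕ} [NeZero N]

/-- The vectors whose second class lies in `U`. -/
def colFinset (U : Set (ZMod N)) : Finset (Fin 2 → ZMod N) :=
  (Set.toFinite {a : Fin 2 → ZMod N | a 1 ∈ U}).toFinset

/-- Membership is a condition on the second class. -/
theorem mem_colFinset {U : Set (ZMod N)} {a : Fin 2 → ZMod N} : a ∈ colFinset U ↔ a 1 ∈ U := by
  simp [colFinset]

/-- The sum over a finite set of classes splits by classes. -/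
theorem gSum_eq_sum {S : Set (Fin 2 → ZMod N)} {T : Finset (Fin 2 → ZMod N)}
    (hT : ∀ a, a ∈ T ↔ a ∈ S) (z : ℍ) : gSum S z = ∑ a ∈ T, G4 N a z := by
  classical
  have hs : ∀ a ∈ T,
      Summable (Set.indicator (vecSet N a) fun v => eisSummand 4 v z) := fun a _ =>
    (summable_subtype_iff_indicator (f := fun v => eisSummand 4 v z)).mp (summable_G4 N a z)
  have e : ∀ a, G4 N a z = ∑' v, Set.indicator (vecSet N a) (fun v => eisSummand 4 v z) v :=
    fun a => tsum_subtype (vecSet N a) fun v => eisSummand 4 v z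
  simp only [e]
  rw [← Summable.tsum_finsetSum hs, gSum]
  refine tsum_congr fun v => ?_
  simp only [gTerm, Set.indicator_apply, vecSet, Set.mem_ofPred_eq]
  rw [Finset.sum_ite_eq, show (fun i => ((v i : ℤ) : ZMod N)) = ((↑) : ℤ → ZMod N) ∘ v from rfl]
  exact if_congr (hT _).symm rfl rfl

/-- The sum over a set of second classes splits by classes. -/
theorem gSum_colSet (U : Set (ZMod N)) (z : ℍ) :
    gSum {w : Fin 2 → ZMod N | w 1 ∈ U} z = ∑ a ∈ colFinset U, G4 N a z :=
  gSum_eq_sum (fun _ => mem_colFinset) z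

section Poly

variable {L : Type*} [Field L]

/-- A power of `ζ` indexed by a class modulo `N`. -/
def zp (ζ : L) (u : ZMod N) : L := ζ ^ u.val

/-- The coefficients of the series of a class, as rational polynomials in `ζ`. -/
def eisA (ζ : L) (a : Fin 2 → ZMod N) (n : ℕ) : L :=
  (if n = 0 ∧ a 0 = 0 then -((N : L) ^ 3 / 4) * ∑ j ∈ Finset.range N,
      zp ζ (-(a 1)) ^ j * (((Polynomial.bernoulli 4).eval ((j : ℚ) / N) : ℚ) : L) else 0) +
    ∑ x ∈ n.divisorsAntidiagonal, (x.2 : L) ^ 3 *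
      ((if ((x.1 : ℤ) : ZMod N) = a 0 then zp ζ (a 1) ^ x.2 else 0) +
        if ((-(x.1 : ℤ) : ℤ) : ZMod N) = a 0 then zp ζ (-(a 1)) ^ x.2 else 0)

/-- The coefficients of the series of a set of second classes. -/
def colC (ζ : L) (U : Set (ZMod N)) (n : ℕ) : L :=
  (2 * (N : L) ^ 4)⁻¹ * ∑ a ∈ colFinset U, eisA ζ a n

/-- Changing the root by a unit multiplies the class. -/
theorem zp_pow {ζ : L} (hζ : ζ ^ N = 1) (χ : (ZMod N)ˣ) (u : ZMod N) :
    zp (ζ ^ (χ : ZMod N).val) u = zp ζ ((χ : ZMod N) * u) := by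
  rw [zp, zp, ← pow_mul, pow_eq_pow_mod _ hζ, ZMod.val_mul]

/-- The coefficients commute with field maps. -/
theorem map_eisA {L' : Type*} [Field L'] [CharZero L] [CharZero L'] (σ : L →+* L') (ζ : L)
    (a : Fin 2 → ZMod N) (n : ℕ) : σ (eisA ζ a n) = eisA (σ ζ) a n := by
  simp only [eisA, map_add, map_sum, map_mul, map_pow, map_natCast, apply_ite σ, map_zero, zp,
    map_neg, map_div₀, map_ofNat, map_ratCast]

/-- The coefficients of a set commute with field maps. -/
theorem map_colC {L' : Type*} [Field L'] [CharZero L] [CharZero L'] (σ : L →+* L') (ζ : L)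
    (U : Set (ZMod N)) (n : ℕ) : σ (colC ζ U n) = colC (σ ζ) U n := by
  simp only [colC, map_mul, map_inv₀, map_ofNat, map_pow, map_natCast, map_sum, map_eisA]

/-- Changing the root multiplies the second class. -/
theorem eisA_pow {ζ : L} (hζ : ζ ^ N = 1) (χ : (ZMod N)ˣ) (a : Fin 2 → ZMod N) (n : ℕ) :
    eisA (ζ ^ (χ : ZMod N).val) a n = eisA ζ ![a 0, (χ : ZMod N) * a 1] n := by
  simp only [eisA, Matrix.cons_val_zero, Matrix.cons_val_one, zp_pow hζ, mul_neg]

/-- Changing the root moves the set of second classes. -/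
theorem colC_pow {ζ : L} (hζ : ζ ^ N = 1) (χ : (ZMod N)ˣ) (U : Set (ZMod N)) (n : ℕ) :
    colC (ζ ^ (χ : ZMod N).val) U n =
      colC ζ {u | ((χ⁻¹ : (ZMod N)ˣ) : ZMod N) * u ∈ U} n := by
  rw [colC, colC]
  congr 1
  refine Finset.sum_bij' (fun a _ => ![a 0, (χ : ZMod N) * a 1])
    (fun a _ => ![a 0, ((χ⁻¹ : (ZMod N)ˣ) : ZMod N) * a 1])
    (fun a ha => ?_) (fun a ha => ?_) (fun a _ => ?_) (fun a _ => ?_) (fun a _ => eisA_pow hζ χ a n)
  · rw [mem_colFinset] at ha ⊢
    simpa [← mul_assoc] using ha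
  · rw [mem_colFinset] at ha ⊢
    simpa using ha
  · funext i; fin_cases i <;> simp [← mul_assoc]
  · funext i; fin_cases i <;> simp [← mul_assoc]

/-- The series of a set of second classes. -/
def colL (ζ : L) (U : Set (ZMod N)) : LaurentSeries L :=
  HahnSeries.ofPowerSeries ℤ L (PowerSeries.mk (colC ζ U))

/-- The coefficients of the series of a set. -/
theorem coeff_colL (ζ : L) (U : Set (ZMod N)) (n : ℕ) : (colL ζ U).coeff (n : ℤ) = colC ζ U n := by
  rw [colL, HahnSeries.ofPowerSeries_apply_coeff, PowerSeries.coeff_mk]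

/-- The series commute with field maps. -/
theorem coeffMap_colL {L' : Type*} [Field L'] [CharZero L] [CharZero L'] (σ : L →+* L') (ζ : L)
    (U : Set (ZMod N)) : coeffMap σ (colL ζ U) = colL (σ ζ) U := by
  ext k
  rcases lt_or_ge k 0 with hk | hk
  · rw [ModularCurve.coeffMap_coeff, colL, colL, ModularCurve.ofPowerSeries_coeff_of_neg _ hk,
      ModularCurve.ofPowerSeries_coeff_of_neg _ hk, map_zero]
  · obtain ⟨n, rfl⟩ := Int.eq_ofNat_of_zero_le hk
    rw [ModularCurve.coeffMap_coeff, coeff_colL, coeff_colL, map_colC]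

end Poly

/-- The root of unity `exp (2 π i / N)`. -/
def zetaC (N : ℕ) : ℂ := qz ((1 : ℂ) / N)

/-- `exp (2 π i / N)` is an `N`-th root of unity. -/
theorem zetaC_pow_self : zetaC N ^ N = 1 := by
  have hN : (N : ℂ) ≠ 0 := Nat.cast_ne_zero.mpr (NeZero.ne N)
  rw [zetaC, qz_pow, qz, show 2 * π * I * ((N : ℂ) * (1 / N)) = ((1 : ℤ) : ℂ) * (2 * π * I) by
    field_simp; simp]
  exact Complex.exp_int_mul_two_pi_mul_I 1

/-- `exp (2 π i r / N)` as a power of the root. -/
theorem qz_div_eq_zp (r : ℤ) : qz ((r : ℂ) / N) = zp (zetaC N) (r : ZMod N) := by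
  have hN : (N : ℂ) ≠ 0 := Nat.cast_ne_zero.mpr (NeZero.ne N)
  have h := Int.emod_add_mul_ediv r N
  have hv : (((r : ZMod N)).val : ℤ) = r % N := ZMod.val_intCast r
  rw [zp, zetaC, qz_pow, qz, qz, ← div_eq_one_iff_eq (Complex.exp_ne_zero _), ← Complex.exp_sub,
    show 2 * π * I * ((r : ℂ) / N) - 2 * π * I * ((((r : ZMod N)).val : ℂ) * (1 / N)) =
      ((r / N : ℤ) : ℂ) * (2 * π * I) by
    have e : (r : ℂ) = (((r : ZMod N)).val : ℂ) + (N : ℂ) * ((r / N : ℤ) : ℂ) := by
      have e' : r = (((r : ZMod N)).val : ℤ) + (N : ℤ) * (r / N) := by rw [hv]; exact h.symm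
      exact_mod_cast congrArg (fun x : ℤ => (x : ℂ)) e'
    rw [e]
    field_simp
    ring]
  exact Complex.exp_int_mul_two_pi_mul_I _

/-- The expansion of `G4` at `N z`. -/
theorem hasSum_G4_posN (a : Fin 2 → ZMod N) (z : ℍ) :
    HasSum (fun n : ℕ => eisA (zetaC N) a n * qz (z : ℂ) ^ n)
      ((eisK N)⁻¹ * G4 N a (affH (posN N) 0 z)) := by
  classical
  obtain ⟨r, hr⟩ := ZMod.intCast_surjective (a 1)
  have h0 := G4_eq N a r hr (affH (posN N) 0 z)
  have hq : ((affH (posN N) 0 z : ℍ) : ℂ) / N = (z : ℂ) := by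
    rw [Fermat.MC.coe_affH]
    simp [posN]
    field_simp [(Nat.cast_ne_zero.mpr (NeZero.ne N) : (N : ℂ) ≠ 0)]
  rw [hq] at h0
  have hconst : (if a 0 = 0 then rowSum N 0 r (affH (posN N) 0 z) else 0) =
      eisK N * if a 0 = 0 then eisConst N r else 0 := by
    split_ifs
    · rw [rowSum_zero N r]
    · rw [mul_zero]
  rw [hconst, ← mul_add] at h0
  rw [h0, ← mul_assoc, inv_mul_cancel₀ (eisK_ne_zero N), one_mul]
  have h := (hasSum_ite_eq (0 : ℕ) (if a 0 = 0 then eisConst N r else 0)).add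
    (hasSum_divisors 3 (fun c k => rowWeight N a r c k) (norm_rowWeight_le N a r) z)
  refine h.congr_fun fun m => ?_
  have e1 : qz (-(r : ℂ) / N) = zp (zetaC N) (-(a 1)) := by
    rw [← hr, ← Int.cast_neg (R := ℂ), qz_div_eq_zp, Int.cast_neg]
  have e2 : qz ((r : ℂ) / N) = zp (zetaC N) (a 1) := by rw [qz_div_eq_zp, hr]
  rw [eisA, add_mul]
  simp only [rowWeight, eisConst, e1, e2]
  congr 1
  by_cases hm : m = 0 <;> by_cases ha0 : a 0 = 0 <;> simp [hm, ha0]

/-- `z ↦ gN(U)(-1/(N z))` without the automorphy factor. -/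
def colSeries (U : Set (ZMod N)) (z : ℍ) : ℂ :=
  gConst⁻¹ * gSum {w : Fin 2 → ZMod N | w 1 ∈ U} (affH (posN N) 0 z)

/-- The series in terms of `G4` after scaling by `N`. -/
theorem colSeries_eq (U : Set (ZMod N)) (z : ℍ) :
    colSeries U z = (2 * (N : ℂ) ^ 4)⁻¹ *
      ∑ a ∈ colFinset U, (eisK N)⁻¹ * G4 N a (affH (posN N) 0 z) := by
  have hk : gConst = 2 * (N : ℂ) ^ 4 * eisK N := by
    rw [gConst, eisK]
    field_simp [(Nat.cast_ne_zero.mpr (NeZero.ne N) : (N : ℂ) ≠ 0)]
  rw [colSeries, gSum_colSet, hk, ← Finset.mul_sum, mul_inv, mul_assoc]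

/-- The series is periodic and bounded at `∞`. -/
theorem bddPer_colSeries (U : Set (ZMod N)) : BddPer (colSeries U) := by
  have hbd : IsBoundedAtImInfty fun z => colSeries U z :=
    (((Fermat.MC.Lvl.isBoundedAtImInfty_gSum _).comp_tendsto
      (Fermat.MC.tendsto_affH _ _)).const_mul_left gConst⁻¹)
  refine ⟨mdifferentiable_const.mul (Fermat.MC.mdiff_comp_affH (Fermat.MC.Lvl.mdiff_gSum _) _ _),
    periodic_ext_of_vadd fun z => ?_, hbd⟩
  simp only [colSeries, gSum_colSet]
  rw [show affH (posN N) 0 ((1 : ℝ) +ᵥ z) = (N : ℝ) +ᵥ affH (posN N) 0 z from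
    UpperHalfPlane.ext (by simp [Fermat.MC.coe_affH, posN]; ring)]
  simp only [G4_vadd_natCast]

/-- The expansion of the series. -/
theorem qS_colSeries {U : Set (ZMod N)} :
    qS (colSeries U) = colL (zetaC N) U := by
  ext k
  rcases lt_or_ge k 0 with hk | hk
  · rw [qS, colL, ModularCurve.ofPowerSeries_coeff_of_neg _ hk,
      ModularCurve.ofPowerSeries_coeff_of_neg _ hk]
  · obtain ⟨n, rfl⟩ := Int.eq_ofNat_of_zero_le hk
    rw [coeff_colL]
    refine coeff_qS_eq (bddPer_colSeries U) (c := colC (zetaC N) U) (fun z => ?_) n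
    rw [colSeries_eq]
    have h := (hasSum_sum fun a (_ : a ∈ colFinset U) =>
      hasSum_G4_posN a z).mul_left (2 * (N : ℂ) ^ 4)⁻¹
    refine h.congr_fun fun m => ?_
    rw [colC, mul_assoc, Finset.sum_mul]

/-- The defining relation of `wFour`. -/
theorem wFour_mul_discriminant : wFour * Δ ^ 2 = E46 ^ 2 := by
  funext z
  simp only [wFour, Pi.mul_apply, Pi.pow_apply, div_pow]
  rw [div_mul_cancel₀ _ (pow_ne_zero _ (ModularForm.discriminant_ne_zero z))]

/-- `wFour` is periodic, holomorphic and of exponential growth. -/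
theorem wFour_mem_perAlg : wFour ∈ perAlg := by
  refine ⟨Fermat.MC.Lvl.mdiff_wFour, Fermat.MC.ext_add_one _ fun z => ?_,
    Fermat.MC.Lvl.expGrowth_wFour⟩
  rw [Fermat.MC.Lvl.wFour_smul]
  simp [denom, ModularGroup.coe_T]

/-- The expansion of `wFour`. -/
theorem qL_wFour : qL ⟨wFour, wFour_mem_perAlg⟩ = coeffEmb ℂ (xiQ ^ 2) := by
  have hb : IsBoundedAtImInfty (wFour * Δ ^ 2) := by
    rw [wFour_mul_discriminant]; exact (bddPer_E46.pow 2).2.2
  rw [Fermat.MC.qL_apply _ hb, wFour_mul_discriminant, Fermat.MC.qS_pow bddPer_E46, map_pow,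
    ← Fermat.MC.qS_E46_div, div_pow]

end Fermat.JAC.XH

end
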