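import Fermat.Agent.MC.Lvl.Degeneracy
import Fermat.Agent.JAC.X0.Basic
import Fermat.Agent.JAC.CorrDegree
import Fermat.Agent.JAC.QDiff

/-!
# The curves of general levels over `ℚ̄` and `ℂ`, and their degeneracy maps

The forgetful map is `inclFL`, and expansions at `∞` are `inftyEmb`.
-/

set_option autoImplicit false

attribute [local instance 10000] SubalgebraClass.toAlgebra HahnSeries.powerSeriesAlgebra

noncomputable section

open AlgebraicCurve ModularCurve IntermediateField
open scoped MatrixGroups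

namespace Fermat.JAC.XH

open Fermat.FF Fermat.MC.Lvl
open Fermat.JAC.X0 (Qbar embC)

section Fields

variable (G : Subgroup SL(2, ℤ)) [LevelGen G]

/-- The field of a level over `ℚ̄` is a function field. -/
instance isFunctionFieldBar : IsFunctionField Qbar (FL G Qbar) := isFunctionField_FL G embC

/-- The field of a level over `ℂ` is a function field. -/
instance isFunctionFieldC : IsFunctionField ℂ (FL G ℂ) := isFunctionField_FL G (RingHom.id ℂ)

/-- Extension of constants from `ℚ̄` to `ℂ`. It is tried before `SubalgebraClass.toAlgebra`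
(local priority 10000), which takes a second to fail on these pairs of fields. -/
instance (priority := 10001) algebraFL : Algebra (FL G Qbar) (FL G ℂ) := lbcAlgebra Qbar ℂ (FQ G)

/-- The field over `ℂ` is the constant extension of the field over `ℚ̄`. -/
instance isConstExtFL : IsConstExt Qbar ℂ (FL G Qbar) (FL G ℂ) := isConstExt_lbc Qbar ℂ (FQ G)

/-- The expansion at `∞`. -/
def inftyEmb : FL G ℂ →ₐ[ℂ] LaurentSeries ℂ := (FL G ℂ).val

/-- The expansion at `∞` is the inclusion in Laurent series. -/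
@[simp] theorem inftyEmb_apply (x : FL G ℂ) : inftyEmb G x = (x : LaurentSeries ℂ) := rfl

/-- `j` has a nonzero coefficient at `q⁻¹`. -/
theorem coeff_jL_ne_zero : (inftyEmb G (jL G ℂ)).coeff (-1 : ℤ) ≠ 0 := by
  change (coeffEmb ℂ jq).coeff (-1 : ℤ) ≠ 0
  rw [coeffEmb_coeff, coeff_jq_neg_one, map_one]
  exact one_ne_zero

/-- `j` is transcendental over `ℂ`. -/
theorem transcendental_jLC : Transcendental ℂ (jL G ℂ) := transcendental_jL G

/-- The degree of the zero divisor of `j` is the index of the level. -/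
theorem degree_zeroDiv_jL : Divisor.degree (zeroDiv ℂ (jL G ℂ)) = (psiG G : ℤ) := by
  rw [degree_zeroDiv (transcendental_jLC G), (finrank_FL G (RingHom.id ℂ)).1]

end Fields

section Maps

variable (L : Type*) [Field L] [Algebra ℚ L]

/-- Change of constants is monotone. -/
theorem lbc_mono {F₀ F₁ : IntermediateField ℚ (LaurentSeries ℚ)} (h : F₀ ≤ F₁) :
    laurentBaseChange L F₀ ≤ laurentBaseChange L F₁ :=
  adjoin.mono L _ _ (Set.image_mono h)

variable {G G' : Subgroup SL(2, ℤ)} [LevelGen G] [LevelGen G']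

/-- The forgetful map. -/
def inclFL (h : G' ≤ G) : FL G L →ₐ[L] FL G' L :=
  IntermediateField.inclusion (lbc_mono L (FQ_anti G h))

/-- The forgetful map keeps the expansion. -/
@[simp] theorem coe_inclFL (h : G' ≤ G) (x : FL G L) :
    (inclFL L h x : LaurentSeries L) = (x : LaurentSeries L) := IntermediateField.coe_inclusion _ _

/-- The forgetful map sends `j` to `j`. -/
theorem inclFL_jL (h : G' ≤ G) : inclFL L h (jL G L) = jL G' L :=
  Subtype.ext (coe_inclFL L h _)

variable {ℓ : ℕ} [NeZero ℓ]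

/-- `q ↦ q ^ ℓ` carries the field of `G` into that of `G'`. -/
theorem qExpand_mem_FL (h : ScaleLe ℓ G G') {x : LaurentSeries L} (hx : x ∈ FL G L) :
    qExpand L ℓ x ∈ FL G' L := by
  rw [FL, laurentBaseChange] at hx ⊢
  refine IntermediateField.adjoin_induction L (fun z hz => ?_) (fun c => ?_)
    (fun _ _ _ _ h h' => ?_) (fun _ _ h => ?_) (fun _ _ _ _ h h' => ?_) hx
  · obtain ⟨w, hw, rfl⟩ := hz
    rw [qExpand_coeffEmb]
    exact subset_adjoin L _ ⟨_, qExpand_mem_FQ h hw, rfl⟩
  · rw [algebraMap_laurentSeries_eq_single, qExpand_single, mul_zero,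
      ← algebraMap_laurentSeries_eq_single]
    exact IntermediateField.algebraMap_mem _ _
  · rw [map_add]; exact add_mem h h'
  · rw [map_inv₀]; exact inv_mem h
  · rw [map_mul]; exact mul_mem h h'

/-- The map `f ↦ f (ℓ τ)`. -/
def scaleFL (h : ScaleLe ℓ G G') : FL G L →ₐ[L] FL G' L where
  toFun x := ⟨qExpand L ℓ (x : LaurentSeries L), qExpand_mem_FL L h x.2⟩
  map_one' := Subtype.ext (map_one (qExpand L ℓ))
  map_mul' _ _ := Subtype.ext (map_mul (qExpand L ℓ) _ _)
  map_zero' := Subtype.ext (map_zero (qExpand L ℓ))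
  map_add' _ _ := Subtype.ext (map_add (qExpand L ℓ) _ _)
  commutes' a := Subtype.ext (by
    change qExpand L ℓ (algebraMap L (LaurentSeries L) a) = algebraMap L (LaurentSeries L) a
    rw [algebraMap_laurentSeries_eq_single, qExpand_single, mul_zero])

/-- `scaleFL` is `q ↦ q ^ ℓ` on expansions. -/
@[simp] theorem coe_scaleFL (h : ScaleLe ℓ G G') (x : FL G L) :
    (scaleFL L h x : LaurentSeries L) = qExpand L ℓ (x : LaurentSeries L) := rfl

/-- The forgetful map commutes with Galois. -/
theorem inclFL_smul (h : G' ≤ G) (σ : L ≃ₐ[ℚ] L) (x : FL G L) :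
    arithmeticGalois (FQ G') σ • inclFL L h x = inclFL L h (arithmeticGalois (FQ G) σ • x) :=
  Subtype.ext (by
    rw [coe_arithmeticGalois_smul, coe_inclFL, coe_inclFL, coe_arithmeticGalois_smul])

/-- `scaleFL` commutes with Galois. -/
theorem scaleFL_smul (h : ScaleLe ℓ G G') (σ : L ≃ₐ[ℚ] L) (x : FL G L) :
    arithmeticGalois (FQ G') σ • scaleFL L h x = scaleFL L h (arithmeticGalois (FQ G) σ • x) :=
  Subtype.ext (by
    rw [coe_arithmeticGalois_smul, coe_scaleFL, coe_scaleFL, coe_arithmeticGalois_smul,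
      ModularCurve.coeffMap_qExpand])

/-- The forgetful map commutes with extension of constants. -/
theorem inclFL_lbc (h : G' ≤ G) (f : FL G Qbar) :
    inclFL ℂ h (algebraMap (FL G Qbar) (FL G ℂ) f) =
      algebraMap (FL G' Qbar) (FL G' ℂ) (inclFL Qbar h f) :=
  Subtype.ext (by simp only [RingHom.algebraMap_toAlgebra, coe_inclFL, coe_lbcMap])

/-- `scaleFL` commutes with extension of constants. -/
theorem scaleFL_lbc (h : ScaleLe ℓ G G') (f : FL G Qbar) :
    scaleFL ℂ h (algebraMap (FL G Qbar) (FL G ℂ) f) =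
      algebraMap (FL G' Qbar) (FL G' ℂ) (scaleFL Qbar h f) :=
  Subtype.ext (by
    simp only [RingHom.algebraMap_toAlgebra, coe_scaleFL, coe_lbcMap,
        ModularCurve.coeffMap_qExpand])

/-- The forgetful map respects the cusp `∞`. -/
theorem inftyEmb_incl (h : G' ≤ G) : (inftyEmb G').comp (inclFL ℂ h) = inftyEmb G :=
  AlgHom.ext fun x => by rw [AlgHom.comp_apply, inftyEmb_apply, inftyEmb_apply, coe_inclFL]

/-- `scaleFL` is `q ↦ q ^ ℓ` at the cusp `∞`. -/
theorem inftyEmb_scale (h : ScaleLe ℓ G G') :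
    (inftyEmb G').comp (scaleFL ℂ h) = (qExpandC ℓ).comp (inftyEmb G) :=
  AlgHom.ext fun x => by
    rw [AlgHom.comp_apply, AlgHom.comp_apply, inftyEmb_apply, inftyEmb_apply, qExpandC_apply,
      coe_scaleFL]

/-- The degree of the forgetful map is the index. -/
theorem psiG_eq_finrankAlong (h : G' ≤ G) :
    psiG G' = finrankAlong ℂ (inclFL ℂ h) * psiG G := by
  have h1 := degree_zeroDiv_map (inclFL ℂ h) (jL G ℂ)
  rw [inclFL_jL, degree_zeroDiv_jL, degree_zeroDiv_jL] at h1
  exact_mod_cast h1

end Maps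

section FromX0

variable (G : Subgroup SL(2, ℤ)) [LevelGen G] {M : ℕ} [NeZero M]

open CongruenceSubgroup in
omit [NeZero M] in
/-- Below `Γ₀(M)` the field contains the functions of `X₀(M)`. -/
theorem modularFunctionFieldFull_le_FQ (h : G ≤ Gamma0 M) : modularFunctionFieldFull M ≤ FQ G := by
  rw [modularFunctionFieldFull, adjoin_le_iff]
  rintro x ⟨d, hne, hd, rfl⟩
  have := hne
  have hle : G ≤ Gamma0 d := h.trans (Fermat.MC.Gamma0_le_of_dvd M hd)
  exact mem_FQ_of_qW G ⟨_, W_anti hle (Fermat.MC.jN_mem_W d)⟩ (Fermat.MC.qW_jN d)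

/-- The inclusion of the function field of `X₀(M)`, pullback along the map to `X₀(M)`. -/
def fromFN (L : Type*) [Field L] [Algebra ℚ L] (h : G ≤ CongruenceSubgroup.Gamma0 M) :
    Fermat.MC.FN M L →ₐ[L] FL G L :=
  IntermediateField.inclusion (lbc_mono L (modularFunctionFieldFull_le_FQ G h))

omit [NeZero M] in
/-- `fromFN` keeps the expansion. -/
@[simp] theorem coe_fromFN {L : Type*} [Field L] [Algebra ℚ L]
    (h : G ≤ CongruenceSubgroup.Gamma0 M) (x : Fermat.MC.FN M L) :
    (fromFN G L h x : LaurentSeries L) = (x : LaurentSeries L) :=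
  IntermediateField.coe_inclusion _ _

end FromX0

end Fermat.JAC.XH

end
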